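import Fermat.Agent.GAL.RED.Main
import Fermat.Agent.GAL.FF.Corollaries
import Fermat.Prelude.Def_AlgebraicCurve_BaseChangeGalois

/-!
# FLAT / Geo : definitions of the geometric half (Khuri-Makdisi coordinates on `J[m]`)

Setting (as in `GAL/RED`): `K` algebraically closed with a valuation subring `A = R.A`, residue
field `k`; `F / K`, `Fb / k` function fields; `R : RedData K F k Fb` Cartesian, equal genera,
`r : Place K F → Place k Fb` with `IsRedMap R r`.

* `FixesRed R g` : the semilinear automorphism `g` of `F / K` induces the identity on `Fb`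
  (think: `g` in the inertia group).
* `colon V U U'` : `{u ∈ V | u U ⊆ U'}`.
* `RO R 𝓡` : for a finite set `S` and an `A`-algebra `𝓡` of functions `S → K`, the functions `S → F`
  of the form `s ↦ ∑ ρ_m(s) o_m` with `ρ_m ∈ 𝓡`, `o_m ∈ O`.
* `IsGood R 𝓡 U` : the family of subspaces `U s ⊆ F` has a basis in `RO R 𝓡` whose reductions stay
  linearly independent at every `s` ("constant rank family with good reduction").
-/

set_option autoImplicit false

namespace Fermat.Agent.FLAT.Geo

open AlgebraicCurve Fermat.Agent.Lib.RR Fermat.Agent.GAL.RED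

variable {K F k Fb : Type*} [Field K] [Field F] [Algebra K F] [Field k] [Field Fb] [Algebra k Fb]

/-- `g` acts trivially on the reduction. -/
def FixesRed (R : RedData K F k Fb) (g : SemilinearAut K F) : Prop :=
  ∀ f : F, R.red (g • f) = R.red f

/-- `{u ∈ V | u U ⊆ U'}`. -/
def colon {K F : Type*} [Field K] [Field F] [Algebra K F] (V U U' : Submodule K F) :
    Submodule K F where
  carrier := {u | u ∈ V ∧ ∀ w ∈ U, u * w ∈ U'}
  zero_mem' := ⟨V.zero_mem, fun w _ => by rw [zero_mul]; exact U'.zero_mem⟩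
  add_mem' := fun {a b} ha hb =>
    ⟨V.add_mem ha.1 hb.1, fun w hw => by rw [add_mul]; exact U'.add_mem (ha.2 w hw) (hb.2 w hw)⟩
  smul_mem' := fun c a ha =>
    ⟨V.smul_mem c ha.1, fun w hw => by rw [smul_mul_assoc]; exact U'.smul_mem c (ha.2 w hw)⟩

theorem mem_colon {K F : Type*} [Field K] [Field F] [Algebra K F] {V U U' : Submodule K F}
    {u : F} : u ∈ colon V U U' ↔ u ∈ V ∧ ∀ w ∈ U, u * w ∈ U' := Iff.rfl

/-- Functions `S → F` of the form `s ↦ ∑ ρ_m(s) o_m`, `ρ_m ∈ 𝓡`, `o_m ∈ O`. -/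
def RO (R : RedData K F k Fb) {S : Type*} (𝓡 : Subalgebra R.A (S → K)) : AddSubgroup (S → F) :=
  AddSubgroup.closure {φ | ∃ ρ ∈ 𝓡, ∃ o ∈ R.O, φ = fun s => ρ s • o}

/-- A family of subspaces with a basis in `RO R 𝓡` which stays independent after reduction. -/
def IsGood (R : RedData K F k Fb) {S : Type*} (𝓡 : Subalgebra R.A (S → K))
    (U : S → Submodule K F) : Prop :=
  ∃ (d : ℕ) (φ : Fin d → S → F), (∀ i, φ i ∈ RO R 𝓡) ∧
    ∀ s, Submodule.span K (Set.range fun i => φ i s) = U s ∧
      LinearIndependent k (fun i => R.red (φ i s))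

/-- `𝓡` consists of `A`-valued functions. -/
def IsIntegralValued (R : RedData K F k Fb) {S : Type*} (𝓡 : Subalgebra R.A (S → K)) : Prop :=
  ∀ ρ ∈ 𝓡, ∀ s, ρ s ∈ R.A

end Fermat.Agent.FLAT.Geo
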