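import Fermat.Agent.FLAT.Geo.Defs

/-!
# FLAT / Geo / FamAlg : algebra of the rings `𝓡 ⊆ Map(S, A)` and `RO R 𝓡 ⊆ Map(S, O)`

`S` finite, `𝓡` an `A`-subalgebra of `S → K` with values in `A`.
* an element of `𝓡` all of whose values are units of `A` is a unit of `𝓡`;
* determinants / inverses of matrices over `𝓡`;
* `RO R 𝓡` is a ring, a `𝓡`-module, contains the constants of `O`, has values in `O`.
-/

set_option autoImplicit false

namespace Fermat.Agent.FLAT.Geo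

open AlgebraicCurve Fermat.Agent.Lib.RR Fermat.Agent.GAL.RED

variable {K F k Fb : Type*} [Field K] [Field F] [Algebra K F] [Field k] [Field Fb] [Algebra k Fb]
variable {R : RedData K F k Fb} {S : Type*} {𝓡 : Subalgebra R.A (S → K)}

/-- constants of `A` lie in `𝓡`. -/
theorem const_mem (𝓡 : Subalgebra R.A (S → K)) {a : K} (ha : a ∈ R.A) : (fun _ : S => a) ∈ 𝓡 := by
  exact 𝓡.algebraMap_mem ⟨a, ha⟩

/-- **Units.** `ρ ∈ 𝓡` with all values units of `A` ⟹ `ρ⁻¹ ∈ 𝓡`.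
Proof: `χ(T) = ∏_{s} (T - ρ s) ∈ A[T]` kills `ρ` in `S → K`; `χ(0) = ± ∏ ρ s` is a unit of `A`;
`χ = χ(0) + T ψ(T)`, so `ρ⁻¹ = - χ(0)⁻¹ ψ(ρ) ∈ A[ρ] ⊆ 𝓡`.  (Compare `S19/A/Sep.lean`, `IsSep.inv`.) -/
theorem inv_mem [Finite S] (h𝓡 : IsIntegralValued R 𝓡) {ρ : S → K} (hρ : ρ ∈ 𝓡)
    (hu : ∀ s, R.redA (ρ s) ≠ 0) : (fun s => (ρ s)⁻¹) ∈ 𝓡 := by
  classical
  have := Fintype.ofFinite S
  have hne : ∀ s, ρ s ≠ 0 := fun s => (R.redA_ne_zero_iff.1 (hu s)).1
  have hinv : ∀ s, (ρ s)⁻¹ ∈ R.A := fun s => (R.redA_ne_zero_iff.1 (hu s)).2.2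
  obtain ⟨Q, hQ⟩ : ∃ Q : Polynomial R.A,
      Q = ∏ t : S, (1 - Polynomial.C (⟨(ρ t)⁻¹, hinv t⟩ : R.A) * Polynomial.X) := ⟨_, rfl⟩
  have hQ0 : Q.coeff 0 = 1 := by
    rw [Polynomial.coeff_zero_eq_eval_zero, hQ, Polynomial.eval_prod]
    simp
  have hQρ : ∀ s, Polynomial.aeval (ρ s) Q = 0 := by
    intro s
    rw [hQ, map_prod]
    refine Finset.prod_eq_zero (Finset.mem_univ s) ?_
    rw [map_sub, map_one, map_mul, Polynomial.aeval_C, Polynomial.aeval_X]
    show 1 - (ρ s)⁻¹ * ρ s = 0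
    rw [inv_mul_cancel₀ (hne s), sub_self]
  have hmem : ∀ q : Polynomial R.A, Polynomial.aeval ρ q ∈ 𝓡 := fun q => by
    have := Polynomial.aeval_subalgebra_coe q 𝓡 ⟨ρ, hρ⟩
    rw [← this]
    exact Subtype.property _
  have hpt : ∀ (q : Polynomial R.A) (s : S),
      (Polynomial.aeval ρ q) s = Polynomial.aeval (ρ s) q := fun q s =>
    (Polynomial.aeval_algHom_apply (Pi.evalAlgHom R.A (fun _ : S => K) s) ρ q).symm
  have hdiv : Q = Polynomial.X * Q.divX + Polynomial.C 1 := by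
    conv_lhs => rw [← Polynomial.X_mul_divX_add Q]
    rw [hQ0]
  have : (fun s => (ρ s)⁻¹) = Polynomial.aeval ρ (-Q.divX) := by
    funext s
    rw [hpt]
    have h := hQρ s
    rw [hdiv] at h
    rw [map_add, map_mul, Polynomial.aeval_X, Polynomial.aeval_C, map_one] at h
    rw [map_neg]
    apply inv_eq_of_mul_eq_one_right
    linear_combination -h
  rw [this]
  exact hmem _

/-- evaluation at `s`. -/
def FamAlg_ev (𝓡 : Subalgebra R.A (S → K)) (s : S) : 𝓡 →+* K :=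
  (Pi.evalRingHom (fun _ : S => K) s).comp 𝓡.val.toRingHom

theorem FamAlg_ev_apply (s : S) (x : 𝓡) : FamAlg_ev 𝓡 s x = (x : S → K) s := rfl

/-- a family of matrices with entries in `𝓡` as a matrix over `𝓡`. -/
def FamAlg_lift {n : Type*} (M : S → Matrix n n K) (hM : ∀ i j, (fun s => M s i j) ∈ 𝓡) :
    Matrix n n 𝓡 := fun i j => ⟨fun s => M s i j, hM i j⟩

theorem FamAlg_map_lift {n : Type*} [Fintype n] [DecidableEq n] (M : S → Matrix n n K)
    (hM : ∀ i j, (fun s => M s i j) ∈ 𝓡) (s : S) :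
    (FamAlg_ev 𝓡 s).mapMatrix (FamAlg_lift M hM) = M s := rfl

/-- determinants. -/
theorem det_mem {n : Type*} [Fintype n] [DecidableEq n] (M : S → Matrix n n K)
    (hM : ∀ i j, (fun s => M s i j) ∈ 𝓡) : (fun s => (M s).det) ∈ 𝓡 := by
  have : (fun s => (M s).det) = ((FamAlg_lift M hM).det : S → K) := by
    funext s
    rw [← FamAlg_ev_apply, RingHom.map_det, FamAlg_map_lift]
  rw [this]
  exact Subtype.property _

theorem FamAlg_adjugate_mem {n : Type*} [Fintype n] [DecidableEq n] (M : S → Matrix n n K)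
    (hM : ∀ i j, (fun s => M s i j) ∈ 𝓡) (i j : n) : (fun s => (M s).adjugate i j) ∈ 𝓡 := by
  have : (fun s => (M s).adjugate i j) = ((FamAlg_lift M hM).adjugate i j : S → K) := by
    funext s
    rw [← FamAlg_ev_apply, ← FamAlg_map_lift M hM s, ← RingHom.map_adjugate]
    rfl
  rw [this]
  exact Subtype.property _

/-- the reduction of the determinant. -/
theorem redA_det {n : Type*} [Fintype n] [DecidableEq n] (M : Matrix n n K)
    (hM : ∀ i j, M i j ∈ R.A) : R.redA M.det = (M.map R.redA).det := by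
  let M' : Matrix n n R.A := fun i j => ⟨M i j, hM i j⟩
  have h1 : M = R.A.subtype.mapMatrix M' := rfl
  have h2 : M.det = (M'.det : K) := by
    rw [h1, ← RingHom.map_det]
    rfl
  have h3 : M.map R.redA = R.resA.mapMatrix M' := by
    ext i j
    exact R.redA_of_mem (hM i j)
  rw [h2, h3, ← RingHom.map_det, R.redA_of_mem (Subtype.property _)]

/-- **Inverse matrices.** -/
theorem matrix_inv_mem [Finite S] (h𝓡 : IsIntegralValued R 𝓡) {n : Type*} [Fintype n]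
    [DecidableEq n] (M : S → Matrix n n K) (hM : ∀ i j, (fun s => M s i j) ∈ 𝓡)
    (hu : ∀ s, ((M s).map R.redA).det ≠ 0) : ∀ i j, (fun s => (M s)⁻¹ i j) ∈ 𝓡 := by
  intro i j
  have h1 : (fun s => ((M s).det)⁻¹) ∈ 𝓡 := by
    refine inv_mem h𝓡 (det_mem M hM) fun s => ?_
    rw [redA_det (M s) (fun i j => h𝓡 _ (hM i j) s)]
    exact hu s
  have h2 : (fun s => (M s)⁻¹ i j) =
      (fun s => ((M s).det)⁻¹) * (fun s => (M s).adjugate i j) := by
    funext s
    rw [Matrix.inv_def, Ring.inverse_eq_inv']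
    rfl
  rw [h2]
  exact 𝓡.mul_mem h1 (FamAlg_adjugate_mem M hM i j)

namespace RO

theorem const_mem' (𝓡 : Subalgebra R.A (S → K)) {o : F} (ho : o ∈ R.O) :
    (fun _ : S => o) ∈ RO R 𝓡 := by
  refine AddSubgroup.subset_closure ⟨1, 𝓡.one_mem, o, ho, ?_⟩
  funext s
  rw [Pi.one_apply, one_smul]

theorem smul_mem {ρ : S → K} (hρ : ρ ∈ 𝓡) {φ : S → F} (hφ : φ ∈ RO R 𝓡) :
    (fun s => ρ s • φ s) ∈ RO R 𝓡 := by
  unfold RO at hφ
  induction hφ using AddSubgroup.closure_induction with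
  | mem x hx =>
    obtain ⟨ρ', hρ', o, ho, rfl⟩ := hx
    refine AddSubgroup.subset_closure ⟨ρ * ρ', 𝓡.mul_mem hρ hρ', o, ho, ?_⟩
    funext s
    rw [Pi.mul_apply, mul_smul]
  | zero =>
    have : (fun s => ρ s • (0 : S → F) s) = 0 := by
      funext s
      rw [Pi.zero_apply, smul_zero]
    rw [this]
    exact (RO R 𝓡).zero_mem
  | add x y _ _ hx hy =>
    have : (fun s => ρ s • (x + y) s) = (fun s => ρ s • x s) + fun s => ρ s • y s := by
      funext s
      rw [Pi.add_apply, Pi.add_apply, smul_add]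
    rw [this]
    exact (RO R 𝓡).add_mem hx hy
  | neg x _ hx =>
    have : (fun s => ρ s • (-x) s) = -fun s => ρ s • x s := by
      funext s
      rw [Pi.neg_apply, Pi.neg_apply, smul_neg]
    rw [this]
    exact (RO R 𝓡).neg_mem hx

theorem FamAlg_gen_mul_mem {ρ : S → K} (hρ : ρ ∈ 𝓡) {o : F} (ho : o ∈ R.O) {ψ : S → F}
    (hψ : ψ ∈ RO R 𝓡) : (fun s => (ρ s • o) * ψ s) ∈ RO R 𝓡 := by
  unfold RO at hψ
  induction hψ using AddSubgroup.closure_induction with
  | mem x hx =>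
    obtain ⟨ρ', hρ', o', ho', rfl⟩ := hx
    refine AddSubgroup.subset_closure ⟨ρ * ρ', 𝓡.mul_mem hρ hρ', o * o', R.O.mul_mem _ _ ho ho', ?_⟩
    funext s
    rw [Pi.mul_apply, smul_mul_smul_comm]
  | zero =>
    have : (fun s => (ρ s • o) * (0 : S → F) s) = 0 := by
      funext s
      rw [Pi.zero_apply, mul_zero]
    rw [this]
    exact (RO R 𝓡).zero_mem
  | add x y _ _ hx hy =>
    have : (fun s => (ρ s • o) * (x + y) s) = (fun s => (ρ s • o) * x s) + fun s => (ρ s • o) * y s := by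
      funext s
      rw [Pi.add_apply, Pi.add_apply, mul_add]
    rw [this]
    exact (RO R 𝓡).add_mem hx hy
  | neg x _ hx =>
    have : (fun s => (ρ s • o) * (-x) s) = -fun s => (ρ s • o) * x s := by
      funext s
      rw [Pi.neg_apply, Pi.neg_apply, mul_neg]
    rw [this]
    exact (RO R 𝓡).neg_mem hx

theorem mul_mem {φ ψ : S → F} (hφ : φ ∈ RO R 𝓡) (hψ : ψ ∈ RO R 𝓡) :
    (fun s => φ s * ψ s) ∈ RO R 𝓡 := by
  unfold RO at hφ
  induction hφ using AddSubgroup.closure_induction with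
  | mem x hx =>
    obtain ⟨ρ, hρ, o, ho, rfl⟩ := hx
    exact FamAlg_gen_mul_mem hρ ho hψ
  | zero =>
    have : (fun s => (0 : S → F) s * ψ s) = 0 := by
      funext s
      rw [Pi.zero_apply, zero_mul]
    rw [this]
    exact (RO R 𝓡).zero_mem
  | add x y _ _ hx hy =>
    have : (fun s => (x + y) s * ψ s) = (fun s => x s * ψ s) + fun s => y s * ψ s := by
      funext s
      rw [Pi.add_apply, Pi.add_apply, add_mul]
    rw [this]
    exact (RO R 𝓡).add_mem hx hy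
  | neg x _ hx =>
    have : (fun s => (-x) s * ψ s) = -fun s => x s * ψ s := by
      funext s
      rw [Pi.neg_apply, Pi.neg_apply, neg_mul]
    rw [this]
    exact (RO R 𝓡).neg_mem hx

theorem sum_mem {ι : Type*} (t : Finset ι) {φ : ι → S → F} (hφ : ∀ i ∈ t, φ i ∈ RO R 𝓡) :
    (fun s => ∑ i ∈ t, φ i s) ∈ RO R 𝓡 := by
  have : (fun s => ∑ i ∈ t, φ i s) = ∑ i ∈ t, φ i := by
    funext s
    rw [Finset.sum_apply]
  rw [this]
  exact (RO R 𝓡).sum_mem hφ

theorem apply_mem (h𝓡 : IsIntegralValued R 𝓡) {φ : S → F} (hφ : φ ∈ RO R 𝓡) (s : S) :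
    φ s ∈ R.O := by
  unfold RO at hφ
  induction hφ using AddSubgroup.closure_induction with
  | mem x hx =>
    obtain ⟨ρ, hρ, o, ho, rfl⟩ := hx
    exact R.smul_mem (h𝓡 ρ hρ s) ho
  | zero => exact R.O.zero_mem
  | add x y _ _ hx hy => exact R.O.add_mem _ _ hx hy
  | neg x _ hx => exact R.O.neg_mem _ hx

/-- explicit form of the elements of `RO R 𝓡`. -/
theorem exists_repr {φ : S → F} (hφ : φ ∈ RO R 𝓡) :
    ∃ (m : ℕ) (ρ : Fin m → S → K) (o : Fin m → F), (∀ i, ρ i ∈ 𝓡) ∧ (∀ i, o i ∈ R.O) ∧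
      ∀ s, φ s = ∑ i, ρ i s • o i := by
  unfold RO at hφ
  induction hφ using AddSubgroup.closure_induction with
  | mem x hx =>
    obtain ⟨ρ, hρ, o, ho, rfl⟩ := hx
    exact ⟨1, fun _ => ρ, fun _ => o, fun _ => hρ, fun _ => ho, fun s => by simp⟩
  | zero =>
    exact ⟨0, fun _ => 0, fun _ => 0, fun i => i.elim0, fun i => i.elim0, fun s => by simp⟩
  | add x y _ _ hx hy =>
    obtain ⟨m₁, ρ₁, o₁, hρ₁, ho₁, h₁⟩ := hx
    obtain ⟨m₂, ρ₂, o₂, hρ₂, ho₂, h₂⟩ := hy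
    refine ⟨m₁ + m₂, Fin.append ρ₁ ρ₂, Fin.append o₁ o₂, fun i => ?_, fun i => ?_, fun s => ?_⟩
    · refine Fin.addCases (fun j => ?_) (fun j => ?_) i
      · rw [Fin.append_left]; exact hρ₁ j
      · rw [Fin.append_right]; exact hρ₂ j
    · refine Fin.addCases (fun j => ?_) (fun j => ?_) i
      · rw [Fin.append_left]; exact ho₁ j
      · rw [Fin.append_right]; exact ho₂ j
    · rw [Pi.add_apply, h₁ s, h₂ s, Fin.sum_univ_add]
      simp only [Fin.append_left, Fin.append_right]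
  | neg x _ hx =>
    obtain ⟨m, ρ, o, hρ, ho, h⟩ := hx
    refine ⟨m, fun i => -ρ i, o, fun i => 𝓡.neg_mem (hρ i), ho, fun s => ?_⟩
    rw [Pi.neg_apply, h s, ← Finset.sum_neg_distrib]
    refine Finset.sum_congr rfl fun i _ => ?_
    show -(ρ i s • o i) = (-ρ i s) • o i
    rw [neg_smul]

end RO

end Fermat.Agent.FLAT.Geo
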