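import Mathlib

/-!
# FLAT / Geo / FamLin : common complements over an infinite field (Mathlib only)
-/

set_option autoImplicit false

namespace Fermat.Agent.FLAT.Geo

open Module

/-- A finite family of proper subspaces does not cover the space. -/
theorem FamLin_exists_notMem {k E : Type*} [Field k] [Infinite k] [AddCommGroup E] [Module k E]
    {S : Type*} [Finite S] (N : S → Submodule k E) (hN : ∀ s, N s ≠ ⊤) :
    ∃ x : E, ∀ s, x ∉ N s := by
  classical
  have hnot : (⊤ : Submodule k E) ∉ (Set.finite_range N).toFinset := by
    rw [Set.Finite.mem_toFinset]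
    rintro ⟨s, hs⟩
    exact hN s hs
  have hcov := Subspace.biUnion_ne_univ_of_top_notMem hnot
  obtain ⟨x, hx⟩ : ∃ x : E, x ∉ ⋃ p ∈ (Set.finite_range N).toFinset, (p : Set E) := by
    by_contra hcon
    push Not at hcon
    exact hcov (Set.eq_univ_of_forall hcon)
  refine ⟨x, fun s hs => hx ?_⟩
  simp only [Set.mem_iUnion]
  exact ⟨N s, by rw [Set.Finite.mem_toFinset]; exact ⟨s, rfl⟩, hs⟩

/-- **Common complement.**  `k` infinite, `E` finite dimensional, `N s` finitely many subspaces of
codimension `≥ e`: there are `e` independent vectors whose span meets every `N s` trivially.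
Proof: induction on `e`.  Step: the `N s` are proper subspaces (and `E ≠ 0`), a vector space over an
infinite field is not a finite union of proper subspaces (`Subspace.biUnion_ne_univ_of_top_notMem`,
`Subspace.iUnion_ne_univ_of_top_notMem` or similar): choose `x₀ ∉ ⋃ N s`, `x₀ ≠ 0`; replace `N s` by
`N s ⊔ span {x₀}` (dimension `+ 1`) and apply the induction hypothesis with `e - 1`
(also add the subspace `span {x₀}` itself to the family, e.g. index by `Option S`, to keep `x₀`
independent of the new vectors when `S` is empty). -/
theorem exists_common_compl {k E : Type*} [Field k] [Infinite k] [AddCommGroup E] [Module k E]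
    [FiniteDimensional k E] {S : Type*} [Finite S] (N : S → Submodule k E) (e : ℕ)
    (he : e ≤ finrank k E) (hN : ∀ s, finrank k (N s) + e ≤ finrank k E) :
    ∃ x : Fin e → E, LinearIndependent k x ∧
      ∀ s, Disjoint (Submodule.span k (Set.range x)) (N s) := by
  induction e generalizing S with
  | zero =>
    refine ⟨Fin.elim0, linearIndependent_empty_type, fun s => ?_⟩
    rw [Set.range_eq_empty, Submodule.span_empty]
    exact disjoint_bot_left
  | succ e ih =>
    let N' : Option S → Submodule k E := fun o => o.elim ⊥ N
    have hN' : ∀ o, finrank k (N' o) + (e + 1) ≤ finrank k E := by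
      intro o
      cases o with
      | none =>
        show finrank k (⊥ : Submodule k E) + (e + 1) ≤ finrank k E
        rw [finrank_bot]
        omega
      | some s => exact hN s
    have hproper : ∀ o, N' o ≠ ⊤ := by
      intro o h
      have h1 := hN' o
      rw [h, finrank_top] at h1
      omega
    obtain ⟨x₀, hx₀⟩ := FamLin_exists_notMem N' hproper
    have hx₀0 : x₀ ≠ 0 := by
      rintro rfl
      exact hx₀ none (Submodule.zero_mem _)
    have hN'' : ∀ o, finrank k ↥(N' o ⊔ Submodule.span k {x₀}) + e ≤ finrank k E := by
      intro o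
      have h1 := Submodule.finrank_add_le_finrank_add_finrank (N' o) (Submodule.span k {x₀})
      rw [finrank_span_singleton hx₀0] at h1
      have h2 := hN' o
      omega
    obtain ⟨x, hx, hdisj⟩ := ih (fun o => N' o ⊔ Submodule.span k {x₀}) (by omega) hN''
    refine ⟨Fin.cons x₀ x, ?_, fun s => ?_⟩
    · rw [linearIndependent_finCons]
      refine ⟨hx, fun hmem => hx₀0 ?_⟩
      have h1 : x₀ ∈ N' none ⊔ Submodule.span k {x₀} :=
        Submodule.mem_sup_right (Submodule.mem_span_singleton_self x₀)
      exact (Submodule.disjoint_def.1 (hdisj none)) x₀ hmem h1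
    · rw [Submodule.disjoint_def]
      intro v hv hvN
      rw [Fin.range_cons, Submodule.mem_span_insert] at hv
      obtain ⟨c, u, hu, rfl⟩ := hv
      have hu' : u ∈ N' (some s) ⊔ Submodule.span k {x₀} := by
        have h1 : u = (c • x₀ + u) + (-c) • x₀ := by
          rw [neg_smul]; abel
        rw [h1]
        exact Submodule.add_mem _ (Submodule.mem_sup_left hvN)
          (Submodule.mem_sup_right (Submodule.smul_mem _ _ (Submodule.mem_span_singleton_self x₀)))
      have hu0 : u = 0 := (Submodule.disjoint_def.1 (hdisj (some s))) u hu hu'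
      subst hu0
      rw [add_zero] at hvN ⊢
      by_cases hc : c = 0
      · rw [hc, zero_smul]
      · exfalso
        apply hx₀ (some s)
        have h2 := (N s).smul_mem c⁻¹ hvN
        rwa [smul_smul, inv_mul_cancel₀ hc, one_smul] at h2

/-- Dual form: finitely many subspaces `I s` of dimension `≤ r` of `κ → k`: there is a matrix with `r`
rows which is injective on every `I s`.
Proof: a common complement `C` of dimension `card κ - r` (previous lemma; if `card κ ≤ r` take an
injective matrix), `P` = a linear map `(κ → k) → (Fin r → k)` with kernel `C`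
(`Submodule.exists_isCompl`, or `(κ → k) ⧸ C` has dimension `r`), `LinearMap.toMatrix'`. -/
theorem exists_matrix_injOn {k : Type*} [Field k] [Infinite k] {κ : Type*} [Fintype κ]
    [DecidableEq κ] {S : Type*} [Finite S] (I : S → Submodule k (κ → k)) (r : ℕ)
    (hI : ∀ s, finrank k (I s) ≤ r) :
    ∃ P : Matrix (Fin r) κ k, ∀ s, ∀ x ∈ I s, P.mulVec x = 0 → x = 0 := by
  have hn : finrank k (κ → k) = Fintype.card κ := Module.finrank_fintype_fun_eq_card k
  obtain ⟨x, hx, hdisj⟩ := exists_common_compl I (Fintype.card κ - r) (by omega) (by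
    intro s
    have h1 := hI s
    have h2 := Submodule.finrank_le (I s)
    omega)
  set C := Submodule.span k (Set.range x) with hC
  have hCr : finrank k C = Fintype.card κ - r := by
    rw [hC, finrank_span_eq_card hx, Fintype.card_fin]
  have hq : finrank k ((κ → k) ⧸ C) ≤ finrank k (Fin r → k) := by
    have h1 := Submodule.finrank_quotient_add_finrank C
    rw [Module.finrank_fintype_fun_eq_card, Fintype.card_fin]
    omega
  obtain ⟨φ, hφ⟩ := finrank_le_iff_exists_linearMap.mp hq
  refine ⟨LinearMap.toMatrix' (φ.comp C.mkQ), fun s y hy h0 => ?_⟩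
  rw [LinearMap.toMatrix'_mulVec, LinearMap.comp_apply] at h0
  have h1 : C.mkQ y = 0 := hφ (by rw [h0, map_zero])
  rw [Submodule.mkQ_apply, Submodule.Quotient.mk_eq_zero] at h1
  exact (Submodule.disjoint_def.1 (hdisj s)) y h1 hy

/-- Completion of an independent family of `κ → k` to a basis. -/
theorem exists_compl_family {k : Type*} [Field k] {κ : Type*} [Fintype κ] {a e : ℕ}
    (hae : a + e = Fintype.card κ) (y : Fin a → κ → k) (hy : LinearIndependent k y) :
    ∃ z : Fin e → κ → k, LinearIndependent k (Sum.elim y z) := by
  obtain ⟨C, hC⟩ := Submodule.exists_isCompl (Submodule.span k (Set.range y))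
  have h1 := Submodule.finrank_add_eq_of_isCompl hC
  rw [finrank_span_eq_card hy, Fintype.card_fin, Module.finrank_fintype_fun_eq_card] at h1
  have hCe : finrank k C = e := by omega
  let b := Module.finBasisOfFinrankEq k C hCe
  refine ⟨fun i => (b i : κ → k), hy.sum_type ?_ ?_⟩
  · exact b.linearIndependent.map' C.subtype (Submodule.ker_subtype C)
  · refine hC.disjoint.mono_right ?_
    rw [Submodule.span_le]
    rintro _ ⟨i, rfl⟩
    exact (b i).2

end Fermat.Agent.FLAT.Geo
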