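import Fermat.Agent.FLAT.Geo.FamAlg
import Fermat.Agent.FLAT.Geo.FamLin

/-!
# FLAT / Geo / FamKer : kernels of matrices of constant rank over `𝓡`
-/

set_option autoImplicit false

namespace Fermat.Agent.FLAT.Geo

open AlgebraicCurve Fermat.Agent.Lib.RR Fermat.Agent.GAL.RED Module

variable {K F k Fb : Type*} [Field K] [Field F] [Algebra K F] [Field k] [Field Fb] [Algebra k Fb]
variable {R : RedData K F k Fb} {S : Type*} {𝓡 : Subalgebra R.A (S → K)}

/-- vectors of `A^κ` with independent reductions are independent. -/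
theorem linearIndependent_of_redA {ι κ : Type*} {x : ι → κ → K} (hx : ∀ i a, x i a ∈ R.A)
    (h : LinearIndependent k (fun i => fun a => R.redA (x i a))) : LinearIndependent K x := by
  rw [linearIndependent_iff'] at h ⊢
  intro s g hg
  by_contra hcon
  push Not at hcon
  obtain ⟨i₀, hi₀, hgi₀⟩ := hcon
  have hc : (fun i : s => g i) ≠ 0 := fun h0 => hgi₀ (congrFun h0 ⟨i₀, hi₀⟩)
  obtain ⟨a, -, hmem, ⟨i₁, hi₁⟩, hne⟩ := R.exists_scale_family (fun i : s => g i) hc
  have hmem' : ∀ i ∈ s, a * g i ∈ R.A := fun i hi => hmem ⟨i, hi⟩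
  have h1 : ∑ i ∈ s, (a * g i) • x i = 0 := by
    simp_rw [mul_smul]
    rw [← Finset.smul_sum, hg, smul_zero]
  have h2 : ∑ i ∈ s, R.redA (a * g i) • (fun c => R.redA (x i c)) = 0 := by
    funext c
    have h3 := GRed.sum R.A R.resA s (fun i => (a * g i) * x i c)
      (fun i hi => R.A.mul_mem _ _ (hmem' i hi) (hx i c))
    have h4 : ∑ i ∈ s, (a * g i) * x i c = 0 := by
      have := congrFun h1 c
      simpa only [Finset.sum_apply, Pi.smul_apply, smul_eq_mul, Pi.zero_apply] using this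
    rw [h4, GRed.zero] at h3
    simp only [Finset.sum_apply, Pi.smul_apply, smul_eq_mul, Pi.zero_apply]
    rw [h3]
    exact Finset.sum_congr rfl fun i hi => (R.redA_mul (hmem' i hi) (hx i c)).symm
  exact hne (h s (fun i => R.redA (a * g i)) h2 i₁ hi₁)

namespace FamKer

theorem redA_sum {ι : Type*} (t : Finset ι) (f : ι → K) (hf : ∀ i ∈ t, f i ∈ R.A) :
    R.redA (∑ i ∈ t, f i) = ∑ i ∈ t, R.redA (f i) :=
  GRed.sum R.A R.resA t f hf

theorem mul_memA {l m n : Type*} [Fintype m] {M : Matrix l m K} {N : Matrix m n K}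
    (hM : ∀ i j, M i j ∈ R.A) (hN : ∀ i j, N i j ∈ R.A) (i : l) (j : n) : (M * N) i j ∈ R.A := by
  rw [Matrix.mul_apply]
  exact sum_mem fun c _ => R.A.mul_mem _ _ (hM i c) (hN c j)

theorem map_mul {l m n : Type*} [Fintype m] {M : Matrix l m K} {N : Matrix m n K}
    (hM : ∀ i j, M i j ∈ R.A) (hN : ∀ i j, N i j ∈ R.A) :
    (M * N).map R.redA = M.map R.redA * N.map R.redA := by
  ext i j
  rw [Matrix.map_apply, Matrix.mul_apply, Matrix.mul_apply,
    redA_sum _ _ fun c _ => R.A.mul_mem _ _ (hM i c) (hN c j)]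
  exact Finset.sum_congr rfl fun c _ => R.redA_mul (hM i c) (hN c j)

theorem mulVec_memA {m n : Type*} [Fintype n] {M : Matrix m n K} {v : n → K}
    (hM : ∀ i j, M i j ∈ R.A) (hv : ∀ j, v j ∈ R.A) (i : m) : (M.mulVec v) i ∈ R.A := by
  rw [Matrix.mulVec, dotProduct]
  exact sum_mem fun c _ => R.A.mul_mem _ _ (hM i c) (hv c)

theorem redA_mulVec {m n : Type*} [Fintype n] {M : Matrix m n K} {v : n → K}
    (hM : ∀ i j, M i j ∈ R.A) (hv : ∀ j, v j ∈ R.A) (i : m) :
    R.redA ((M.mulVec v) i) = ((M.map R.redA).mulVec (fun j => R.redA (v j))) i := by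
  rw [Matrix.mulVec, dotProduct, Matrix.mulVec, dotProduct,
    redA_sum _ _ fun c _ => R.A.mul_mem _ _ (hM i c) (hv c)]
  exact Finset.sum_congr rfl fun c _ => R.redA_mul (hM i c) (hv c)

theorem mul_memR {l m n : Type*} [Fintype m] {M : S → Matrix l m K} {N : S → Matrix m n K}
    (hM : ∀ i j, (fun s => M s i j) ∈ 𝓡) (hN : ∀ i j, (fun s => N s i j) ∈ 𝓡) (i : l) (j : n) :
    (fun s => (M s * N s) i j) ∈ 𝓡 := by
  have : (fun s => (M s * N s) i j) = ∑ c, (fun s => M s i c) * (fun s => N s c j) := by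
    funext s
    rw [Matrix.mul_apply, Finset.sum_apply]
    rfl
  rw [this]
  exact sum_mem fun c _ => 𝓡.mul_mem (hM i c) (hN c j)

theorem mulVec_memR {m n : Type*} [Fintype n] {M : S → Matrix m n K} {v : S → n → K}
    (hM : ∀ i j, (fun s => M s i j) ∈ 𝓡) (hv : ∀ j, (fun s => v s j) ∈ 𝓡) (i : m) :
    (fun s => ((M s).mulVec (v s)) i) ∈ 𝓡 := by
  have : (fun s => ((M s).mulVec (v s)) i) = ∑ c, (fun s => M s i c) * (fun s => v s c) := by
    funext s
    rw [Matrix.mulVec, dotProduct, Finset.sum_apply]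
    rfl
  rw [this]
  exact sum_mem fun c _ => 𝓡.mul_mem (hM i c) (hv c)

/-- Step (iv): pure linear algebra over a field. -/
theorem mulVec_eq_zero_of {K : Type*} [Field K] {ι κ : Type*} [Fintype ι] [Fintype κ] {a e : ℕ}
    (hae : a + e = Fintype.card κ) (Φ : Matrix ι κ K) (P : Matrix (Fin a) ι K)
    (Y : Matrix κ (Fin a) K) (hdet : (P * Φ * Y).det ≠ 0)
    (hK : e ≤ finrank K (LinearMap.ker (Matrix.mulVecLin Φ))) {x : κ → K}
    (hx : (P * Φ).mulVec x = 0) : Φ.mulVec x = 0 := by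
  set T := (P * Φ).mulVecLin with hT
  have hsurj : LinearMap.range T = ⊤ := by
    rw [LinearMap.range_eq_top]
    intro w
    refine ⟨Y.mulVec ((P * Φ * Y)⁻¹.mulVec w), ?_⟩
    rw [hT, Matrix.mulVecLin_apply, Matrix.mulVec_mulVec, Matrix.mulVec_mulVec,
      Matrix.mul_nonsing_inv _ (isUnit_iff_ne_zero.2 hdet), Matrix.one_mulVec]
  have hrn := LinearMap.finrank_range_add_finrank_ker T
  rw [hsurj, finrank_top, finrank_fintype_fun_eq_card, finrank_fintype_fun_eq_card,
    Fintype.card_fin] at hrn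
  have hle : LinearMap.ker (Matrix.mulVecLin Φ) ≤ LinearMap.ker T := by
    intro v hv
    rw [LinearMap.mem_ker, Matrix.mulVecLin_apply] at hv
    rw [LinearMap.mem_ker, hT, Matrix.mulVecLin_apply, ← Matrix.mulVec_mulVec, hv,
      Matrix.mulVec_zero]
  have heq : LinearMap.ker (Matrix.mulVecLin Φ) = LinearMap.ker T :=
    Submodule.eq_of_le_of_finrank_le hle (by omega)
  have : x ∈ LinearMap.ker T := by
    rw [LinearMap.mem_ker, hT, Matrix.mulVecLin_apply, hx]
  rw [← heq, LinearMap.mem_ker, Matrix.mulVecLin_apply] at this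
  exact this

/-- Step (ii): pure linear algebra over a field. -/
theorem det_ne_zero_of {k : Type*} [Field k] {ι κ : Type*} [Fintype ι] [Fintype κ] {a : ℕ}
    (Φ : Matrix ι κ k) (P : Matrix (Fin a) ι k) (y : Fin a → κ → k) (hy : LinearIndependent k y)
    (hdisj : Disjoint (Submodule.span k (Set.range y)) (LinearMap.ker Φ.mulVecLin))
    (hP : ∀ x ∈ (Submodule.span k (Set.range y)).map Φ.mulVecLin, P.mulVec x = 0 → x = 0) :
    (P * Φ * (Matrix.of fun c j => y j c)).det ≠ 0 := by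
  intro h0
  obtain ⟨v, hv, hMv⟩ := Matrix.exists_mulVec_eq_zero_iff.2 h0
  have hYv : (Matrix.of fun c j => y j c).mulVec v = ∑ j, v j • y j := by
    funext c
    simp [Matrix.mulVec, dotProduct, mul_comm]
  have hmem : ∑ j, v j • y j ∈ Submodule.span k (Set.range y) :=
    sum_mem fun j _ => Submodule.smul_mem _ _ (Submodule.subset_span ⟨j, rfl⟩)
  rw [← Matrix.mulVec_mulVec, ← Matrix.mulVec_mulVec, hYv] at hMv
  have h1 := hP _ ⟨_, hmem, rfl⟩ hMv
  have h2 : ∑ j, v j • y j = 0 :=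
    (Submodule.disjoint_def.1 hdisj) _ hmem (by rw [LinearMap.mem_ker]; exact h1)
  exact hv (funext ((Fintype.linearIndependent_iff.1 hy) v h2))

/-- Step (iii): pure linear algebra over a field. -/
theorem linearIndependent_sub {k : Type*} [Field k] {κ : Type*} {a e : ℕ} (y : Fin a → κ → k)
    (z : Fin e → κ → k) (h : LinearIndependent k (Sum.elim y z)) (t : Fin e → Fin a → k) :
    LinearIndependent k (fun j => z j - ∑ b, t j b • y b) := by
  rw [Fintype.linearIndependent_iff] at h ⊢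
  intro g hg j
  refine h (Sum.elim (fun b => - ∑ j, g j * t j b) g) ?_ (Sum.inr j)
  rw [Fintype.sum_sum_type]
  simp only [Sum.elim_inl, Sum.elim_inr]
  rw [← hg]
  simp only [smul_sub, Finset.sum_sub_distrib, neg_smul, Finset.sum_neg_distrib, Finset.sum_smul,
    Finset.smul_sum, mul_smul]
  rw [Finset.sum_comm]
  abel

end FamKer

/-- **Kernel lemma.**  `Φ` a matrix over `𝓡` such that `dim_K ker Φ(s) ≥ e ≥ dim_k ker Φ̄(s)` for all
`s`.  Then there are `e` vectors `X_j` over `𝓡` in the kernel, with independent reductions at every `s`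
(so they are a basis of `ker Φ(s)` and their reductions a basis of `ker Φ̄(s)`).

Proof.  If `S` is empty take `X = 0`.  Otherwise `e ≤ q := card κ`.  `N̄_s := ker Φ̄(s)`, `dim ≤ e`.
(i) `exists_common_compl`: independent `ȳ_1 … ȳ_{q-e} ∈ k^κ` with `span ȳ ∩ N̄_s = 0` for all `s`;
`exists_compl_family`: `z̄_1 … z̄_e` completing them to a basis.  Lift the entries to `A`
(`R.exists_liftA`): matrices `Y` (`κ × (q-e)`), `Z` (`κ × e`).
(ii) `Φ̄(s) Ȳ` is injective; `exists_matrix_injOn` applied to the images `I_s = Φ̄(s) Ȳ k^{q-e}`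
gives `P̄` with `q - e` rows such that `P̄ Φ̄(s) Ȳ` is invertible for all `s`; lift to `P` over `A`.
`M(s) := P Φ(s) Y` is a square matrix over `𝓡` whose reduction is invertible: `matrix_inv_mem`.
(iii) `X_j(s) := Z_j - Y M(s)⁻¹ P Φ(s) Z_j`: entries in `𝓡`; `P Φ(s) X_j(s) = 0`; reductions
`Z̄_j - Ȳ(…)` are independent since `(ȳ, z̄)` is a basis.
(iv) `ker Φ(s) ⊆ ker (P Φ(s))`; the latter has dimension `≤ e` (`P Φ(s) Y` invertible ⟹ it meets the
`(q-e)`-dimensional space `Y K^{q-e}` trivially), the former `≥ e`: they are equal, so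
`Φ(s) X_j(s) = 0`. -/
theorem exists_kernel_basis [Infinite k] [Finite S] (h𝓡 : IsIntegralValued R 𝓡)
    {ι κ : Type*} [Fintype ι] [Fintype κ] [DecidableEq κ] (e : ℕ)
    (Φ : S → Matrix ι κ K) (hΦ : ∀ i a, (fun s => Φ s i a) ∈ 𝓡)
    (hK : ∀ s, e ≤ finrank K (LinearMap.ker (Matrix.mulVecLin (Φ s))))
    (hk : ∀ s, finrank k (LinearMap.ker (Matrix.mulVecLin ((Φ s).map R.redA))) ≤ e) :
    ∃ X : Fin e → κ → S → K, (∀ j a, X j a ∈ 𝓡) ∧
      ∀ s, (∀ j, (Φ s).mulVec (fun a => X j a s) = 0) ∧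
        LinearIndependent k (fun j => fun a => R.redA (X j a s)) := by
  classical
  rcases isEmpty_or_nonempty S with hS | ⟨⟨s₀⟩⟩
  · exact ⟨fun _ _ => 0, fun _ _ => 𝓡.zero_mem, fun s => (hS.false s).elim⟩
  have heq : e ≤ Fintype.card κ := by
    have h1 := hK s₀
    have h2 := Submodule.finrank_le (LinearMap.ker (Matrix.mulVecLin (Φ s₀)))
    rw [finrank_fintype_fun_eq_card] at h2
    omega
  obtain ⟨a, hae⟩ : ∃ a, a + e = Fintype.card κ := ⟨Fintype.card κ - e, by omega⟩
  obtain ⟨yb, hyb, hdisj⟩ := exists_common_compl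
    (fun s => LinearMap.ker (Matrix.mulVecLin ((Φ s).map R.redA))) a
    (by rw [finrank_fintype_fun_eq_card]; omega)
    (fun s => by rw [finrank_fintype_fun_eq_card]; have := hk s; omega)
  obtain ⟨zb, hzb⟩ := exists_compl_family hae yb hyb
  choose Y hYA hYr using fun (j : Fin a) (c : κ) => R.exists_liftA (yb j c)
  choose Z hZA hZr using fun (j : Fin e) (c : κ) => R.exists_liftA (zb j c)
  have hIb : ∀ s, finrank k ((Submodule.span k (Set.range yb)).map
      (Matrix.mulVecLin ((Φ s).map R.redA))) ≤ a := by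
    intro s
    refine (Submodule.finrank_map_le _ _).trans ?_
    have := finrank_range_le_card (R := k) yb
    rwa [Fintype.card_fin] at this
  obtain ⟨Pb, hPb⟩ := exists_matrix_injOn (fun s => (Submodule.span k (Set.range yb)).map
      (Matrix.mulVecLin ((Φ s).map R.redA))) a hIb
  choose P hPA hPr using fun (i : Fin a) (c : ι) => R.exists_liftA (Pb i c)
  set Pm : Matrix (Fin a) ι K := Matrix.of P with hPm
  set Ym : Matrix κ (Fin a) K := Matrix.of fun c j => Y j c with hYm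
  set M : S → Matrix (Fin a) (Fin a) K := fun s => Pm * Φ s * Ym with hM
  have hΦA : ∀ s i c, Φ s i c ∈ R.A := fun s i c => h𝓡 _ (hΦ i c) s
  have hPmA : ∀ i j, Pm i j ∈ R.A := fun i j => hPA i j
  have hYmA : ∀ i j, Ym i j ∈ R.A := fun i j => hYA j i
  have hPR : ∀ i j, (fun _ : S => Pm i j) ∈ 𝓡 := fun i j => const_mem 𝓡 (hPA i j)
  have hYR : ∀ i j, (fun _ : S => Ym i j) ∈ 𝓡 := fun i j => const_mem 𝓡 (hYA j i)
  have hMR : ∀ i j, (fun s => M s i j) ∈ 𝓡 := FamKer.mul_memR (FamKer.mul_memR hPR hΦ) hYR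
  have hPmred : Pm.map R.redA = Pb := by
    ext i j
    exact hPr i j
  have hYmred : Ym.map R.redA = Matrix.of fun c j => yb j c := by
    ext i j
    exact hYr j i
  have hMred : ∀ s, (M s).map R.redA =
      Pb * (Φ s).map R.redA * Matrix.of fun c j => yb j c := by
    intro s
    rw [hM]
    simp only
    rw [FamKer.map_mul (FamKer.mul_memA hPmA (hΦA s)) hYmA, FamKer.map_mul hPmA (hΦA s), hPmred,
      hYmred]
  have hMdet : ∀ s, ((M s).map R.redA).det ≠ 0 := by
    intro s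
    rw [hMred s]
    exact FamKer.det_ne_zero_of _ _ yb hyb (hdisj s) (hPb s)
  have hMinv := matrix_inv_mem h𝓡 M hMR hMdet
  have hMdetK : ∀ s, (M s).det ≠ 0 := by
    intro s h0
    have := redA_det (R := R) (M s) (fun i j => h𝓡 _ (hMR i j) s)
    rw [h0, R.redA_zero] at this
    exact hMdet s this.symm
  set t : S → Fin e → Fin a → K :=
    fun s j => (M s)⁻¹.mulVec (Pm.mulVec ((Φ s).mulVec (Z j))) with ht
  have htR : ∀ j b, (fun s => t s j b) ∈ 𝓡 := by
    intro j b
    refine FamKer.mulVec_memR (M := fun s => (M s)⁻¹)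
      (v := fun s => Pm.mulVec ((Φ s).mulVec (Z j))) hMinv ?_ b
    intro i
    refine FamKer.mulVec_memR (M := fun _ => Pm) (v := fun s => (Φ s).mulVec (Z j)) hPR ?_ i
    intro i'
    exact FamKer.mulVec_memR (M := Φ) (v := fun _ => Z j) hΦ (fun c => const_mem 𝓡 (hZA j c)) i'
  have htA : ∀ s j b, t s j b ∈ R.A := fun s j b => h𝓡 _ (htR j b) s
  refine ⟨fun j c s => Z j c - (Ym.mulVec (t s j)) c, ?_, ?_⟩
  · intro j c
    refine 𝓡.sub_mem (const_mem 𝓡 (hZA j c)) ?_
    exact FamKer.mulVec_memR (M := fun _ => Ym) (v := fun s => t s j) hYR (htR j) c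
  · intro s
    constructor
    · intro j
      refine FamKer.mulVec_eq_zero_of hae (Φ s) Pm Ym (hMdetK s) (hK s) ?_
      have h1 : (fun c => Z j c - (Ym.mulVec (t s j)) c) = Z j - Ym.mulVec (t s j) := rfl
      rw [h1, Matrix.mulVec_sub, Matrix.mulVec_mulVec]
      have h2 : (Pm * Φ s * Ym).mulVec (t s j) = (Pm * Φ s).mulVec (Z j) := by
        show (M s).mulVec ((M s)⁻¹.mulVec (Pm.mulVec ((Φ s).mulVec (Z j)))) = _
        rw [Matrix.mulVec_mulVec, Matrix.mul_nonsing_inv _ (isUnit_iff_ne_zero.2 (hMdetK s)),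
          Matrix.one_mulVec, Matrix.mulVec_mulVec]
      rw [h2, sub_self]
    · have h3 : (fun j => fun c => R.redA (Z j c - (Ym.mulVec (t s j)) c)) =
          fun j => zb j - ∑ b, R.redA (t s j b) • yb b := by
        funext j c
        have h5 : R.redA (Z j c - Ym.mulVec (t s j) c) =
            R.redA (Z j c) - R.redA (Ym.mulVec (t s j) c) :=
          GRed.sub R.A R.resA (hZA j c) (FamKer.mulVec_memA hYmA (htA s j) c)
        rw [h5, FamKer.redA_mulVec hYmA (htA s j) c, hZr, hYmred]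
        simp [Matrix.mulVec, dotProduct, mul_comm]
      rw [h3]
      exact FamKer.linearIndependent_sub yb zb hzb _

end Fermat.Agent.FLAT.Geo
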