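import Fermat.Agent.FLAT.Geo.FamOrtho
import Fermat.Agent.FLAT.Geo.FamKer

/-!
# FLAT / Geo / FamColon : colons of good families of constant rank
-/

set_option autoImplicit false

namespace Fermat.Agent.FLAT.Geo

open AlgebraicCurve Fermat.Agent.Lib.RR Fermat.Agent.GAL.RED Module

variable {K F k Fb : Type*} [Field K] [Field F] [Algebra K F] [Field k] [Field Fb] [Algebra k Fb]
variable {R : RedData K F k Fb} {S : Type*} {𝓡 : Subalgebra R.A (S → K)}

/-- Pure linear algebra (any field `L`, any commutative `L`-algebra `E`).  `v` a basis of `V`, `φ` spans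
`U`, `φ'` a basis of `U'`, `z` independent, `v_a φ_i = ∑_t μ_{t a i} z_t`, `φ'_l = ∑_t ν_{t l} z_t`.
Then `colon V U U'` is isomorphic to the kernel of the matrix
`(x, y) ↦ (∑_a μ_{t a i} x_a - ∑_l ν_{t l} y_{l i})_{(t, i)}`, via `(x, y) ↦ ∑ x_a v_a`. -/
def colonMatrix {L : Type*} [Field L] {n d d' N : ℕ} (μ : Fin N → Fin n → Fin d → L)
    (ν : Fin N → Fin d' → L) : Matrix (Fin N × Fin d) (Fin n ⊕ (Fin d' × Fin d)) L :=
  fun ti c => Sum.elim (fun a => μ ti.1 a ti.2)
    (fun li => if li.2 = ti.2 then - ν ti.1 li.1 else 0) c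

/-- the entries of `colonMatrix μ ν *ᵥ w`. -/
theorem FamColon_mulVec_apply {L : Type*} [Field L] {n d d' N : ℕ}
    (μ : Fin N → Fin n → Fin d → L) (ν : Fin N → Fin d' → L)
    (w : Fin n ⊕ (Fin d' × Fin d) → L) (t : Fin N) (i : Fin d) :
    (colonMatrix μ ν).mulVec w (t, i) =
      ∑ a, μ t a i * w (Sum.inl a) - ∑ l, ν t l * w (Sum.inr (l, i)) := by
  simp only [Matrix.mulVec, dotProduct, colonMatrix, Fintype.sum_sum_type, Sum.elim_inl,
    Sum.elim_inr, Fintype.sum_prod_type, ite_mul, zero_mul, Finset.sum_ite_eq', Finset.mem_univ,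
    if_true, neg_mul, Finset.sum_neg_distrib]
  ring

/-- the key identity. -/
theorem FamColon_key {L E : Type*} [Field L] [Field E] [Algebra L E]
    {n d d' N : ℕ} (v : Fin n → E) (φ : Fin d → E) (φ' : Fin d' → E) (z : Fin N → E)
    (μ : Fin N → Fin n → Fin d → L) (ν : Fin N → Fin d' → L)
    (hμ : ∀ a i, v a * φ i = ∑ t, μ t a i • z t) (hν : ∀ l, φ' l = ∑ t, ν t l • z t)
    (w : Fin n ⊕ (Fin d' × Fin d) → L) (i : Fin d) :
    (∑ a, w (Sum.inl a) • v a) * φ i - ∑ l, w (Sum.inr (l, i)) • φ' l =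
      ∑ t, (colonMatrix μ ν).mulVec w (t, i) • z t := by
  have h1 : (∑ a, w (Sum.inl a) • v a) * φ i = ∑ t, (∑ a, μ t a i * w (Sum.inl a)) • z t := by
    rw [Finset.sum_mul]
    simp_rw [smul_mul_assoc, hμ, Finset.smul_sum, Finset.sum_smul, smul_smul]
    rw [Finset.sum_comm]
    refine Finset.sum_congr rfl fun t _ => Finset.sum_congr rfl fun a _ => ?_
    rw [mul_comm]
  have h2 : ∑ l, w (Sum.inr (l, i)) • φ' l = ∑ t, (∑ l, ν t l * w (Sum.inr (l, i))) • z t := by
    simp_rw [hν, Finset.smul_sum, Finset.sum_smul, smul_smul]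
    rw [Finset.sum_comm]
    refine Finset.sum_congr rfl fun t _ => Finset.sum_congr rfl fun a _ => ?_
    rw [mul_comm]
  rw [h1, h2, ← Finset.sum_sub_distrib]
  refine Finset.sum_congr rfl fun t _ => ?_
  rw [FamColon_mulVec_apply, sub_smul]

/-- an element of the kernel gives an element of the colon; the `x`-part determines it. -/
theorem mem_colon_of_mulVec_eq_zero {L E : Type*} [Field L] [Field E] [Algebra L E]
    {n d d' N : ℕ} (v : Fin n → E) (φ : Fin d → E) (φ' : Fin d' → E) (z : Fin N → E)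
    (μ : Fin N → Fin n → Fin d → L) (ν : Fin N → Fin d' → L)
    (hμ : ∀ a i, v a * φ i = ∑ t, μ t a i • z t) (hν : ∀ l, φ' l = ∑ t, ν t l • z t)
    (w : Fin n ⊕ (Fin d' × Fin d) → L) (hw : (colonMatrix μ ν).mulVec w = 0) :
    (∑ a, w (Sum.inl a) • v a) ∈ colon (Submodule.span L (Set.range v))
      (Submodule.span L (Set.range φ)) (Submodule.span L (Set.range φ')) := by
  refine mem_colon.mpr ⟨?_, ?_⟩
  · exact Submodule.sum_mem _ fun a _ =>
      Submodule.smul_mem _ _ (Submodule.subset_span ⟨a, rfl⟩)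
  · intro x hx
    induction hx using Submodule.span_induction with
    | mem x hx =>
      obtain ⟨i, rfl⟩ := hx
      have h := FamColon_key v φ φ' z μ ν hμ hν w i
      rw [hw] at h
      simp only [Pi.zero_apply, zero_smul, Finset.sum_const_zero] at h
      rw [sub_eq_zero.mp h]
      exact Submodule.sum_mem _ fun l _ =>
        Submodule.smul_mem _ _ (Submodule.subset_span ⟨l, rfl⟩)
    | zero => rw [mul_zero]; exact Submodule.zero_mem _
    | add x y _ _ hx hy => rw [mul_add]; exact Submodule.add_mem _ hx hy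
    | smul c x _ hx => rw [mul_smul_comm]; exact Submodule.smul_mem _ c hx

theorem eq_zero_of_mulVec_eq_zero {L E : Type*} [Field L] [Field E] [Algebra L E]
    {n d d' N : ℕ} (φ' : Fin d' → E) (z : Fin N → E)
    (hφ' : LinearIndependent L φ') (hz : LinearIndependent L z)
    (μ : Fin N → Fin n → Fin d → L) (ν : Fin N → Fin d' → L)
    (hν : ∀ l, φ' l = ∑ t, ν t l • z t)
    (w : Fin n ⊕ (Fin d' × Fin d) → L) (hw : (colonMatrix μ ν).mulVec w = 0)
    (h0 : ∀ a, w (Sum.inl a) = 0) : w = 0 := by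
  have h1 : ∀ t i, ∑ l, ν t l * w (Sum.inr (l, i)) = 0 := by
    intro t i
    have h := FamColon_mulVec_apply μ ν w t i
    rw [hw] at h
    simp only [h0, mul_zero, Finset.sum_const_zero, zero_sub, Pi.zero_apply] at h
    exact neg_eq_zero.mp h.symm
  have h2 : ∀ i, ∑ l, w (Sum.inr (l, i)) • φ' l = 0 := by
    intro i
    simp_rw [hν, Finset.smul_sum, smul_smul]
    rw [Finset.sum_comm]
    simp_rw [← Finset.sum_smul]
    refine Finset.sum_eq_zero fun t _ => ?_
    have : ∑ l, w (Sum.inr (l, i)) * ν t l = 0 := by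
      rw [← h1 t i]
      exact Finset.sum_congr rfl fun l _ => mul_comm _ _
    rw [this, zero_smul]
  funext c
  rcases c with a | ⟨l, i⟩
  · exact h0 a
  · exact Fintype.linearIndependent_iff.mp hφ' _ (h2 i) l

theorem finrank_ker_colonMatrix {L E : Type*} [Field L] [Field E] [Algebra L E] {n d d' N : ℕ}
    (v : Fin n → E) (φ : Fin d → E) (φ' : Fin d' → E) (z : Fin N → E)
    (hv : LinearIndependent L v) (hφ' : LinearIndependent L φ') (hz : LinearIndependent L z)
    (μ : Fin N → Fin n → Fin d → L) (ν : Fin N → Fin d' → L)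
    (hμ : ∀ a i, v a * φ i = ∑ t, μ t a i • z t) (hν : ∀ l, φ' l = ∑ t, ν t l • z t) :
    finrank L (LinearMap.ker (Matrix.mulVecLin (colonMatrix μ ν))) =
      finrank L ↥(colon (Submodule.span L (Set.range v)) (Submodule.span L (Set.range φ))
        (Submodule.span L (Set.range φ'))) := by
  let Θ₀ : (Fin n ⊕ (Fin d' × Fin d) → L) →ₗ[L] E :=
    (Fintype.linearCombination L v) ∘ₗ (LinearMap.funLeft L L Sum.inl)
  have hΘ₀ : ∀ w, Θ₀ w = ∑ a, w (Sum.inl a) • v a := by
    intro w
    simp only [Θ₀, LinearMap.comp_apply, Fintype.linearCombination_apply, LinearMap.funLeft_apply]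
  have hker : ∀ w : LinearMap.ker (Matrix.mulVecLin (colonMatrix μ ν)),
      (colonMatrix μ ν).mulVec (w : Fin n ⊕ (Fin d' × Fin d) → L) = 0 := by
    intro w
    have := w.2
    rwa [LinearMap.mem_ker, Matrix.mulVecLin_apply] at this
  let Θ : LinearMap.ker (Matrix.mulVecLin (colonMatrix μ ν)) →ₗ[L]
      ↥(colon (Submodule.span L (Set.range v)) (Submodule.span L (Set.range φ))
        (Submodule.span L (Set.range φ'))) :=
    LinearMap.codRestrict _ (Θ₀ ∘ₗ (LinearMap.ker (Matrix.mulVecLin (colonMatrix μ ν))).subtype)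
      (fun w => by
        rw [LinearMap.comp_apply, Submodule.subtype_apply, hΘ₀]
        exact mem_colon_of_mulVec_eq_zero v φ φ' z μ ν hμ hν _ (hker w))
  have hΘ : ∀ w, ((Θ w : _) : E) = ∑ a, (w : Fin n ⊕ (Fin d' × Fin d) → L) (Sum.inl a) • v a :=
    fun w => hΘ₀ _
  have hinj : Function.Injective Θ := by
    rw [injective_iff_map_eq_zero]
    intro w hw
    have h1 : ∑ a, (w : Fin n ⊕ (Fin d' × Fin d) → L) (Sum.inl a) • v a = 0 := by
      rw [← hΘ, hw]; rfl
    apply Subtype.ext
    exact eq_zero_of_mulVec_eq_zero φ' z hφ' hz μ ν hν _ (hker w)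
      (Fintype.linearIndependent_iff.mp hv _ h1)
  have hsurj : Function.Surjective Θ := by
    rintro ⟨u, hu⟩
    obtain ⟨hu1, hu2⟩ := mem_colon.mp hu
    obtain ⟨x, hx⟩ := (Submodule.mem_span_range_iff_exists_fun L).mp hu1
    have hy : ∀ i, ∃ y : Fin d' → L, ∑ l, y l • φ' l = u * φ i := fun i =>
      (Submodule.mem_span_range_iff_exists_fun L).mp (hu2 _ (Submodule.subset_span ⟨i, rfl⟩))
    choose y hy using hy
    let w : Fin n ⊕ (Fin d' × Fin d) → L := Sum.elim x (fun li => y li.2 li.1)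
    have hw : (colonMatrix μ ν).mulVec w = 0 := by
      funext ⟨t, i⟩
      have h := FamColon_key v φ φ' z μ ν hμ hν w i
      have h3 : (∑ a, w (Sum.inl a) • v a) * φ i - ∑ l, w (Sum.inr (l, i)) • φ' l = 0 := by
        show (∑ a, x a • v a) * φ i - ∑ l, y i l • φ' l = 0
        rw [hx, hy, sub_self]
      rw [h3] at h
      exact Fintype.linearIndependent_iff.mp hz _ h.symm t
    refine ⟨⟨w, by rw [LinearMap.mem_ker, Matrix.mulVecLin_apply]; exact hw⟩, ?_⟩
    apply Subtype.ext
    rw [hΘ]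
    exact hx
  exact (LinearEquiv.ofBijective Θ ⟨hinj, hsurj⟩).finrank_eq

/-- reduction of a matrix-vector product with integral entries. -/
theorem FamColon_redA_mulVec {ι κ : Type*} [Fintype κ] (M : Matrix ι κ K) (hM : ∀ i a, M i a ∈ R.A)
    (x : κ → K) (hx : ∀ a, x a ∈ R.A) (i : ι) :
    (M.map R.redA).mulVec (fun a => R.redA (x a)) i = R.redA (M.mulVec x i) := by
  have h1 : R.redA (∑ a, M i a * x a) = ∑ a, R.redA (M i a * x a) := by
    rw [R.redA_eq_gred]
    exact GRed.sum _ _ Finset.univ (fun a => M i a * x a)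
      (fun a _ => R.A.mul_mem _ _ (hM i a) (hx a))
  simp only [Matrix.mulVec, dotProduct, Matrix.map_apply]
  rw [h1]
  exact Finset.sum_congr rfl fun a _ => (R.redA_mul (hM i a) (hx a)).symm

/-- the reduction of a colon is contained in the colon of the reductions. -/
theorem FamColon_redSub_colon_le (V U U' : Submodule K F) :
    R.redSub (colon V U U') ≤ colon (R.redSub V) (R.redSub U) (R.redSub U') := by
  rintro _ ⟨f, hf, hfO, rfl⟩
  refine ⟨⟨f, hf.1, hfO, rfl⟩, ?_⟩
  rintro _ ⟨w, hw, hwO, rfl⟩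
  exact ⟨f * w, hf.2 w hw, R.O.mul_mem _ _ hfO hwO, R.red_mul hfO hwO⟩

theorem FamColon_colon_le (V U U' : Submodule K F) : colon V U U' ≤ V := fun _ h => h.1

/-- **Colons of good families.**  `V` constant, `U`, `U'` good, and
`dim_K (V : U s → U' s) ≥ e ≥ dim_k (V̄ : Ū s → Ū' s)` for all `s`.  Then the colon family is good.

Proof.  `v` = orthonormal basis of `V` (`exists_ortho_basis`), `φ`, `φ'` good bases of `U`, `U'`.
`RO.exists_common_basis` for the finitely many functions `s ↦ v_a φ_i(s)` and `φ'_l`: orthonormal `z`.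
`RO.exists_coord`: `μ_{t a i}, ν_{t l} ∈ 𝓡`.  `Φ(s) := colonMatrix (μ · · · s) (ν · · s)` has entries in `𝓡`.
Its reduction is `colonMatrix` of the reduced data (`red_sum_smul`), which computes the colon of the
reductions (`redSub_span`, `finrank_ker_colonMatrix` over `k`).  `exists_kernel_basis` gives `X_j`;
`u_j(s) := ∑_a X_j(inl a)(s) v_a ∈ RO R 𝓡` lies in the colon (`mem_colon_of_mulVec_eq_zero`), the
reductions are independent (`eq_zero_of_mulVec_eq_zero` over `k`: a relation between the `x`-parts is a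
relation between the kernel vectors), there are `e` of them; finally
`dim_K colon ≤ dim_k colon̄ ≤ e` because `redSub (colon) ≤ colon̄` and `hC`; so they span. -/
theorem IsGood.colon [Infinite k] [Finite S] (hC : R.IsCartesian) (h𝓡 : IsIntegralValued R 𝓡)
    (V : Submodule K F) [Module.Finite K V]
    {U U' : S → Submodule K F} (hU : IsGood R 𝓡 U) (hU' : IsGood R 𝓡 U') (e : ℕ)
    (hK : ∀ s, e ≤ finrank K ↥(colon V (U s) (U' s)))
    (hk : ∀ s, finrank k ↥(colon (R.redSub V) (R.redSub (U s)) (R.redSub (U' s))) ≤ e) :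
    IsGood R 𝓡 (fun s => colon V (U s) (U' s)) := by
  classical
  obtain ⟨n, v, hvV, hvO, hvli, hvspan⟩ : ∃ (n : ℕ) (v : Fin n → F), (∀ i, v i ∈ V) ∧
      (∀ i, v i ∈ R.O) ∧ LinearIndependent k (fun i => R.red (v i)) ∧
      Submodule.span K (Set.range v) = V := ⟨_, exists_ortho_basis hC V⟩
  obtain ⟨d, φ, hφRO, hφ⟩ := hU
  obtain ⟨d', φ', hφ'RO, hφ'⟩ := hU'
  have hφO : ∀ i s, φ i s ∈ R.O := fun i s => RO.apply_mem h𝓡 (hφRO i) s
  have hφ'O : ∀ l s, φ' l s ∈ R.O := fun l s => RO.apply_mem h𝓡 (hφ'RO l) s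
  -- a common orthonormal family
  let Ψ : (Fin n × Fin d) ⊕ Fin d' → S → F :=
    Sum.elim (fun ai s => v ai.1 * φ ai.2 s) φ'
  have hΨ : ∀ i, Ψ i ∈ RO R 𝓡 := by
    rintro (⟨a, i⟩ | l)
    · exact RO.mul_mem (RO.const_mem' 𝓡 (hvO a)) (hφRO i)
    · exact hφ'RO l
  obtain ⟨N, z, hzO, hzli, hz⟩ := RO.exists_common_basis hC Ψ hΨ
  have hμ : ∀ a i, ∃ ρ : Fin N → S → K, (∀ t, ρ t ∈ 𝓡) ∧
      ∀ s, v a * φ i s = ∑ t, ρ t s • z t := fun a i =>
    RO.exists_coord hC hzO hzli (hΨ (Sum.inl (a, i))) (hz (Sum.inl (a, i)))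
  choose μ hμ𝓡 hμeq using hμ
  have hν : ∀ l, ∃ ρ : Fin N → S → K, (∀ t, ρ t ∈ 𝓡) ∧
      ∀ s, φ' l s = ∑ t, ρ t s • z t := fun l =>
    RO.exists_coord hC hzO hzli (hΨ (Sum.inr l)) (hz (Sum.inr l))
  choose ν hν𝓡 hνeq using hν
  have hμA : ∀ a i t s, μ a i t s ∈ R.A := fun a i t s => h𝓡 _ (hμ𝓡 a i t) s
  have hνA : ∀ l t s, ν l t s ∈ R.A := fun l t s => h𝓡 _ (hν𝓡 l t) s
  -- the matrix
  let Φ : S → Matrix (Fin N × Fin d) (Fin n ⊕ (Fin d' × Fin d)) K := fun s =>
    colonMatrix (fun t a i => μ a i t s) (fun t l => ν l t s)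
  have hΦ : ∀ i a, (fun s => Φ s i a) ∈ 𝓡 := by
    rintro ⟨t, i⟩ (a | ⟨l, i'⟩)
    · exact hμ𝓡 a i t
    · by_cases h : i' = i
      · have : (fun s => Φ s (t, i) (Sum.inr (l, i'))) = - ν l t := by
          funext s; simp [Φ, colonMatrix, h]
        rw [this]; exact 𝓡.neg_mem (hν𝓡 l t)
      · have : (fun s => Φ s (t, i) (Sum.inr (l, i'))) = 0 := by
          funext s; simp [Φ, colonMatrix, h]
        rw [this]; exact 𝓡.zero_mem
  have hΦA : ∀ s i a, Φ s i a ∈ R.A := fun s i a => h𝓡 _ (hΦ i a) s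
  have hΦred : ∀ s, (Φ s).map R.redA =
      colonMatrix (fun t a i => R.redA (μ a i t s)) (fun t l => R.redA (ν l t s)) := by
    intro s
    ext ⟨t, i⟩ (a | ⟨l, i'⟩)
    · simp [Φ, colonMatrix]
    · by_cases h : i' = i
      · simp [Φ, colonMatrix, h, R.redA_neg]
      · simp [Φ, colonMatrix, h]
  -- independence over `K`
  have hvK : LinearIndependent K v := R.linearIndependent_of_red hvO hvli
  have hzK : LinearIndependent K z := R.linearIndependent_of_red hzO hzli
  have hφ'K : ∀ s, LinearIndependent K (fun l => φ' l s) := fun s =>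
    R.linearIndependent_of_red (fun l => hφ'O l s) (hφ' s).2
  -- reduced relations
  have hμred : ∀ s a i, R.red (v a) * R.red (φ i s) = ∑ t, R.redA (μ a i t s) • R.red (z t) := by
    intro s a i
    rw [← R.red_mul (hvO a) (hφO i s), hμeq a i s]
    exact (red_sum_smul hzO (fun t => hμA a i t s)).2
  have hνred : ∀ s l, R.red (φ' l s) = ∑ t, R.redA (ν l t s) • R.red (z t) := by
    intro s l
    rw [hνeq l s]
    exact (red_sum_smul hzO (fun t => hνA l t s)).2
  -- reductions of the spaces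
  have hVred : R.redSub V = Submodule.span k (Set.range fun a => R.red (v a)) := by
    rw [← hvspan]; exact redSub_span hvO hvli
  have hUred : ∀ s, R.redSub (U s) = Submodule.span k (Set.range fun i => R.red (φ i s)) := by
    intro s
    rw [← (hφ s).1]; exact redSub_span (fun i => hφO i s) (hφ s).2
  have hU'red : ∀ s, R.redSub (U' s) = Submodule.span k (Set.range fun l => R.red (φ' l s)) := by
    intro s
    rw [← (hφ' s).1]; exact redSub_span (fun l => hφ'O l s) (hφ' s).2
  -- the dimensions of the kernels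
  have hKer : ∀ s, finrank K (LinearMap.ker (Matrix.mulVecLin (Φ s))) =
      finrank K ↥(Geo.colon V (U s) (U' s)) := by
    intro s
    have := finrank_ker_colonMatrix v (fun i => φ i s) (fun l => φ' l s) z hvK (hφ'K s) hzK
      (fun t a i => μ a i t s) (fun t l => ν l t s) (fun a i => hμeq a i s) (fun l => hνeq l s)
    rw [hvspan, (hφ s).1, (hφ' s).1] at this
    exact this
  have hker : ∀ s, finrank k (LinearMap.ker (Matrix.mulVecLin ((Φ s).map R.redA))) =
      finrank k ↥(Geo.colon (R.redSub V) (R.redSub (U s)) (R.redSub (U' s))) := by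
    intro s
    have := finrank_ker_colonMatrix (fun a => R.red (v a)) (fun i => R.red (φ i s))
      (fun l => R.red (φ' l s)) (fun t => R.red (z t)) hvli (hφ' s).2 hzli
      (fun t a i => R.redA (μ a i t s)) (fun t l => R.redA (ν l t s)) (hμred s) (hνred s)
    rw [← hVred, ← hUred s, ← hU'red s, ← hΦred s] at this
    exact this
  obtain ⟨X, hX𝓡, hX⟩ := exists_kernel_basis h𝓡 e Φ hΦ
    (fun s => by rw [hKer s]; exact hK s) (fun s => by rw [hker s]; exact hk s)
  have hXA : ∀ j a s, X j a s ∈ R.A := fun j a s => h𝓡 _ (hX𝓡 j a) s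
  -- reductions of the new basis
  have hured : ∀ j s, (∑ a, X j (Sum.inl a) s • v a) ∈ R.O ∧
      R.red (∑ a, X j (Sum.inl a) s • v a) = ∑ a, R.redA (X j (Sum.inl a) s) • R.red (v a) :=
    fun j s => red_sum_smul hvO (fun a => hXA j (Sum.inl a) s)
  have hli : ∀ s, LinearIndependent k
      (fun j => R.red (∑ a, X j (Sum.inl a) s • v a)) := by
    intro s
    rw [Fintype.linearIndependent_iff]
    intro c hc
    simp_rw [(hured _ s).2, Finset.smul_sum, smul_smul] at hc
    rw [Finset.sum_comm] at hc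
    simp_rw [← Finset.sum_smul] at hc
    have h0 := Fintype.linearIndependent_iff.mp hvli _ hc
    -- the kernel vector
    let w : Fin n ⊕ (Fin d' × Fin d) → k := fun b => ∑ j, c j * R.redA (X j b s)
    have hw : (colonMatrix (fun t a i => R.redA (μ a i t s))
        (fun t l => R.redA (ν l t s))).mulVec w = 0 := by
      rw [← hΦred s]
      have hw' : w = ∑ j, c j • (fun b => R.redA (X j b s)) := by
        funext b; simp [w, Finset.sum_apply]
      rw [hw', Matrix.mulVec_sum]
      refine Finset.sum_eq_zero fun j _ => ?_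
      rw [Matrix.mulVec_smul]
      have : ((Φ s).map R.redA).mulVec (fun b => R.redA (X j b s)) = 0 := by
        funext ti
        rw [FamColon_redA_mulVec (Φ s) (hΦA s) (fun b => X j b s) (fun b => hXA j b s) ti,
          (hX s).1 j]
        simp
      rw [this, smul_zero]
    have hw0 : w = 0 := eq_zero_of_mulVec_eq_zero (fun l => R.red (φ' l s)) (fun t => R.red (z t))
      (hφ' s).2 hzli _ _ (hνred s) w hw h0
    have h1 : ∑ j, c j • (fun b => R.redA (X j b s)) = 0 := by
      funext b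
      have := congrFun hw0 b
      simpa [w, Finset.sum_apply] using this
    exact Fintype.linearIndependent_iff.mp (hX s).2 c h1
  refine ⟨e, fun j s => ∑ a, X j (Sum.inl a) s • v a, fun j => ?_, fun s => ⟨?_, hli s⟩⟩
  · exact RO.sum_mem Finset.univ fun a _ => RO.smul_mem (hX𝓡 j (Sum.inl a)) (RO.const_mem' 𝓡 (hvO a))
  · have hfin : Module.Finite K ↥(Geo.colon V (U s) (U' s)) :=
      Module.Finite.of_injective (Submodule.inclusion (FamColon_colon_le V (U s) (U' s)))
        (Submodule.inclusion_injective _)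
    have hle : Submodule.span K (Set.range fun j => ∑ a, X j (Sum.inl a) s • v a) ≤
        Geo.colon V (U s) (U' s) := by
      rw [Submodule.span_le]
      rintro _ ⟨j, rfl⟩
      have := mem_colon_of_mulVec_eq_zero v (fun i => φ i s) (fun l => φ' l s) z
        (fun t a i => μ a i t s) (fun t l => ν l t s) (fun a i => hμeq a i s) (fun l => hνeq l s)
        (fun b => X j b s) ((hX s).1 j)
      rw [hvspan, (hφ s).1, (hφ' s).1] at this
      exact this
    apply Submodule.eq_of_le_of_finrank_le hle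
    have h1 : finrank K ↥(Submodule.span K (Set.range fun j => ∑ a, X j (Sum.inl a) s • v a)) = e := by
      rw [finrank_span_eq_card (R.linearIndependent_of_red (fun j => (hured j s).1) (hli s))]
      simp
    rw [h1, ← hC _ hfin]
    have hfin' : Module.Finite k ↥(Geo.colon (R.redSub V) (R.redSub (U s)) (R.redSub (U' s))) := by
      have := R.finite_redSub V
      exact Module.Finite.of_injective (Submodule.inclusion (FamColon_colon_le _ _ _))
        (Submodule.inclusion_injective _)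
    exact (Submodule.finrank_mono (FamColon_redSub_colon_le V (U s) (U' s))).trans (hk s)

end Fermat.Agent.FLAT.Geo
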