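import Fermat.Agent.FLAT.Geo.FamOrtho

/-!
# FLAT / Geo / FamGraph : graph coordinates of good families
-/

set_option autoImplicit false

namespace Fermat.Agent.FLAT.Geo

open AlgebraicCurve Fermat.Agent.Lib.RR Fermat.Agent.GAL.RED Module

variable {K F k Fb : Type*} [Field K] [Field F] [Algebra K F] [Field k] [Field Fb] [Algebra k Fb]
variable {R : RedData K F k Fb} {S : Type*} {𝓡 : Subalgebra R.A (S → K)}

/-- A family given as a graph with coefficients in `𝓡` is good. -/
theorem isGood_graph (h𝓡 : IsIntegralValued R 𝓡) {d e : ℕ} (u : Fin d → F) (v : Fin e → F)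
    (hu : ∀ i, u i ∈ R.O) (hv : ∀ j, v j ∈ R.O)
    (hli : LinearIndependent k (fun x : Fin d ⊕ Fin e => R.red (Sum.elim u v x)))
    (c : Fin d → Fin e → S → K) (hc : ∀ i j, c i j ∈ 𝓡) :
    IsGood R 𝓡 (fun s => Submodule.span K (Set.range fun j => v j - ∑ i, c i j s • u i)) := by
  refine ⟨e, fun j s => v j - ∑ i, c i j s • u i, fun j => ?_, fun s => ⟨rfl, ?_⟩⟩
  · have h1 : (fun s => v j - ∑ i, c i j s • u i)
        = (fun _ : S => v j) - fun s => ∑ i, c i j s • u i := rfl
    show (fun s => v j - ∑ i, c i j s • u i) ∈ RO R 𝓡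
    rw [h1]
    exact (RO R 𝓡).sub_mem (RO.const_mem' 𝓡 (hv j))
      (RO.sum_mem _ fun i _ => RO.smul_mem (hc i j) (RO.const_mem' 𝓡 (hu i)))
  · have hred : ∀ j, R.red (v j - ∑ i, c i j s • u i)
        = R.red (v j) - ∑ i, R.redA (c i j s) • R.red (u i) := by
      intro j
      have h1 := red_sum_smul (R := R) hu (a := fun i => c i j s) (fun i => h𝓡 _ (hc i j) s)
      rw [R.red_sub (hv j) h1.1, h1.2]
    rw [Fintype.linearIndependent_iff]
    intro x hx j
    simp only [hred] at hx
    have h2 := Fintype.linearIndependent_iff.1 hli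
      (Sum.elim (fun i => -∑ j, x j * R.redA (c i j s)) x) (by
        rw [Fintype.sum_sum_type]
        simp only [Sum.elim_inl, Sum.elim_inr]
        rw [← hx]
        simp only [smul_sub, Finset.sum_sub_distrib, Finset.smul_sum, neg_smul,
          Finset.sum_neg_distrib, Finset.sum_smul, mul_smul]
        rw [Finset.sum_comm]
        abel)
    exact h2 (Sum.inr j)

theorem famGraph_coord (hC : R.IsCartesian) {d e : ℕ} (u : Fin d → F) (v : Fin e → F)
    (hu : ∀ i, u i ∈ R.O) (hv : ∀ j, v j ∈ R.O)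
    (hli : LinearIndependent k (fun x : Fin d ⊕ Fin e => R.red (Sum.elim u v x)))
    {φ : S → F} (hφ : φ ∈ RO R 𝓡)
    (hφb : ∀ s, φ s ∈ Submodule.span K (Set.range (Sum.elim u v))) :
    ∃ (α : Fin d → S → K) (β : Fin e → S → K), (∀ i, α i ∈ 𝓡) ∧ (∀ j, β j ∈ 𝓡) ∧
      ∀ s, φ s = ∑ i, α i s • u i + ∑ j, β j s • v j := by
  set b : Fin (d + e) → F := fun t => Sum.elim u v (finSumFinEquiv.symm t) with hb
  have hbO : ∀ t, b t ∈ R.O := by
    intro t
    rcases h : finSumFinEquiv.symm t with i | j <;> simp [hb, h, hu, hv]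
  have hli' : LinearIndependent k (fun t => R.red (b t)) :=
    hli.comp _ finSumFinEquiv.symm.injective
  have hrange : Set.range b = Set.range (Sum.elim u v) :=
    finSumFinEquiv.symm.surjective.range_comp _
  obtain ⟨ρ, hρ, hρs⟩ := RO.exists_coord hC hbO hli' hφ (by intro s; rw [hrange]; exact hφb s)
  refine ⟨fun i => ρ (finSumFinEquiv (Sum.inl i)), fun j => ρ (finSumFinEquiv (Sum.inr j)),
    fun i => hρ _, fun j => hρ _, fun s => ?_⟩
  rw [hρs s, ← finSumFinEquiv.sum_comp, Fintype.sum_sum_type]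
  simp [hb]

/-- **Graph coordinates of a good family lie in `𝓡`.**
`(u, v)` orthonormal, `U s ≤ span (u, v)`, `span ū ∩ redSub (U s) = 0`, `v_j - ∑_i c_{ij}(s) u_i ∈ U s`.

Proof.  Good basis `φ_l` (`l < d_U`) of `U`; `RO.exists_coord` w.r.t. `(u, v)` (reindex `Fin d ⊕ Fin e` by
`finSumFinEquiv`): `φ_l(s) = ∑ α_{il}(s) u_i + ∑ β_{jl}(s) v_j`, `α, β` over `𝓡`.
`U s ∩ span_K u = 0` (a non zero element can be scaled to have non zero reduction
(`IsCartesian.exists_scale`), which lies in `redSub (U s) ∩ span ū` by `redSub_span`).  The `e` elements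
`v_j - ∑ c u` of `U s` are independent, and `U s → K^e` (the `v`-coordinates) is injective: `d_U = e`.
`β̄(s)` is injective (if `β̄ x = 0` then `∑ x_l red φ_l(s) ∈ span ū ∩ redSub (U s) = 0`), so invertible:
`matrix_inv_mem`.  `∑_l φ_l (β⁻¹)_{lj} = v_j + ∑_i (α β⁻¹)_{ij} u_i ∈ U s`; subtracting `v_j - ∑ c u` we get an
element of `U s ∩ span_K u = 0`: `c_{ij} = - (α β⁻¹)_{ij} ∈ 𝓡`. -/
theorem IsGood.graph_mem [Finite S] (hC : R.IsCartesian) (h𝓡 : IsIntegralValued R 𝓡)
    {U : S → Submodule K F} (hU : IsGood R 𝓡 U) {d e : ℕ} (u : Fin d → F) (v : Fin e → F)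
    (hu : ∀ i, u i ∈ R.O) (hv : ∀ j, v j ∈ R.O)
    (hli : LinearIndependent k (fun x : Fin d ⊕ Fin e => R.red (Sum.elim u v x)))
    (hUle : ∀ s, U s ≤ Submodule.span K (Set.range (Sum.elim u v)))
    (hdisj : ∀ s, Disjoint (Submodule.span k (Set.range fun i => R.red (u i))) (R.redSub (U s)))
    (c : Fin d → Fin e → S → K) (hc : ∀ s j, v j - ∑ i, c i j s • u i ∈ U s) :
    ∀ i j, c i j ∈ 𝓡 := by
  classical
  obtain ⟨dU, φ, hφ, hφs⟩ := hU
  rcases isEmpty_or_nonempty S with hS | ⟨⟨s₀⟩⟩
  · intro i j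
    have : c i j = 0 := funext fun s => (hS.false s).elim
    rw [this]
    exact 𝓡.zero_mem
  have hLI : LinearIndependent K (Sum.elim u v) :=
    R.linearIndependent_of_red (by rintro (i | j); exacts [hu i, hv j]) hli
  have hLIu : LinearIndependent k (fun i => R.red (u i)) := hli.comp Sum.inl Sum.inl_injective
  have hzero : ∀ (a : Fin d → K) (b : Fin e → K),
      ∑ i, a i • u i + ∑ j, b j • v j = 0 → a = 0 ∧ b = 0 := by
    intro a b h
    have := Fintype.linearIndependent_iff.1 hLI (Sum.elim a b)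
      (by rw [Fintype.sum_sum_type]; simpa using h)
    exact ⟨funext fun i => this (Sum.inl i), funext fun j => this (Sum.inr j)⟩
  have hinter : ∀ s, ∀ w ∈ U s, w ∈ Submodule.span K (Set.range u) → w = 0 := by
    intro s w hwU hwu
    by_contra hw
    obtain ⟨a, ha, hred⟩ := hC.exists_scale hw
    rw [← Algebra.smul_def] at hred
    have h1 : R.red (a • w) ∈ R.redSub (U s) :=
      ⟨a • w, (U s).smul_mem a hwU, R.mem_of_red_ne_zero hred, rfl⟩
    have h2 : R.red (a • w) ∈ Submodule.span k (Set.range fun i => R.red (u i)) := by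
      rw [← redSub_span hu hLIu]
      exact ⟨a • w, Submodule.smul_mem _ a hwu, R.mem_of_red_ne_zero hred, rfl⟩
    exact hred (Submodule.disjoint_def.1 (hdisj s) _ h2 h1)
  set w : S → Fin e → F := fun s j => v j - ∑ i, c i j s • u i with hw
  have hwsum : ∀ (s : S) (x : Fin e → K), ∑ j, x j • w s j
      = ∑ i, (-(∑ j, x j * c i j s)) • u i + ∑ j, x j • v j := by
    intro s x
    simp only [hw, smul_sub, Finset.sum_sub_distrib, Finset.smul_sum, neg_smul,
      Finset.sum_neg_distrib, Finset.sum_smul, mul_smul]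
    rw [Finset.sum_comm]
    abel
  have hwLI : ∀ s, LinearIndependent K (w s) := by
    intro s
    rw [Fintype.linearIndependent_iff]
    intro x hx j
    rw [hwsum] at hx
    exact congrFun (hzero _ _ hx).2 j
  have hspan : ∀ s, Submodule.span K (Set.range (w s)) = U s := by
    intro s
    apply le_antisymm
    · rw [Submodule.span_le]
      rintro _ ⟨j, rfl⟩
      exact hc s j
    · intro x hx
      obtain ⟨g, hg⟩ := (Submodule.mem_span_range_iff_exists_fun K).1 (hUle s hx)
      rw [Fintype.sum_sum_type] at hg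
      simp only [Sum.elim_inl, Sum.elim_inr] at hg
      have h1 : x - ∑ j, g (Sum.inr j) • w s j ∈ U s :=
        (U s).sub_mem hx ((U s).sum_mem fun j _ => (U s).smul_mem _ (hc s j))
      have h2 : x - ∑ j, g (Sum.inr j) • w s j ∈ Submodule.span K (Set.range u) := by
        have : x - ∑ j, g (Sum.inr j) • w s j
            = ∑ i, (g (Sum.inl i) + ∑ j, g (Sum.inr j) * c i j s) • u i := by
          rw [← hg, hwsum]
          simp only [add_smul, neg_smul, Finset.sum_add_distrib, Finset.sum_neg_distrib]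
          abel
        rw [this]
        exact Submodule.sum_mem _ fun i _ =>
          Submodule.smul_mem _ _ (Submodule.subset_span ⟨i, rfl⟩)
      have h3 := hinter s _ h1 h2
      rw [sub_eq_zero] at h3
      rw [h3]
      exact Submodule.sum_mem _ fun j _ =>
        Submodule.smul_mem _ _ (Submodule.subset_span ⟨j, rfl⟩)
  have hdim : dU = e := by
    have h1 : finrank K (Submodule.span K (Set.range fun l => φ l s₀)) = dU := by
      rw [finrank_span_eq_card (R.linearIndependent_of_red
        (fun l => RO.apply_mem h𝓡 (hφ l) s₀) (hφs s₀).2)]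
      simp
    have h2 : finrank K (Submodule.span K (Set.range (w s₀))) = e := by
      rw [finrank_span_eq_card (hwLI s₀)]
      simp
    rw [← h1, ← h2, (hφs s₀).1, hspan]
  subst hdim
  have hφU : ∀ l s, φ l s ∈ U s := fun l s => by
    rw [← (hφs s).1]
    exact Submodule.subset_span ⟨l, rfl⟩
  choose α β hα hβ hφeq using fun l =>
    famGraph_coord hC u v hu hv hli (hφ l) (fun s => hUle s (hφU l s))
  let M : S → Matrix (Fin dU) (Fin dU) K := fun s => Matrix.of fun j l => β l j s
  have hM : ∀ j l, (fun s => M s j l) ∈ 𝓡 := fun j l => hβ l j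
  have hredφ : ∀ l s, R.red (φ l s) = ∑ i, R.redA (α l i s) • R.red (u i)
      + ∑ j, R.redA (β l j s) • R.red (v j) := by
    intro l s
    have h1 := red_sum_smul (R := R) hu (a := fun i => α l i s) (fun i => h𝓡 _ (hα l i) s)
    have h2 := red_sum_smul (R := R) hv (a := fun j => β l j s) (fun j => h𝓡 _ (hβ l j) s)
    rw [hφeq, R.red_add h1.1 h2.1, h1.2, h2.2]
  have hdet : ∀ s, ((M s).map R.redA).det ≠ 0 := by
    intro s h0
    obtain ⟨x, hx0, hx⟩ := Matrix.exists_mulVec_eq_zero_iff.2 h0
    apply hx0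
    have hx' : ∀ j, ∑ l, x l * R.redA (β l j s) = 0 := by
      intro j
      have := congrFun hx j
      simp only [Matrix.mulVec, dotProduct, Matrix.map_apply, Pi.zero_apply] at this
      rw [← this]
      exact Finset.sum_congr rfl fun l _ => mul_comm _ _
    have h1 : ∑ l, x l • R.red (φ l s)
        = ∑ i, (∑ l, x l * R.redA (α l i s)) • R.red (u i) := by
      simp only [hredφ, smul_add, Finset.sum_add_distrib, Finset.smul_sum, smul_smul]
      rw [Finset.sum_comm, Finset.sum_comm (f := fun l j => (x l * R.redA (β l j s)) • R.red (v j))]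
      simp only [← Finset.sum_smul, hx', zero_smul, Finset.sum_const_zero, add_zero]
    have h2 : ∑ l, x l • R.red (φ l s) ∈ R.redSub (U s) :=
      Submodule.sum_mem _ fun l _ => Submodule.smul_mem _ _
        ⟨φ l s, hφU l s, RO.apply_mem h𝓡 (hφ l) s, rfl⟩
    have h3 : ∑ l, x l • R.red (φ l s) ∈ Submodule.span k (Set.range fun i => R.red (u i)) := by
      rw [h1]
      exact Submodule.sum_mem _ fun i _ =>
        Submodule.smul_mem _ _ (Submodule.subset_span ⟨i, rfl⟩)
    have h4 := Submodule.disjoint_def.1 (hdisj s) _ h3 h2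
    exact funext (Fintype.linearIndependent_iff.1 (hφs s).2 x h4)
  have hinv := matrix_inv_mem h𝓡 M hM hdet
  have hdetK : ∀ s, (M s).det ≠ 0 := by
    intro s h0
    apply hdet s
    rw [← redA_det (R := R) (M s) (fun j l => h𝓡 _ (hM j l) s), h0,
      R.redA_of_mem R.A.zero_mem]
    exact map_zero _
  intro i j
  have key : c i j = -∑ l, α l i * (fun s => (M s)⁻¹ l j) := by
    funext s
    have hψU : ∑ l, (M s)⁻¹ l j • φ l s ∈ U s :=
      (U s).sum_mem fun l _ => (U s).smul_mem _ (hφU l s)
    have hMM : ∀ j', ∑ l, (M s)⁻¹ l j * β l j' s = if j' = j then 1 else 0 := by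
      intro j'
      have h1 : (M s * (M s)⁻¹) j' j = (1 : Matrix (Fin dU) (Fin dU) K) j' j := by
        rw [Matrix.mul_nonsing_inv _ (isUnit_iff_ne_zero.2 (hdetK s))]
      rw [Matrix.mul_apply, Matrix.one_apply] at h1
      rw [← h1]
      exact Finset.sum_congr rfl fun l _ => mul_comm _ _
    have hψ : ∑ l, (M s)⁻¹ l j • φ l s
        = ∑ i, (∑ l, (M s)⁻¹ l j * α l i s) • u i + v j := by
      simp only [hφeq, smul_add, Finset.sum_add_distrib, Finset.smul_sum, smul_smul]
      rw [Finset.sum_comm,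
        Finset.sum_comm (f := fun l j' => ((M s)⁻¹ l j * β l j' s) • v j')]
      simp only [← Finset.sum_smul, hMM, ite_smul, one_smul, zero_smul, Finset.sum_ite_eq',
        Finset.mem_univ, if_true]
    have h1 : ∑ l, (M s)⁻¹ l j • φ l s - w s j ∈ U s := (U s).sub_mem hψU (hc s j)
    have h2 : ∑ l, (M s)⁻¹ l j • φ l s - w s j
        = ∑ i, (∑ l, (M s)⁻¹ l j * α l i s + c i j s) • u i := by
      rw [hψ]
      simp only [hw, add_smul, Finset.sum_add_distrib]
      abel
    have h3 := hinter s _ h1 (by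
      rw [h2]
      exact Submodule.sum_mem _ fun i _ =>
        Submodule.smul_mem _ _ (Submodule.subset_span ⟨i, rfl⟩))
    rw [h2] at h3
    have h4 := (hzero _ 0 (by simpa using h3)).1
    have h5 := congrFun h4 i
    simp only [Pi.zero_apply] at h5
    simp only [Pi.neg_apply, Finset.sum_apply, Pi.mul_apply]
    rw [eq_neg_iff_add_eq_zero, add_comm, ← h5]
    congr 1
    exact Finset.sum_congr rfl fun l _ => mul_comm _ _
  rw [key]
  exact 𝓡.neg_mem (𝓡.sum_mem fun l _ => 𝓡.mul_mem (hα l i) (hinv l j))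

/-- **Existence of integral graph coordinates.**  `(u, v)` an orthonormal basis of `V`, `W ≤ V` with
`dim W = e` and `span ū ∩ redSub W = 0`: then `W` is the graph of a unique matrix, with entries in `A`.
Proof: orthonormal basis `w_l` of `W` (`exists_ortho_basis`); `(ū, w̄)` is independent, `d + e` vectors in
`redSub V = span (ū, v̄)`, so `(u, w)` is an orthonormal basis of `V`; expand `v_j` in it: coefficients in `A`
(`coeff_mem_of_indep`). -/
theorem exists_graph_coord (hC : R.IsCartesian) {d e : ℕ} (u : Fin d → F) (v : Fin e → F)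
    (hu : ∀ i, u i ∈ R.O) (hv : ∀ j, v j ∈ R.O)
    (hli : LinearIndependent k (fun x : Fin d ⊕ Fin e => R.red (Sum.elim u v x)))
    (W : Submodule K F) (hW : W ≤ Submodule.span K (Set.range (Sum.elim u v)))
    (hdim : finrank K W = e)
    (hdisj : Disjoint (Submodule.span k (Set.range fun i => R.red (u i))) (R.redSub W)) :
    ∃ c : Fin d → Fin e → K, (∀ i j, c i j ∈ R.A) ∧ (∀ j, v j - ∑ i, c i j • u i ∈ W) ∧
      W = Submodule.span K (Set.range fun j => v j - ∑ i, c i j • u i) ∧
      ∀ c' : Fin d → Fin e → K, (∀ j, v j - ∑ i, c' i j • u i ∈ W) → c' = c := by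
  classical
  set V : Submodule K F := Submodule.span K (Set.range (Sum.elim u v)) with hV
  have hVfin : Module.Finite K V := FiniteDimensional.span_of_finite K (Set.finite_range _)
  have hWfin : Module.Finite K W := Submodule.finiteDimensional_of_le hW
  have hO : ∀ x, Sum.elim u v x ∈ R.O := by
    rintro (i | j)
    exacts [hu i, hv j]
  have hLI : LinearIndependent K (Sum.elim u v) := R.linearIndependent_of_red hO hli
  have hLIu : LinearIndependent k (fun i => R.red (u i)) := hli.comp Sum.inl Sum.inl_injective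
  have hzero : ∀ (a : Fin d → K) (b : Fin e → K),
      ∑ i, a i • u i + ∑ j, b j • v j = 0 → a = 0 ∧ b = 0 := by
    intro a b h
    have := Fintype.linearIndependent_iff.1 hLI (Sum.elim a b)
      (by rw [Fintype.sum_sum_type]; simpa using h)
    exact ⟨funext fun i => this (Sum.inl i), funext fun j => this (Sum.inr j)⟩
  subst hdim
  obtain ⟨w, hwW, hwO, hwli, hwspan⟩ := exists_ortho_basis hC W
  have hfam : (fun x : Fin d ⊕ Fin (finrank K W) => R.red (Sum.elim u w x)) =
      Sum.elim (fun i => R.red (u i)) (fun j => R.red (w j)) := by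
    funext x
    rcases x with i | j <;> rfl
  have hli' : LinearIndependent k
      (fun x : Fin d ⊕ Fin (finrank K W) => R.red (Sum.elim u w x)) := by
    rw [hfam]
    refine hLIu.sum_type hwli (hdisj.mono_right ?_)
    rw [Submodule.span_le]
    rintro _ ⟨j, rfl⟩
    exact ⟨w j, hwW j, hwO j, rfl⟩
  have hO' : ∀ x, Sum.elim u w x ∈ R.O := by
    rintro (i | j)
    exacts [hu i, hwO j]
  have hLI' : LinearIndependent K (Sum.elim u w) := R.linearIndependent_of_red hO' hli'
  have hspan' : Submodule.span K (Set.range (Sum.elim u w)) = V := by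
    apply Submodule.eq_of_le_of_finrank_eq
    · rw [Submodule.span_le]
      rintro _ ⟨i | j, rfl⟩
      · exact Submodule.subset_span ⟨Sum.inl i, rfl⟩
      · exact hW (hwW j)
    · rw [finrank_span_eq_card hLI', hV, finrank_span_eq_card hLI]
  have hinter : ∀ x ∈ W, x ∈ Submodule.span K (Set.range u) → x = 0 := by
    intro x hxW hxu
    have h1 := (linearIndependent_sum.1 hLI').2.2
    have h2 : Sum.elim u w ∘ Sum.inl = u := rfl
    have h3 : Sum.elim u w ∘ Sum.inr = w := rfl
    rw [h2, h3, hwspan] at h1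
    exact Submodule.disjoint_def.1 h1 x hxu hxW
  have hex : ∀ j, ∃ a : Fin d ⊕ Fin (finrank K W) → K, ∑ x, a x • Sum.elim u w x = v j := by
    intro j
    have h1 : v j ∈ V := Submodule.subset_span ⟨Sum.inr j, rfl⟩
    rw [← hspan'] at h1
    exact (Submodule.mem_span_range_iff_exists_fun K).1 h1
  choose a ha using hex
  have haA : ∀ j x, a j x ∈ R.A := fun j =>
    coeff_mem_of_indep hO' hli' (a j) (by rw [ha j]; exact hv j)
  have hmem : ∀ j, v j - ∑ i, a j (Sum.inl i) • u i ∈ W := by
    intro j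
    have : v j - ∑ i, a j (Sum.inl i) • u i = ∑ l, a j (Sum.inr l) • w l := by
      rw [← ha j, Fintype.sum_sum_type]
      simp
    rw [this]
    exact W.sum_mem fun l _ => W.smul_mem _ (hwW l)
  have hgLI : LinearIndependent K (fun j => v j - ∑ i, a j (Sum.inl i) • u i) := by
    rw [Fintype.linearIndependent_iff]
    intro x hx j
    have h1 : ∑ j, x j • (v j - ∑ i, a j (Sum.inl i) • u i)
        = ∑ i, (-(∑ j, x j * a j (Sum.inl i))) • u i + ∑ j, x j • v j := by
      simp only [smul_sub, Finset.sum_sub_distrib, Finset.smul_sum, neg_smul,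
        Finset.sum_neg_distrib, Finset.sum_smul, mul_smul]
      rw [Finset.sum_comm]
      abel
    rw [h1] at hx
    exact congrFun (hzero _ _ hx).2 j
  refine ⟨fun i j => a j (Sum.inl i), fun i j => haA j _, hmem, ?_, ?_⟩
  · symm
    apply Submodule.eq_of_le_of_finrank_eq
    · rw [Submodule.span_le]
      rintro _ ⟨j, rfl⟩
      exact hmem j
    · rw [finrank_span_eq_card hgLI, Fintype.card_fin]
  · intro c' hc'
    funext i j
    have h1 : (v j - ∑ i, a j (Sum.inl i) • u i) - (v j - ∑ i, c' i j • u i) ∈ W :=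
      W.sub_mem (hmem j) (hc' j)
    have h2 : (v j - ∑ i, a j (Sum.inl i) • u i) - (v j - ∑ i, c' i j • u i)
        = ∑ i, (c' i j - a j (Sum.inl i)) • u i := by
      simp only [sub_smul, Finset.sum_sub_distrib]
      abel
    have h3 := hinter _ h1 (by
      rw [h2]
      exact Submodule.sum_mem _ fun i _ =>
        Submodule.smul_mem _ _ (Submodule.subset_span ⟨i, rfl⟩))
    rw [h2] at h3
    have h4 := (hzero _ 0 (by simpa using h3)).1
    have h5 := congrFun h4 i
    simp only [Pi.zero_apply] at h5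
    exact sub_eq_zero.1 h5

end Fermat.Agent.FLAT.Geo
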