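import Fermat.Agent.FLAT.Geo.FamOrtho
import Fermat.Agent.FLAT.Geo.FamLin

/-!
# FLAT / Geo / FamImage : spans and products of good families of constant rank
-/

set_option autoImplicit false

namespace Fermat.Agent.FLAT.Geo

open AlgebraicCurve Fermat.Agent.Lib.RR Fermat.Agent.GAL.RED Module

variable {K F k Fb : Type*} [Field K] [Field F] [Algebra K F] [Field k] [Field Fb] [Algebra k Fb]
variable {R : RedData K F k Fb} {S : Type*} {𝓡 : Subalgebra R.A (S → K)}

/-- **Image lemma.**  `ψ_1 … ψ_m ∈ RO R 𝓡` with `dim_K span ψ(s) ≤ e ≤ dim_k span red ψ(s)` for all `s`: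
the family `span ψ(s)` is good.
Proof: `N_s := ker (k^m → Fb, x ↦ ∑ x_j red ψ_j(s))` has dimension `≤ m - e`.
`exists_common_compl` in `Fin m → k`: independent `x_1 … x_e` with `span x ∩ N_s = 0`.  Lift the entries to
`Q_{j l} ∈ A` (`R.exists_liftA`), `φ_l := ∑_j Q_{j l} ψ_j ∈ RO R 𝓡` (`RO.smul_mem`, `const_mem`,
`RO.sum_mem`).  `red φ_l(s) = ∑_j x_{l j} red ψ_j(s)` (`red_sum_smul`, `RO.apply_mem`) are independent;
so the `φ_l(s)` are `K`-independent (`RED.linearIndependent_of_red`) in a space of dimension `≤ e`. -/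
theorem isGood_span [Infinite k] [Finite S] (h𝓡 : IsIntegralValued R 𝓡) {m : ℕ} (e : ℕ)
    (ψ : Fin m → S → F) (hψ : ∀ j, ψ j ∈ RO R 𝓡)
    (hK : ∀ s, finrank K (Submodule.span K (Set.range fun j => ψ j s)) ≤ e)
    (hk : ∀ s, e ≤ finrank k (Submodule.span k (Set.range fun j => R.red (ψ j s)))) :
    IsGood R 𝓡 (fun s => Submodule.span K (Set.range fun j => ψ j s)) := by
  classical
  rcases isEmpty_or_nonempty S with hS | ⟨⟨s₀⟩⟩
  · exact ⟨0, Fin.elim0, fun i => i.elim0, fun s => (hS.false s).elim⟩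
  have hψO : ∀ j s, ψ j s ∈ R.O := fun j s => RO.apply_mem h𝓡 (hψ j) s
  set T : S → (Fin m → k) →ₗ[k] Fb := fun s =>
    Fintype.linearCombination k (fun j => R.red (ψ j s)) with hT
  have hTapp : ∀ s x, T s x = ∑ j, x j • R.red (ψ j s) := fun s x =>
    Fintype.linearCombination_apply k _ x
  have hrange : ∀ s, LinearMap.range (T s) =
      Submodule.span k (Set.range fun j => R.red (ψ j s)) := fun s =>
    Fintype.range_linearCombination k _
  have hm : finrank k (Fin m → k) = m := by
    rw [Module.finrank_fintype_fun_eq_card, Fintype.card_fin]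
  have hN : ∀ s, finrank k (LinearMap.ker (T s)) + e ≤ finrank k (Fin m → k) := by
    intro s
    have h1 := LinearMap.finrank_range_add_finrank_ker (T s)
    have h2 := hk s
    rw [← hrange s] at h2
    omega
  have he : e ≤ finrank k (Fin m → k) := le_trans (Nat.le_add_left _ _) (hN s₀)
  obtain ⟨x, hx, hdisj⟩ := exists_common_compl (fun s => LinearMap.ker (T s)) e he hN
  have hlift : ∀ l j, ∃ a : K, a ∈ R.A ∧ R.redA a = x l j := fun l j => R.exists_liftA (x l j)
  choose Q hQA hQx using hlift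
  set φ : Fin e → S → F := fun l s => ∑ j, Q l j • ψ j s with hφ
  have hφRO : ∀ l, φ l ∈ RO R 𝓡 := fun l =>
    RO.sum_mem Finset.univ fun j _ => RO.smul_mem (const_mem 𝓡 (hQA l j)) (hψ j)
  have hred : ∀ l s, φ l s ∈ R.O ∧ R.red (φ l s) = T s (x l) := by
    intro l s
    have h1 := red_sum_smul (R := R) (b := fun j => ψ j s) (fun j => hψO j s) (a := Q l) (hQA l)
    refine ⟨h1.1, ?_⟩
    rw [hTapp]
    simp only [hφ]
    rw [h1.2]
    exact Finset.sum_congr rfl fun j _ => by rw [hQx]
  refine ⟨e, φ, hφRO, fun s => ?_⟩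
  have hli : LinearIndependent k (fun l => R.red (φ l s)) := by
    have h1 := hx.map (f := T s) (hdisj s)
    have h2 : (fun l => R.red (φ l s)) = T s ∘ x := by
      funext l
      exact (hred l s).2
    rw [h2]
    exact h1
  refine ⟨?_, hli⟩
  have hliK : LinearIndependent K (fun l => φ l s) :=
    R.linearIndependent_of_red (fun l => (hred l s).1) hli
  have : Module.Finite K (Submodule.span K (Set.range fun j => ψ j s)) :=
    FiniteDimensional.span_of_finite K (Set.finite_range _)
  apply Submodule.eq_of_le_of_finrank_le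
  · rw [Submodule.span_le]
    rintro _ ⟨l, rfl⟩
    exact Submodule.sum_mem _ fun j _ => Submodule.smul_mem _ _ (Submodule.subset_span ⟨j, rfl⟩)
  · rw [finrank_span_eq_card hliK, Fintype.card_fin]
    exact hK s

/-- the span of the products of two finite families. -/
theorem FamImage_span_mul {k₀ E : Type*} [Field k₀] [Field E] [Algebra k₀ E] {d d' : ℕ}
    (f : Fin d → E) (g : Fin d' → E) :
    Submodule.span k₀ (Set.range fun x : Fin (d * d') =>
      f (finProdFinEquiv.symm x).1 * g (finProdFinEquiv.symm x).2) =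
      Submodule.span k₀ (Set.range f) * Submodule.span k₀ (Set.range g) := by
  rw [Submodule.span_mul_span]
  congr 1
  ext y
  constructor
  · rintro ⟨x, rfl⟩
    exact Set.mul_mem_mul ⟨_, rfl⟩ ⟨_, rfl⟩
  · intro hy
    obtain ⟨_, ⟨i, rfl⟩, _, ⟨j, rfl⟩, rfl⟩ := Set.mem_mul.1 hy
    exact ⟨finProdFinEquiv (i, j), by simp⟩

/-- **Products of good families.**
Proof: bases `φ_i`, `φ'_j`; `U s * U' s = span (φ_i(s) φ'_j(s))` (`Submodule.span_mul_span`), the
reductions `red φ_i(s) * red φ'_j(s)` span `redSub (U s) * redSub (U' s)` (`redSub_span`);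
`isGood_span` (reindex `Fin d × Fin d'` by `finProdFinEquiv`). -/
theorem IsGood.mul [Infinite k] [Finite S] (h𝓡 : IsIntegralValued R 𝓡)
    {U U' : S → Submodule K F} (hU : IsGood R 𝓡 U) (hU' : IsGood R 𝓡 U') (e : ℕ)
    (hK : ∀ s, finrank K ↥(U s * U' s) ≤ e)
    (hk : ∀ s, e ≤ finrank k ↥(R.redSub (U s) * R.redSub (U' s))) :
    IsGood R 𝓡 (fun s => U s * U' s) := by
  obtain ⟨d, φ, hφ, h⟩ := hU
  obtain ⟨d', φ', hφ', h'⟩ := hU'
  set ψ : Fin (d * d') → S → F := fun x s =>
    φ (finProdFinEquiv.symm x).1 s * φ' (finProdFinEquiv.symm x).2 s with hψ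
  have hψRO : ∀ x, ψ x ∈ RO R 𝓡 := fun x => RO.mul_mem (hφ _) (hφ' _)
  have hspan : ∀ s, Submodule.span K (Set.range fun x => ψ x s) = U s * U' s := by
    intro s
    rw [← (h s).1, ← (h' s).1]
    exact FamImage_span_mul (fun i => φ i s) (fun j => φ' j s)
  have hspank : ∀ s, Submodule.span k (Set.range fun x => R.red (ψ x s)) =
      R.redSub (U s) * R.redSub (U' s) := by
    intro s
    rw [← (h s).1, ← (h' s).1,
      redSub_span (b := fun i => φ i s) (fun i => RO.apply_mem h𝓡 (hφ i) s) (h s).2,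
      redSub_span (b := fun j => φ' j s) (fun j => RO.apply_mem h𝓡 (hφ' j) s) (h' s).2,
      ← FamImage_span_mul (fun i => R.red (φ i s)) (fun j => R.red (φ' j s))]
    congr 2
    funext x
    exact R.red_mul (RO.apply_mem h𝓡 (hφ _) s) (RO.apply_mem h𝓡 (hφ' _) s)
  have hmain := isGood_span h𝓡 e ψ hψRO (fun s => by rw [hspan s]; exact hK s)
    (fun s => by rw [hspank s]; exact hk s)
  have hfun : (fun s => Submodule.span K (Set.range fun x => ψ x s)) = fun s => U s * U' s :=
    funext hspan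
  rwa [hfun] at hmain

end Fermat.Agent.FLAT.Geo
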