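import Fermat.Agent.FLAT.Geo.FamAlg

/-!
# FLAT / Geo / FamOrtho : orthonormal families (elements of `O` with independent reductions)
-/

set_option autoImplicit false

namespace Fermat.Agent.FLAT.Geo

open AlgebraicCurve Fermat.Agent.Lib.RR Fermat.Agent.GAL.RED Module

variable {K F k Fb : Type*} [Field K] [Field F] [Algebra K F] [Field k] [Field Fb] [Algebra k Fb]
variable {R : RedData K F k Fb}

/-- reduction of an integral combination. -/
theorem red_sum_smul {ι : Type*} [Fintype ι] {b : ι → F} (hb : ∀ i, b i ∈ R.O) {a : ι → K}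
    (ha : ∀ i, a i ∈ R.A) :
    (∑ i, a i • b i) ∈ R.O ∧ R.red (∑ i, a i • b i) = ∑ i, R.redA (a i) • R.red (b i) := by
  have hmem : ∀ i ∈ Finset.univ, a i • b i ∈ R.O := fun i _ => R.smul_mem (ha i) (hb i)
  refine ⟨sum_mem hmem, ?_⟩
  rw [R.red_sum _ _ hmem]
  exact Finset.sum_congr rfl fun i _ => R.red_smul (ha i) (hb i)

/-- **Coefficients w.r.t. an orthonormal family are integral.**
Proof: if not, let `a i₀` have maximal valuation (`> 1`); `c = (a i₀)⁻¹` is in the maximal ideal;
`c • ∑ a i • b i = ∑ (c a i) • b i` has reduction `0` (`R.red_smul`, `redA c = 0`) and also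
`∑ redA (c a i) • red (b i)` with `redA (c a i₀) = 1`: contradiction with independence.
(`RED.exists_scale_family` does the scaling.) -/
theorem coeff_mem_of_indep {ι : Type*} [Fintype ι] {b : ι → F} (hb : ∀ i, b i ∈ R.O)
    (hli : LinearIndependent k (fun i => R.red (b i))) (a : ι → K)
    (h : (∑ i, a i • b i) ∈ R.O) : ∀ i, a i ∈ R.A := by
  intro i₀
  by_contra hi₀
  have ha0 : a ≠ 0 := by
    intro h0
    apply hi₀
    rw [h0]
    exact R.A.zero_mem
  obtain ⟨c, -, hmem, i₁, hi₁⟩ := R.exists_scale_family a ha0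
  have hne : a i₀ ≠ 0 := fun h0 => hi₀ (h0 ▸ R.A.zero_mem)
  have hinv : (a i₀)⁻¹ ∈ R.A := (R.A.mem_or_inv_mem (a i₀)).resolve_left hi₀
  have hc : c = (c * a i₀) * (a i₀)⁻¹ := by
    rw [mul_assoc, mul_inv_cancel₀ hne, mul_one]
  have hcA : c ∈ R.A := by
    rw [hc]
    exact R.A.mul_mem _ _ (hmem i₀) hinv
  have hc0 : R.redA c = 0 := by
    rw [hc, R.redA_mul (hmem i₀) hinv, R.redA_inv, R.redA_of_not_mem hi₀, inv_zero, mul_zero]
  have h1 : c • ∑ i, a i • b i = ∑ i, (c * a i) • b i := by
    rw [Finset.smul_sum]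
    exact Finset.sum_congr rfl fun i _ => (mul_smul _ _ _).symm
  have h2 := R.red_smul hcA h
  rw [hc0, zero_smul, h1, (red_sum_smul hb hmem).2] at h2
  exact hi₁ (Fintype.linearIndependent_iff.1 hli _ h2 i₁)

/-- the reduction of the span of an orthonormal family. -/
theorem redSub_span {ι : Type*} [Fintype ι] {b : ι → F} (hb : ∀ i, b i ∈ R.O)
    (hli : LinearIndependent k (fun i => R.red (b i))) :
    R.redSub (Submodule.span K (Set.range b)) =
      Submodule.span k (Set.range fun i => R.red (b i)) := by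
  apply le_antisymm
  · rintro _ ⟨f, hf, hfO, rfl⟩
    obtain ⟨a, rfl⟩ := (Submodule.mem_span_range_iff_exists_fun K).1 hf
    have ha := coeff_mem_of_indep hb hli a hfO
    rw [(red_sum_smul hb ha).2]
    exact Submodule.sum_mem _ fun i _ =>
      Submodule.smul_mem _ _ (Submodule.subset_span ⟨i, rfl⟩)
  · rw [Submodule.span_le]
    rintro _ ⟨i, rfl⟩
    exact ⟨b i, Submodule.subset_span ⟨i, rfl⟩, hb i, rfl⟩

/-- Orthonormal bases exist (Cartesian).  Proof: a basis of `redSub V` (dimension `finrank K V`), lift it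
(`R.mem_redSub`), `RED.linearIndependent_of_red`, count dimensions. -/
theorem exists_ortho_basis (hC : R.IsCartesian) (V : Submodule K F) [Module.Finite K V] :
    ∃ b : Fin (finrank K V) → F, (∀ i, b i ∈ V) ∧ (∀ i, b i ∈ R.O) ∧
      LinearIndependent k (fun i => R.red (b i)) ∧ Submodule.span K (Set.range b) = V := by
  have hfin : Module.Finite k (R.redSub V) := R.finite_redSub V
  let β := Module.finBasisOfFinrankEq k (R.redSub V) (hC V inferInstance)
  have hex : ∀ i, ∃ f : F, f ∈ V ∧ f ∈ R.O ∧ R.red f = ((β i : R.redSub V) : Fb) :=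
    fun i => (β i).2
  choose f hfV hfO hfr using hex
  have h1 : LinearIndependent k (fun i => R.red (f i)) := by
    have h2 : LinearIndependent k (fun i => ((β i : R.redSub V) : Fb)) :=
      β.linearIndependent.map' (R.redSub V).subtype (Submodule.ker_subtype _)
    simpa only [hfr] using h2
  refine ⟨f, hfV, hfO, h1, ?_⟩
  have h3 : LinearIndependent K f := R.linearIndependent_of_red hfO h1
  apply Submodule.eq_of_le_of_finrank_eq
  · rw [Submodule.span_le]
    rintro _ ⟨i, rfl⟩
    exact hfV i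
  · rw [finrank_span_eq_card h3, Fintype.card_fin]

/-- Extension of an orthonormal family of `W` to an orthonormal basis of `W`.
Proof: extend the independent family `red (b i)` of `redSub W` to a basis of `redSub W`, lift the new
vectors, count dimensions (`hC W`). -/
theorem exists_extend_ortho (hC : R.IsCartesian) {n : ℕ} {b : Fin n → F} (hb : ∀ i, b i ∈ R.O)
    (hli : LinearIndependent k (fun i => R.red (b i))) (W : Submodule K F) [Module.Finite K W]
    (hbW : ∀ i, b i ∈ W) :
    ∃ (m : ℕ) (b' : Fin m → F), (∀ j, b' j ∈ W) ∧ (∀ j, b' j ∈ R.O) ∧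
      LinearIndependent k (fun x : Fin n ⊕ Fin m => R.red (Sum.elim b b' x)) ∧
      Submodule.span K (Set.range (Sum.elim b b')) = W := by
  have hfin : Module.Finite k (R.redSub W) := R.finite_redSub W
  set U₀ : Submodule k Fb := Submodule.span k (Set.range fun i => R.red (b i)) with hU₀
  have hle : U₀ ≤ R.redSub W := by
    rw [hU₀, Submodule.span_le]
    rintro _ ⟨i, rfl⟩
    exact ⟨b i, hbW i, hb i, rfl⟩
  obtain ⟨C, hCc⟩ := Submodule.exists_isCompl U₀
  set U₁ : Submodule k Fb := C ⊓ R.redSub W with hU₁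
  have hU₁le : U₁ ≤ R.redSub W := inf_le_right
  have hfin₁ : Module.Finite k U₁ := Submodule.finiteDimensional_of_le hU₁le
  have hsup : U₀ ⊔ U₁ = R.redSub W := by
    rw [hU₁, ← sup_inf_assoc_of_le C hle, hCc.sup_eq_top, top_inf_eq]
  have hdisj : Disjoint U₀ U₁ := hCc.disjoint.mono_right inf_le_left
  obtain ⟨m, ⟨β⟩⟩ : ∃ m, Nonempty (Basis (Fin m) k U₁) := ⟨_, ⟨Module.finBasis k U₁⟩⟩
  have hex : ∀ j, ∃ f : F, f ∈ W ∧ f ∈ R.O ∧ R.red f = ((β j : U₁) : Fb) :=
    fun j => hU₁le (β j).2
  choose f hfW hfO hfr using hex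
  have hspan₁ : Submodule.span k (Set.range fun j => R.red (f j)) = U₁ := by
    have h := congrArg (Submodule.map U₁.subtype) β.span_eq
    rw [Submodule.map_span, Submodule.map_top, Submodule.range_subtype, ← Set.range_comp] at h
    refine Eq.trans ?_ h
    congr 2
    funext j
    exact hfr j
  have h1 : LinearIndependent k (fun j => R.red (f j)) := by
    have h2 : LinearIndependent k (fun j => ((β j : U₁) : Fb)) :=
      β.linearIndependent.map' U₁.subtype (Submodule.ker_subtype _)
    simpa only [hfr] using h2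
  have hfam : (fun x : Fin n ⊕ Fin m => R.red (Sum.elim b f x)) =
      Sum.elim (fun i => R.red (b i)) (fun j => R.red (f j)) := by
    funext x
    rcases x with i | j <;> rfl
  have hli' : LinearIndependent k
      (fun x : Fin n ⊕ Fin m => R.red (Sum.elim b f x)) := by
    rw [hfam]
    exact hli.sum_type h1 (by rw [hspan₁]; exact hdisj)
  have hO : ∀ x, Sum.elim b f x ∈ R.O := by
    rintro (i | j)
    · exact hb i
    · exact hfO j
  refine ⟨m, f, hfW, hfO, hli', ?_⟩
  have h3 : LinearIndependent K (Sum.elim b f) := R.linearIndependent_of_red hO hli'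
  apply Submodule.eq_of_le_of_finrank_eq
  · rw [Submodule.span_le]
    rintro _ ⟨i | j, rfl⟩
    · exact hbW i
    · exact hfW j
  · have hcount : Submodule.span k
        (Set.range fun x : Fin n ⊕ Fin m => R.red (Sum.elim b f x)) = R.redSub W := by
      rw [hfam, Set.Sum.elim_range, Submodule.span_union, hspan₁]
      exact hsup
    rw [finrank_span_eq_card h3, ← hC W inferInstance, ← hcount, finrank_span_eq_card hli']

variable {S : Type*} {𝓡 : Subalgebra R.A (S → K)}

/-- **Coordinates of an element of `RO R 𝓡` w.r.t. an orthonormal family lie in `𝓡`.**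
Proof: `φ s = ∑_m ρ_m(s) o_m` (`RO.exists_repr`).  `W = span (b, o)`; extend `b` to an orthonormal basis
`(b, b')` of `W`; `o_m = ∑ a_{m i} b_i + ∑ a'_{m j} b'_j` with coefficients in `A`
(`coeff_mem_of_indep`); so `φ s = ∑_i (∑_m a_{m i} ρ_m(s)) b_i + ∑_j (…) b'_j`; as `φ s ∈ span b` and
`(b, b')` is `K`-independent the second part vanishes. -/
theorem RO.exists_coord (hC : R.IsCartesian) {n : ℕ} {b : Fin n → F} (hb : ∀ i, b i ∈ R.O)
    (hli : LinearIndependent k (fun i => R.red (b i))) {φ : S → F} (hφ : φ ∈ RO R 𝓡)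
    (hφb : ∀ s, φ s ∈ Submodule.span K (Set.range b)) :
    ∃ ρ : Fin n → S → K, (∀ i, ρ i ∈ 𝓡) ∧ ∀ s, φ s = ∑ i, ρ i s • b i := by
  classical
  obtain ⟨m, ρ0, o, hρ0, ho, hφs⟩ := RO.exists_repr hφ
  set W : Submodule K F := Submodule.span K (Set.range b ∪ Set.range o) with hW
  have : Module.Finite K W :=
    FiniteDimensional.span_of_finite K ((Set.finite_range b).union (Set.finite_range o))
  have hbW : ∀ i, b i ∈ W := fun i => Submodule.subset_span (Or.inl ⟨i, rfl⟩)
  have hoW : ∀ j, o j ∈ W := fun j => Submodule.subset_span (Or.inr ⟨j, rfl⟩)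
  obtain ⟨m', b', -, hb'O, hli', hspan⟩ := exists_extend_ortho hC hb hli W hbW
  have hBO : ∀ x, Sum.elim b b' x ∈ R.O := by
    rintro (i | j)
    · exact hb i
    · exact hb'O j
  have hBli : LinearIndependent K (Sum.elim b b') := R.linearIndependent_of_red hBO hli'
  have hex : ∀ j, ∃ a : Fin n ⊕ Fin m' → K, ∑ x, a x • Sum.elim b b' x = o j := by
    intro j
    have h1 := hoW j
    rw [← hspan] at h1
    exact (Submodule.mem_span_range_iff_exists_fun K).1 h1
  choose a ha using hex
  have haA : ∀ j x, a j x ∈ R.A := fun j =>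
    coeff_mem_of_indep hBO hli' (a j) (by rw [ha j]; exact ho j)
  set c : Fin n ⊕ Fin m' → S → K := fun x s => ∑ j, ρ0 j s * a j x with hc
  have hc𝓡 : ∀ x, c x ∈ 𝓡 := by
    intro x
    have h1 : c x = ∑ j, ρ0 j * (fun _ : S => a j x) := by
      funext s
      rw [Finset.sum_apply]
      rfl
    rw [h1]
    exact 𝓡.sum_mem fun j _ => 𝓡.mul_mem (hρ0 j) (const_mem 𝓡 (haA j x))
  have hφc : ∀ s, φ s = ∑ x, c x s • Sum.elim b b' x := by
    intro s
    rw [hφs s]
    simp only [hc, Finset.sum_smul]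
    rw [Finset.sum_comm]
    refine Finset.sum_congr rfl fun j _ => ?_
    rw [← ha j, Finset.smul_sum]
    refine Finset.sum_congr rfl fun x _ => ?_
    rw [mul_smul]
  refine ⟨fun i => c (Sum.inl i), fun i => hc𝓡 _, fun s => ?_⟩
  obtain ⟨d, hd⟩ := (Submodule.mem_span_range_iff_exists_fun K).1 (hφb s)
  have h2 : ∑ x, (c x s - Sum.elim d (fun _ => 0) x) • Sum.elim b b' x = 0 := by
    simp only [sub_smul, Finset.sum_sub_distrib]
    rw [← hφc s, Fintype.sum_sum_type]
    simp only [Sum.elim_inl, Sum.elim_inr, zero_smul, Finset.sum_const_zero, add_zero]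
    rw [hd, sub_self]
  have h3 := (Fintype.linearIndependent_iff.1 hBli) _ h2
  rw [← hd]
  refine Finset.sum_congr rfl fun i _ => ?_
  have h4 := h3 (Sum.inl i)
  rw [Sum.elim_inl, sub_eq_zero] at h4
  show d i • b i = c (Sum.inl i) s • b i
  rw [h4]

/-- All the values of finitely many elements of `RO R 𝓡` lie in a constant finite dimensional space
with an orthonormal basis. -/
theorem RO.exists_common_basis (hC : R.IsCartesian) {ι : Type*} [Finite ι] (φ : ι → S → F)
    (hφ : ∀ i, φ i ∈ RO R 𝓡) :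
    ∃ (N : ℕ) (z : Fin N → F), (∀ t, z t ∈ R.O) ∧ LinearIndependent k (fun t => R.red (z t)) ∧
      ∀ i s, φ i s ∈ Submodule.span K (Set.range z) := by
  classical
  have hex := fun i => RO.exists_repr (hφ i)
  choose m ρ o _ ho hφs using hex
  set W : Submodule K F := Submodule.span K (⋃ i, Set.range (o i)) with hW
  have : Module.Finite K W :=
    FiniteDimensional.span_of_finite K (Set.finite_iUnion fun i => Set.finite_range (o i))
  obtain ⟨z, -, hzO, hli, hspan⟩ := exists_ortho_basis hC W
  refine ⟨_, z, hzO, hli, fun i s => ?_⟩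
  rw [hspan, hφs i s]
  exact Submodule.sum_mem _ fun j _ => Submodule.smul_mem _ _
    (Submodule.subset_span (Set.mem_iUnion.2 ⟨i, ⟨j, rfl⟩⟩))

/-- constant families are good. -/
theorem isGood_const (hC : R.IsCartesian) (𝓡 : Subalgebra R.A (S → K)) (V : Submodule K F)
    [Module.Finite K V] : IsGood R 𝓡 (fun _ => V) := by
  obtain ⟨b, -, hbO, hli, hspan⟩ := exists_ortho_basis hC V
  exact ⟨_, fun i _ => b i, fun i => RO.const_mem' 𝓡 (hbO i), fun _ => ⟨hspan, hli⟩⟩

/-- a good family consists of finite dimensional spaces. -/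
theorem IsGood.finite {U : S → Submodule K F} (hU : IsGood R 𝓡 U) (s : S) :
    Module.Finite K (U s) := by
  obtain ⟨d, φ, -, h⟩ := hU
  rw [← (h s).1]
  exact FiniteDimensional.span_of_finite K (Set.finite_range _)

end Fermat.Agent.FLAT.Geo
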