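import Fermat.Agent.FLAT.Geo.FamOrtho

/-!
# FLAT / Geo / FixedBasis : orthonormal bases fixed by all "coefficientwise" automorphisms

Abstract `q`-expansion principle: `lam e : F →ₗ[K] K`, `lamb e : Fb →ₗ[k] k` (`e ∈ ℤ`, the coefficient of `q^e`),
integral, compatible with the reduction, separating on `Fb`.  A finite dimensional subspace `V` of `F` has an
orthonormal basis `f_j` characterised by `lam (e_i) (f_j) = δ_ij` for suitable exponents `e_i`; hence it is
fixed by every semilinear automorphism `g` with `g V = V` and `lam e (g f) = g (lam e f)`.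
-/

set_option autoImplicit false

namespace Fermat.Agent.FLAT.Geo

open AlgebraicCurve Fermat.Agent.Lib.RR Fermat.Agent.GAL.RED Module

variable {K F k Fb : Type*} [Field K] [Field F] [Algebra K F] [Field k] [Field Fb] [Algebra k Fb]
variable {R : RedData K F k Fb}

/-- Pure linear algebra: a separating family of linear forms on a finite dimensional space contains `dim`
forms which are still separating. -/
theorem exists_separating_subfamily' {k E ι : Type*} [Field k] [AddCommGroup E] [Module k E]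
    [FiniteDimensional k E] (l : ι → E →ₗ[k] k) (hl : ∀ x, (∀ i, l i x = 0) → x = 0) :
    ∃ e : Fin (finrank k E) → ι, ∀ x, (∀ a, l (e a) x = 0) → x = 0 := by
  classical
  have hco : (Submodule.span k (Set.range l)).dualCoannihilator = ⊥ := by
    rw [eq_bot_iff]
    intro x hx
    rw [Submodule.mem_dualCoannihilator] at hx
    exact (Submodule.mem_bot k).2 (hl x fun i => hx _ (Submodule.subset_span ⟨i, rfl⟩))
  have htop : Submodule.span k (Set.range l) = ⊤ := by
    rw [← Subspace.dualCoannihilator_dualAnnihilator_eq (W := Submodule.span k (Set.range l)), hco,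
      Submodule.dualAnnihilator_bot]
  obtain ⟨f, hf, hspan, -⟩ := Submodule.exists_fun_fin_finrank_span_eq k (Set.range l)
  have hn : finrank k (Submodule.span k (Set.range l)) = finrank k E := by
    rw [htop, finrank_top, Subspace.dual_finrank_eq]
  choose e he using hf
  refine ⟨fun a => e (Fin.cast hn.symm a), fun x hx => ?_⟩
  rw [← Module.forall_dual_apply_eq_zero_iff k x]
  intro φ
  have hφ : φ ∈ Submodule.span k (Set.range f) := by
    rw [hspan, htop]
    trivial
  induction hφ using Submodule.span_induction with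
  | mem ψ hψ =>
    obtain ⟨i, rfl⟩ := hψ
    have h1 := hx (Fin.cast hn i)
    rw [← he i]
    simpa using h1
  | zero => rfl
  | add ψ ψ' _ _ h1 h2 => rw [LinearMap.add_apply, h1, h2, add_zero]
  | smul c ψ _ h1 => rw [LinearMap.smul_apply, h1, smul_zero]

theorem FixedBasis_sep {k E ι : Type*} [Field k] [AddCommGroup E] [Module k E]
    [FiniteDimensional k E] {n : ℕ} (hn : finrank k E = n) (l : ι → E →ₗ[k] k)
    (hl : ∀ x, (∀ i, l i x = 0) → x = 0) :
    ∃ e : Fin n → ι, ∀ x, (∀ a, l (e a) x = 0) → x = 0 := by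
  subst hn
  exact exists_separating_subfamily' l hl

/-- **Echelon orthonormal basis.**
Proof.  `n = dim V = dim redSub V` (`hC`).  `exists_separating_subfamily'` for the restrictions of `lamb` to
`redSub V`: exponents `e_1 … e_n` with `redSub V → k^n` injective, hence bijective.  `b` an orthonormal basis of
`V` (`exists_ortho_basis`); `M_{ij} = lam e_i (b_j) ∈ A`, its reduction `lamb e_i (red b_j)` is invertible, so
`det M` is a unit of `A` (`redA_det`) and `M⁻¹` has entries in `A` (`Matrix.inv_def`, adjugate).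
`f_j := ∑_l (M⁻¹)_{lj} b_l`: in `V ∩ O`, `lam e_i f_j = δ_ij`, reductions independent (`red_sum_smul`; invertible
change of basis; or directly: `lamb e_i (red f_j) = δ_ij`).  Uniqueness: `V → K^n` is injective (`M` invertible). -/
theorem exists_echelon_basis (hC : R.IsCartesian) (lam : ℤ → F →ₗ[K] K) (lamb : ℤ → Fb →ₗ[k] k)
    (lam_mem : ∀ e f, f ∈ R.O → lam e f ∈ R.A)
    (lam_red : ∀ e f, f ∈ R.O → R.redA (lam e f) = lamb e (R.red f))
    (lamb_sep : ∀ h : Fb, (∀ e, lamb e h = 0) → h = 0)
    (V : Submodule K F) [Module.Finite K V] :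
    ∃ (e : Fin (finrank K V) → ℤ) (b : Fin (finrank K V) → F), (∀ i, b i ∈ V) ∧ (∀ i, b i ∈ R.O) ∧
      LinearIndependent k (fun i => R.red (b i)) ∧ Submodule.span K (Set.range b) = V ∧
      (∀ i j, lam (e i) (b j) = if i = j then 1 else 0) ∧
      ∀ f ∈ V, (∀ i, lam (e i) f = 0) → f = 0 := by
  classical
  have hfin : Module.Finite k (R.redSub V) := R.finite_redSub V
  obtain ⟨e, he⟩ := FixedBasis_sep (hC V inferInstance)
    (fun a : ℤ => (lamb a).comp (R.redSub V).subtype)
    (fun x hx => Subtype.ext (lamb_sep _ hx))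
  obtain ⟨b₀, hb₀V, hb₀O, hb₀li, hb₀span⟩ := exists_ortho_basis hC V
  -- the matrix over `A`
  let MA : Matrix (Fin (finrank K V)) (Fin (finrank K V)) R.A :=
    fun i j => ⟨lam (e i) (b₀ j), lam_mem _ _ (hb₀O j)⟩
  have hMb : ∀ i j, R.resA (MA i j) = lamb (e i) (R.red (b₀ j)) := by
    intro i j
    rw [← lam_red _ _ (hb₀O j), R.redA_of_mem (lam_mem _ _ (hb₀O j))]
  have hdetb : (MA.map R.resA).det ≠ 0 := by
    intro h0
    obtain ⟨v, hv0, hv⟩ := Matrix.exists_mulVec_eq_zero_iff.2 h0
    apply hv0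
    have hmem : (∑ j, v j • R.red (b₀ j)) ∈ R.redSub V :=
      Submodule.sum_mem _ fun j _ => Submodule.smul_mem _ _ ⟨b₀ j, hb₀V j, hb₀O j, rfl⟩
    have hz := he ⟨_, hmem⟩ (fun a => by
      have h1 := congrFun hv a
      simp only [Matrix.mulVec, dotProduct, Matrix.map_apply, hMb, Pi.zero_apply] at h1
      show lamb (e a) (∑ j, v j • R.red (b₀ j)) = 0
      rw [map_sum, ← h1]
      refine Finset.sum_congr rfl fun j _ => ?_
      rw [map_smul, smul_eq_mul, mul_comm])
    have hz' : (∑ j, v j • R.red (b₀ j)) = 0 := congrArg Subtype.val hz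
    funext j
    exact Fintype.linearIndependent_iff.1 hb₀li v hz' j
  have hunit : IsUnit MA.det := by
    have h1 : R.resA MA.det ≠ 0 := by
      rw [RingHom.map_det]
      exact hdetb
    have h2 : R.redA (MA.det : K) ≠ 0 := by
      rw [R.redA_of_mem MA.det.2]
      exact h1
    obtain ⟨hne, -, hinv⟩ := R.redA_ne_zero_iff.1 h2
    exact IsUnit.of_mul_eq_one ⟨(MA.det : K)⁻¹, hinv⟩ (Subtype.ext (mul_inv_cancel₀ hne))
  have hMN : MA * MA⁻¹ = 1 := Matrix.mul_nonsing_inv MA hunit
  let f : Fin (finrank K V) → F := fun j => ∑ l, ((MA⁻¹ l j : R.A) : K) • b₀ l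
  have hfV : ∀ j, f j ∈ V := fun j =>
    Submodule.sum_mem _ fun l _ => Submodule.smul_mem _ _ (hb₀V l)
  have hfO : ∀ j, f j ∈ R.O := fun j =>
    (red_sum_smul hb₀O (a := fun l => ((MA⁻¹ l j : R.A) : K)) (fun l => (MA⁻¹ l j).2)).1
  have hδ : ∀ i j, lam (e i) (f j) = if i = j then 1 else 0 := by
    intro i j
    have h1 := congrArg (fun x : R.A => (x : K)) (congrFun (congrFun hMN i) j)
    simp only [Matrix.mul_apply, Matrix.one_apply] at h1
    show lam (e i) (∑ l, ((MA⁻¹ l j : R.A) : K) • b₀ l) = _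
    rw [map_sum]
    have h2 : (∑ l, lam (e i) (((MA⁻¹ l j : R.A) : K) • b₀ l)) =
        ((∑ l, MA i l * MA⁻¹ l j : R.A) : K) := by
      rw [AddSubmonoidClass.coe_finsetSum]
      refine Finset.sum_congr rfl fun l _ => ?_
      rw [map_smul, smul_eq_mul, mul_comm]
      rfl
    rw [h2, h1]
    split_ifs <;> simp
  have hδb : ∀ i j, lamb (e i) (R.red (f j)) = if i = j then 1 else 0 := by
    intro i j
    rw [← lam_red _ _ (hfO j), hδ]
    split_ifs <;> simp
  have hli : LinearIndependent k (fun j => R.red (f j)) := by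
    rw [Fintype.linearIndependent_iff]
    intro c hc i
    have h1 := congrArg (lamb (e i)) hc
    rw [map_sum, map_zero] at h1
    simp only [map_smul, hδb, smul_eq_mul, mul_ite, mul_one, mul_zero, Finset.sum_ite_eq,
      Finset.mem_univ, if_true] at h1
    exact h1
  have hliK : LinearIndependent K f := R.linearIndependent_of_red hfO hli
  have hspan : Submodule.span K (Set.range f) = V := by
    apply Submodule.eq_of_le_of_finrank_eq
    · rw [Submodule.span_le]
      rintro _ ⟨i, rfl⟩
      exact hfV i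
    · rw [finrank_span_eq_card hliK, Fintype.card_fin]
  refine ⟨e, f, hfV, hfO, hli, hspan, hδ, fun g hg h0 => ?_⟩
  rw [← hspan] at hg
  obtain ⟨c, rfl⟩ := (Submodule.mem_span_range_iff_exists_fun K).1 hg
  have hc : ∀ i, c i = 0 := by
    intro i
    have h1 := h0 i
    rw [map_sum] at h1
    simp only [map_smul, hδ, smul_eq_mul, mul_ite, mul_one, mul_zero, Finset.sum_ite_eq,
      Finset.mem_univ, if_true] at h1
    exact h1
  simp [hc]

/-- **Fixed orthonormal bases.**  (`g • b j - b j ∈ V` is killed by all `lam (e i)`.) -/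
theorem exists_fixed_basis' (hC : R.IsCartesian) (lam : ℤ → F →ₗ[K] K) (lamb : ℤ → Fb →ₗ[k] k)
    (lam_mem : ∀ e f, f ∈ R.O → lam e f ∈ R.A)
    (lam_red : ∀ e f, f ∈ R.O → R.redA (lam e f) = lamb e (R.red f))
    (lamb_sep : ∀ h : Fb, (∀ e, lamb e h = 0) → h = 0)
    (V : Submodule K F) [Module.Finite K V] :
    ∃ b : Fin (finrank K V) → F, (∀ i, b i ∈ V) ∧ (∀ i, b i ∈ R.O) ∧
      LinearIndependent k (fun i => R.red (b i)) ∧ Submodule.span K (Set.range b) = V ∧
      ∀ g : SemilinearAut K F, (∀ f ∈ V, g • f ∈ V) →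
        (∀ e f, lam e (g • f) = SemilinearAut.baseAut g (lam e f)) → ∀ i, g • b i = b i := by
  obtain ⟨e, b, hbV, hbO, hli, hspan, hδ, huniq⟩ :=
    exists_echelon_basis hC lam lamb lam_mem lam_red lamb_sep V
  refine ⟨b, hbV, hbO, hli, hspan, fun g hgV hg j => ?_⟩
  have h := huniq (g • b j - b j) (V.sub_mem (hgV _ (hbV j)) (hbV j)) (fun i => by
    rw [map_sub, hg, hδ]
    split_ifs <;> simp)
  exact sub_eq_zero.mp h

end Fermat.Agent.FLAT.Geo
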