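import Fermat.Agent.FLAT.Geo.Defs

/-!
# FLAT / Geo / JacColon : colons of Riemann-Roch spaces, `L(D)` determines `D`, uniqueness of the
effective representative of a non special class.
-/

set_option autoImplicit false

namespace Fermat.Agent.FLAT.Geo

open AlgebraicCurve Fermat.Agent.Lib.RR Fermat.Agent.GAL.RED

variable {K F : Type*} [Field K] [Field F] [Algebra K F] [IsFF K F] [IsAlgClosed K]

/-- `deg C ≥ 2g` ⟹ `{u | u L(C) ⊆ L(C')} = L(C' - C)`.
Proof: (←) orders add.  (→) `u ≠ 0`; for a place `P` take `w ∈ L(C)` with `ord_P w = - C P`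
(`FF.Cor.exists_mem_L_ord_eq`); `u w ∈ L(C')` gives `ord_P u - C P ≥ - C' P`. -/
theorem mul_L_le_iff {C : Divisor K F} (hC : 2 * (genusFF K F : ℤ) ≤ Divisor.degree C)
    (C' : Divisor K F) (u : F) :
    (∀ w ∈ riemannRochSpace C, u * w ∈ riemannRochSpace C') ↔ u ∈ riemannRochSpace (C' - C) := by
  constructor
  · intro H
    rw [mem_riemannRochSpace_iff]
    intro P
    by_cases hu : u = 0
    · exact Or.inl hu
    right
    obtain ⟨w, hw0, hwL, hord⟩ := Fermat.Agent.GAL.FF.Cor.exists_mem_L_ord_eq hC P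
    rcases (mem_riemannRochSpace_iff.mp (H w hwL)) P with h | h
    · exact absurd h (mul_ne_zero hu hw0)
    · rw [P.ord_mul hu hw0, hord] at h
      rw [Finsupp.sub_apply]
      linarith
  · intro hu w hw
    rw [mem_riemannRochSpace_iff]
    intro P
    by_cases hu0 : u = 0
    · left
      rw [hu0, zero_mul]
    by_cases hw0 : w = 0
    · left
      rw [hw0, mul_zero]
    right
    have h1 := ((mem_riemannRochSpace_iff.mp hu) P).resolve_left hu0
    have h2 := ((mem_riemannRochSpace_iff.mp hw) P).resolve_left hw0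
    rw [Finsupp.sub_apply] at h1
    rw [P.ord_mul hu0 hw0]
    linarith

/-- colon form. -/
theorem colon_L {C : Divisor K F} (hC : 2 * (genusFF K F : ℤ) ≤ Divisor.degree C)
    (C' D : Divisor K F) (hD : C' - C ≤ D) :
    colon (riemannRochSpace D) (riemannRochSpace C) (riemannRochSpace C') =
      riemannRochSpace (C' - C) := by
  ext u
  rw [mem_colon, mul_L_le_iff hC]
  exact ⟨fun h => h.2, fun h => ⟨L_mono hD h, h⟩⟩

theorem JacColon_le_of_L_le {D D' : Divisor K F} (h : 2 * (genusFF K F : ℤ) ≤ Divisor.degree D)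
    (hle : riemannRochSpace D ≤ riemannRochSpace D') : D ≤ D' := by
  have h1 : (1 : F) ∈ riemannRochSpace (D' - D) :=
    (mul_L_le_iff h D' 1).mp fun w hw => by rw [one_mul]; exact hle hw
  intro P
  have h2 := ((mem_riemannRochSpace_iff.mp h1) P).resolve_left one_ne_zero
  rw [Place.ord_one, Finsupp.sub_apply] at h2
  linarith

/-- `L(D)` determines `D` when `deg ≥ 2g`. -/
theorem L_injective {D D' : Divisor K F} (h : 2 * (genusFF K F : ℤ) ≤ Divisor.degree D)
    (h' : 2 * (genusFF K F : ℤ) ≤ Divisor.degree D')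
    (heq : riemannRochSpace D = riemannRochSpace D') : D = D' :=
  le_antisymm (JacColon_le_of_L_le h heq.le) (JacColon_le_of_L_le h' heq.ge)

/-- Two linearly equivalent effective divisors with `ℓ = 1` are equal. -/
theorem eq_of_ell_eq_one {E E' : Divisor K F} (hE : 0 ≤ E) (hE' : 0 ≤ E') (h1 : ell E = 1)
    (h : E' - E ∈ Divisor.principal (K := K) (F := F)) : E' = E := by
  obtain ⟨f, hf, hv⟩ := h
  have hfL : f ∈ riemannRochSpace E := by
    rw [mem_riemannRochSpace_iff]
    intro v
    right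
    rw [← hv v, Finsupp.sub_apply]
    have := hE' v
    rw [Finsupp.zero_apply] at this
    linarith
  obtain ⟨c, rfl⟩ := mem_range_of_ell_eq_one hE h1 hfL
  ext v
  have h2 := hv v
  rw [ord_algebraMap, Finsupp.sub_apply] at h2
  linarith

/-- `ℓ` only depends on the class. -/
theorem ell_eq_of_principal {D D' : Divisor K F}
    (h : D' - D ∈ Divisor.principal (K := K) (F := F)) : ell D' = ell D := by
  obtain ⟨f, hf, hv⟩ := h
  have h1 : D' = D + divOf (K := K) f := by
    ext v
    rw [Finsupp.add_apply, divOf_apply, ← hv v, Finsupp.sub_apply]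
    ring
  rw [h1, ell_add_divOf D hf]

/-- A divisor of degree `≥ g` is equivalent to an effective one. -/
theorem exists_effective_principal {D : Divisor K F}
    (h : (genusFF K F : ℤ) ≤ Divisor.degree D) :
    ∃ E : Divisor K F, 0 ≤ E ∧ E - D ∈ Divisor.principal (K := K) (F := F) := by
  obtain ⟨f, hf, h0⟩ := exists_effective h
  refine ⟨divOf (K := K) f + D, h0, f, hf, fun v => ?_⟩
  rw [add_sub_cancel_right, divOf_apply]

/-- auxiliary induction for `exists_nonspecial_family`. -/
theorem JacColon_exists_family_aux {ι : Type*} [Finite ι] (A : ι → Divisor K F) (g : ℕ)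
    (hA : ∀ i, ell (A i) ≤ g) (s : Finset (Place K F)) (j : ℕ) (hj : j ≤ g) :
    ∃ t : Finset (Place K F), t.card = j ∧ Disjoint t s ∧
      ∀ i, ell (A i - ∑ Q ∈ t, pt Q) + j ≤ g := by
  classical
  cases nonempty_fintype ι
  induction j with
  | zero => exact ⟨∅, rfl, Finset.disjoint_empty_left s, fun i => by simpa using hA i⟩
  | succ j ih =>
    obtain ⟨t, htc, hts, ht⟩ := ih (by omega)
    have hex : ∀ i, ∃ si : Finset (Place K F), ∀ v ∉ si,
        ell (A i - ∑ Q ∈ t, pt Q - pt v) + (j + 1) ≤ g := by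
      intro i
      by_cases hpos : 0 < ell (A i - ∑ Q ∈ t, pt Q)
      · obtain ⟨si, hsi⟩ := Fermat.Agent.GAL.FF.Cor.exists_finset_ell_sub_pt hpos
        refine ⟨si, fun v hv => ?_⟩
        have h1 := hsi v hv
        have h2 := ht i
        omega
      · refine ⟨∅, fun v _ => ?_⟩
        have hle : A i - ∑ Q ∈ t, pt Q - pt v ≤ A i - ∑ Q ∈ t, pt Q := by
          have := le_add_pt (A i - ∑ Q ∈ t, pt Q - pt v) v
          rwa [sub_add_cancel] at this
        have h1 := ell_mono hle
        omega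
    choose S hS using hex
    obtain ⟨v, hv⟩ := Fermat.Agent.GAL.FF.Cor.exists_place_notMem
      (s ∪ t ∪ Finset.univ.biUnion S)
    simp only [Finset.mem_union, Finset.mem_biUnion, Finset.mem_univ, true_and, not_or,
      not_exists] at hv
    obtain ⟨⟨hvs, hvt⟩, hvS⟩ := hv
    refine ⟨insert v t, by rw [Finset.card_insert_of_notMem hvt, htc], ?_, fun i => ?_⟩
    · rw [Finset.disjoint_insert_left]
      exact ⟨hvs, hts⟩
    · rw [Finset.sum_insert hvt]
      have h1 := hS i v (hvS i)
      have e : A i - (pt v + ∑ Q ∈ t, pt Q) = A i - ∑ Q ∈ t, pt Q - pt v := by abel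
      rw [e]
      exact h1

/-- **Simultaneously non special base divisor.**  Finitely many divisors `C i` of degree `0`, a finite
set `s` of places to avoid: there are `g` distinct places `t` outside `s` with
`ℓ(C i + ∑_{Q ∈ t} Q) = 1` for all `i`.
Proof: Riemann-Roch (`riemann_roch`): `ℓ(C + E) = 1 + ℓ(W - C - E)` for `deg E = g`.  Induction on
`j ≤ g`: there is `t_j` of cardinality `j` outside `s` with `ℓ(W - C i - ∑_{t_j}) ≤ g - j` for all `i`
(start: `ℓ(W - C) ≤ g` because `ℓ(W - C) = g - 1 + ℓ(C)`, `ℓ(C) ≤ 1` for `deg C = 0`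
(`ell_le_degree_add`)); step: for each `i` with `ℓ > 0` all places outside a finite set drop `ℓ` by
one (`FF.Cor.exists_finset_ell_sub_pt`), and `ℓ` never increases (`L_mono`); there are infinitely
many places. -/
theorem exists_nonspecial_family {ι : Type*} [Finite ι] (C : ι → Divisor K F)
    (hC : ∀ i, Divisor.degree (C i) = 0) (s : Finset (Place K F)) :
    ∃ t : Finset (Place K F), t.card = genusFF K F ∧ Disjoint t s ∧
      ∀ i, ell (C i + ∑ Q ∈ t, pt Q) = 1 := by
  classical
  obtain ⟨W, _, _, hRR⟩ := riemann_roch (K := K) (F := F)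
  have hA : ∀ i, ell (W - C i) ≤ genusFF K F := by
    intro i
    have h1 := hRR (C i)
    have h2 := ell_le_degree_add (D := C i) (hC i).ge
    rw [hC i, ell_zero] at h2
    rw [hC i] at h1
    have : (ell (W - C i) : ℤ) ≤ genusFF K F := by push_cast at h2; linarith
    exact_mod_cast this
  obtain ⟨t, htc, hts, ht⟩ := JacColon_exists_family_aux (fun i => W - C i) (genusFF K F) hA s
    (genusFF K F) le_rfl
  refine ⟨t, htc, hts, fun i => ?_⟩
  have h0 : ell (W - C i - ∑ Q ∈ t, pt Q) = 0 := by
    have := ht i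
    omega
  have hdeg : Divisor.degree (∑ Q ∈ t, pt Q : Divisor K F) = genusFF K F := by
    rw [map_sum, Finset.sum_congr rfl (fun Q _ => by
      rw [degree_pt, Fermat.Agent.GAL.RED.deg_eq_one] : ∀ Q ∈ t, Divisor.degree (pt Q) = ((1 : ℕ) : ℤ))]
    simp [htc]
  have h1 := hRR (C i + ∑ Q ∈ t, pt Q)
  rw [← sub_sub, h0, map_add, hC i, hdeg] at h1
  have : (ell (C i + ∑ Q ∈ t, pt Q) : ℤ) = 1 := by simpa using h1
  exact_mod_cast this

end Fermat.Agent.FLAT.Geo
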