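import Fermat.Agent.FLAT.Geo.Defs

/-!
# FLAT / Geo / JacMul : products of Riemann-Roch spaces (base point free pencil trick)

`K` algebraically closed, `F / K` a function field (`IsFF`), `g = genusFF K F`.
-/

set_option autoImplicit false

namespace Fermat.Agent.FLAT.Geo

open AlgebraicCurve Fermat.Agent.Lib.RR Fermat.Agent.GAL.RED

variable {K F : Type*} [Field K] [Field F] [Algebra K F] [IsFF K F] [IsAlgClosed K]

omit [IsFF K F] [IsAlgClosed K] in
theorem JacMul_mul_mem {D₁ D₂ : Divisor K F} {a b : F} (ha : a ∈ riemannRochSpace D₁)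
    (hb : b ∈ riemannRochSpace D₂) : a * b ∈ riemannRochSpace (D₁ + D₂) := by
  rw [mem_riemannRochSpace_iff] at *
  intro v
  rcases eq_or_ne a 0 with rfl | ha0
  · left; rw [zero_mul]
  rcases eq_or_ne b 0 with rfl | hb0
  · left; rw [mul_zero]
  right
  have h1 := (ha v).resolve_left ha0
  have h2 := (hb v).resolve_left hb0
  rw [v.ord_mul ha0 hb0, Finsupp.add_apply]
  omega

omit [IsAlgClosed K] in
/-- `f L(D) = L(D - div f)`. -/
theorem span_singleton_mul_L {f : F} (hf : f ≠ 0) (D : Divisor K F) :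
    Submodule.span K {f} * riemannRochSpace D = riemannRochSpace (D - divOf f) := by
  have hfm : f ∈ riemannRochSpace (- divOf (K := K) f) := by
    rw [mem_riemannRochSpace_iff]
    intro v
    right
    simp
  have hfi : f⁻¹ ∈ riemannRochSpace (divOf (K := K) f) := by
    rw [mem_riemannRochSpace_iff]
    intro v
    right
    simp [v.ord_inv]
  apply le_antisymm
  · rw [Submodule.mul_le]
    intro m hm n hn
    obtain ⟨c, rfl⟩ := Submodule.mem_span_singleton.1 hm
    rw [smul_mul_assoc]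
    refine Submodule.smul_mem _ c ?_
    have := JacMul_mul_mem hfm hn
    rwa [neg_add_eq_sub] at this
  · intro h hh
    have h1 : f⁻¹ * h ∈ riemannRochSpace D := by
      have := JacMul_mul_mem hfi hh
      rwa [add_sub_cancel] at this
    have h2 : h = f * (f⁻¹ * h) := by
      rw [mul_inv_cancel_left₀ hf]
    rw [h2]
    exact Submodule.mul_mem_mul (Submodule.mem_span_singleton_self f) h1

omit [IsFF K F] [IsAlgClosed K] in
/-- `L(D₁) L(D₂) ⊆ L(D₁ + D₂)`. -/
theorem L_mul_L_le (D₁ D₂ : Divisor K F) :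
    riemannRochSpace D₁ * riemannRochSpace D₂ ≤ riemannRochSpace (D₁ + D₂) := by
  rw [Submodule.mul_le]
  intro m hm n hn
  exact JacMul_mul_mem hm hn

omit [IsFF K F] [IsAlgClosed K] in
theorem JacMul_ord_eq_of_notMem {D : Divisor K F} {f : F} {v : Place K F}
    (hf : f ∈ riemannRochSpace D) (hnf : f ∉ riemannRochSpace (D - pt v)) :
    v.ord f = - D v := by
  classical
  have hf0 : f ≠ 0 := fun e => hnf (e ▸ Submodule.zero_mem _)
  rw [mem_riemannRochSpace_iff] at hf hnf
  by_contra hcon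
  apply hnf
  intro w
  right
  have hw := (hf w).resolve_left hf0
  rw [Finsupp.sub_apply]
  by_cases hwv : w = v
  · subst hwv
    simp only [pt, Finsupp.single_eq_same]
    omega
  · have : pt v w = 0 := by simp [pt, Ne.symm hwv]
    rw [this]; omega

/-- A base point free pencil in `L(D)`, `deg D ≥ 2g`: `s₁, s₂ ∈ L(D)` with
`min (ord_P s₁) (ord_P s₂) = - D P` at every place.
Proof: `s₁ ≠ 0` in `L(D)`; `Z = supp (div s₁ + D)` is finite; for `P ∈ Z` the subspace `L(D - P)` of
`L(D)` is proper (`FF.Cor.ell_sub_pt_of_le_degree`); `K` is infinite, so `L(D)` is not the union of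
these finitely many proper subspaces (`Subspace.biUnion_ne_univ_of_top_notMem`, or
`RED.exists_genDiv`): take `s₂` outside. -/
theorem exists_pencil {D : Divisor K F} (hD : 2 * (genusFF K F : ℤ) ≤ Divisor.degree D) :
    ∃ s₁ s₂ : F, s₁ ≠ 0 ∧ s₂ ≠ 0 ∧ s₁ ∈ riemannRochSpace D ∧ s₂ ∈ riemannRochSpace D ∧
      ∀ P : Place K F, min (P.ord s₁) (P.ord s₂) = - D P := by
  classical
  have hinf : Infinite (Place K F) := Fermat.Agent.GAL.RED.infinite_place
  obtain ⟨P₀⟩ : Nonempty (Place K F) := inferInstance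
  obtain ⟨s₁, hs₁0, hs₁, -⟩ := Fermat.Agent.GAL.FF.Cor.exists_mem_L_ord_eq hD P₀
  have hKinf : Infinite K := IsAlgClosed.instInfinite
  let Z : Finset (Place K F) := (divOf (K := K) s₁ + D).support
  let fam : Finset (Subspace K (riemannRochSpace D)) :=
    insert ⊥ (Z.image fun P => (riemannRochSpace (D - pt P)).comap (riemannRochSpace D).subtype)
  have htop : (⊤ : Subspace K (riemannRochSpace D)) ∉ fam := by
    intro h
    rcases Finset.mem_insert.1 h with h | h
    · have : (⟨s₁, hs₁⟩ : riemannRochSpace D) ∈ (⊥ : Subspace K (riemannRochSpace D)) := by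
        rw [← h]; exact Submodule.mem_top
      rw [Submodule.mem_bot] at this
      exact hs₁0 (congrArg Subtype.val this)
    · obtain ⟨P, -, hP⟩ := Finset.mem_image.1 h
      obtain ⟨f, hf0, hf, hord⟩ := Fermat.Agent.GAL.FF.Cor.exists_mem_L_ord_eq hD P
      have : (⟨f, hf⟩ : riemannRochSpace D) ∈
          (riemannRochSpace (D - pt P)).comap (riemannRochSpace D).subtype := by
        rw [hP]; exact Submodule.mem_top
      have this' : f ∈ riemannRochSpace (D - pt P) := this
      have h2 := ((mem_riemannRochSpace_iff.1 this') P).resolve_left hf0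
      rw [Finsupp.sub_apply] at h2
      simp only [pt, Finsupp.single_eq_same] at h2
      omega
  have hne := Subspace.biUnion_ne_univ_of_top_notMem htop
  rw [Set.ne_univ_iff_exists_notMem] at hne
  obtain ⟨⟨s₂, hs₂⟩, hs₂n⟩ := hne
  simp only [Set.mem_iUnion, not_exists] at hs₂n
  have hs₂0 : s₂ ≠ 0 := by
    rintro rfl
    exact hs₂n ⊥ (Finset.mem_insert_self _ _) (Submodule.zero_mem _)
  refine ⟨s₁, s₂, hs₁0, hs₂0, hs₁, hs₂, fun P => ?_⟩
  have h1 := ((mem_riemannRochSpace_iff.1 hs₁) P).resolve_left hs₁0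
  have h2 := ((mem_riemannRochSpace_iff.1 hs₂) P).resolve_left hs₂0
  by_cases hP : P ∈ Z
  · have h3 : s₂ ∉ riemannRochSpace (D - pt P) := by
      intro hmem
      exact hs₂n _ (Finset.mem_insert_of_mem (Finset.mem_image_of_mem _ hP)) hmem
    have := JacMul_ord_eq_of_notMem hs₂ h3
    omega
  · have h3 : (divOf (K := K) s₁ + D) P = 0 := by
      simpa [Z] using hP
    rw [Finsupp.add_apply, divOf_apply] at h3
    omega

/-- **Base point free pencil trick.**  `deg D₂ ≥ 2g`, `deg D₁ - deg D₂ ≥ 2g - 1` ⟹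
`L(D₁) L(D₂) = L(D₁ + D₂)`.
Proof: `s₁, s₂` a pencil in `L(D₂)`.  The map `L(D₁)² → L(D₁ + D₂)`, `(a, b) ↦ a s₁ + b s₂` has kernel
`{(h s₂, - h s₁) | h ∈ L(D₁ - D₂)}` (if `a s₁ = - b s₂` put `h = a / s₂ = - b / s₁`; then
`ord_P h ≥ - D₁ P - min (ord_P s₁) (ord_P s₂) = - D₁ P + D₂ P`).  So the image has dimension
`2 ℓ(D₁) - ℓ(D₁ - D₂) = ℓ(D₁ + D₂)` by `ell_eq_of_lt_degree'` (all three degrees are `> 2g - 2`). -/
theorem L_mul_L {D₁ D₂ : Divisor K F} (h₂ : 2 * (genusFF K F : ℤ) ≤ Divisor.degree D₂)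
    (h₁₂ : 2 * (genusFF K F : ℤ) - 1 ≤ Divisor.degree D₁ - Divisor.degree D₂) :
    riemannRochSpace D₁ * riemannRochSpace D₂ = riemannRochSpace (D₁ + D₂) := by
  obtain ⟨s₁, s₂, hs₁0, hs₂0, hs₁, hs₂, hmin⟩ := exists_pencil h₂
  refine le_antisymm (L_mul_L_le D₁ D₂) ?_
  -- the map `(a, b) ↦ a s₁ + b s₂`
  let φ : (riemannRochSpace D₁ × riemannRochSpace D₁) →ₗ[K] F :=
    ((LinearMap.mulRight K s₁).comp (riemannRochSpace D₁).subtype).coprod
      ((LinearMap.mulRight K s₂).comp (riemannRochSpace D₁).subtype)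
  have hφ : ∀ x, φ x = x.1.1 * s₁ + x.2.1 * s₂ := fun x => by
    simp [φ, LinearMap.coprod_apply]
  have hrange1 : LinearMap.range φ ≤ riemannRochSpace D₁ * riemannRochSpace D₂ := by
    rintro _ ⟨x, rfl⟩
    rw [hφ]
    exact Submodule.add_mem _ (Submodule.mul_mem_mul x.1.2 hs₁) (Submodule.mul_mem_mul x.2.2 hs₂)
  have hrange2 : LinearMap.range φ ≤ riemannRochSpace (D₁ + D₂) :=
    hrange1.trans (L_mul_L_le D₁ D₂)
  -- the kernel embeds in `L(D₁ - D₂)`
  have hker : ∀ x ∈ LinearMap.ker φ, x.1.1 * s₂⁻¹ ∈ riemannRochSpace (D₁ - D₂) := by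
    intro x hx
    rw [LinearMap.mem_ker, hφ] at hx
    rw [mem_riemannRochSpace_iff]
    intro P
    rcases eq_or_ne x.1.1 0 with ha | ha
    · left; rw [ha, zero_mul]
    right
    have hb : x.2.1 ≠ 0 := by
      intro hb
      rw [hb, zero_mul, add_zero] at hx
      exact (mul_ne_zero ha hs₁0) hx
    have e1 : x.1.1 * s₁ = -(x.2.1 * s₂) := eq_neg_of_add_eq_zero_left hx
    have e2 : P.ord x.1.1 + P.ord s₁ = P.ord x.2.1 + P.ord s₂ := by
      rw [← P.ord_mul ha hs₁0, e1, ord_neg, P.ord_mul hb hs₂0]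
    have ha' := ((mem_riemannRochSpace_iff.1 x.1.2) P).resolve_left ha
    have hb' := ((mem_riemannRochSpace_iff.1 x.2.2) P).resolve_left hb
    have hm := hmin P
    rw [P.ord_mul ha (inv_ne_zero hs₂0), P.ord_inv, Finsupp.sub_apply]
    rcases min_choice (P.ord s₁) (P.ord s₂) with h | h <;> rw [h] at hm <;> omega
  let ψ : LinearMap.ker φ →ₗ[K] riemannRochSpace (D₁ - D₂) :=
    LinearMap.codRestrict _
      (((LinearMap.mulRight K s₂⁻¹).comp (riemannRochSpace D₁).subtype).comp
        ((LinearMap.fst K _ _).comp (LinearMap.ker φ).subtype))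
      (fun x => hker x.1 x.2)
  have hψ : Function.Injective ψ := by
    intro x y hxy
    have h1 : x.1.1.1 * s₂⁻¹ = y.1.1.1 * s₂⁻¹ := congrArg Subtype.val hxy
    have ha : x.1.1.1 = y.1.1.1 := mul_right_cancel₀ (inv_ne_zero hs₂0) h1
    have hx2 := x.2
    have hy2 := y.2
    rw [LinearMap.mem_ker, hφ] at hx2 hy2
    have hb : x.1.2.1 = y.1.2.1 := by
      apply mul_right_cancel₀ hs₂0
      rw [ha] at hx2
      exact add_left_cancel (hx2.trans hy2.symm)
    apply Subtype.ext
    exact Prod.ext (Subtype.ext ha) (Subtype.ext hb)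
  have hk : Module.finrank K (LinearMap.ker φ) ≤ ell (D₁ - D₂) :=
    LinearMap.finrank_le_finrank_of_injective hψ
  have hrn := LinearMap.finrank_range_add_finrank_ker φ
  rw [Module.finrank_prod] at hrn
  have e1 := ell_eq_of_lt_degree' (D := D₁) (by omega)
  have e2 := ell_eq_of_lt_degree' (D := D₁ - D₂) (by rw [map_sub]; omega)
  have e3 := ell_eq_of_lt_degree' (D := D₁ + D₂) (by
    rw [map_add]; omega)
  rw [map_sub] at e2
  rw [map_add] at e3
  have hfin : Module.finrank K (riemannRochSpace (D₁ + D₂)) ≤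
      Module.finrank K (LinearMap.range φ) := by
    unfold ell at *
    omega
  rw [← Submodule.eq_of_le_of_finrank_le hrange2 hfin]
  exact hrange1

end Fermat.Agent.FLAT.Geo
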