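import Fermat.Agent.FLAT.Geo.RedBasic
import Fermat.Agent.FLAT.Geo.FamOrtho
import Fermat.Agent.FLAT.Geo.FamLin

/-!
# FLAT / Geo / RedFixed : `T`-fixed orthonormal bases and `T`-fixed lifts of points

`T` = a group of semilinear automorphisms of `F / K` acting trivially on the reduction (inertia).
The structure `Inert R T` axiomatises what is needed:
* `fixes` : `T` acts trivially on `Fb`;
* `lift` : every element of `k` has a `T`-fixed lift in `A` (Teichmueller);
* `lam`, `lamb` : "`q`-expansion coefficients", `K`-linear forms on `F` / `k`-linear forms on `Fb`, integral,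
  compatible with reduction, `T`-equivariant, separating on `Fb` (`q`-expansion principle);
* `B0` : a `T`-fixed effective divisor of positive degree.
-/

set_option autoImplicit false

namespace Fermat.Agent.FLAT.Geo

open AlgebraicCurve Fermat.Agent.Lib.RR Fermat.Agent.GAL.RED Module

variable {K F k Fb : Type*} [Field K] [Field F] [Algebra K F] [Field k] [Field Fb] [Algebra k Fb]

/-- "Inertia like" groups of semilinear automorphisms. -/
structure Inert (R : RedData K F k Fb) (T : Subgroup (SemilinearAut K F)) where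
  fixes : ∀ g ∈ T, FixesRed R g
  lift : ∀ c : k, ∃ a ∈ R.A, R.redA a = c ∧ ∀ g ∈ T, SemilinearAut.baseAut g a = a
  lam : ℤ → F →ₗ[K] K
  lamb : ℤ → Fb →ₗ[k] k
  lam_mem : ∀ e f, f ∈ R.O → lam e f ∈ R.A
  lam_red : ∀ e f, f ∈ R.O → R.redA (lam e f) = lamb e (R.red f)
  lam_smul : ∀ g ∈ T, ∀ e f, lam e (g • f) = SemilinearAut.baseAut g (lam e f)
  lamb_sep : ∀ h : Fb, (∀ e, lamb e h = 0) → h = 0
  B0 : Divisor K F
  B0_nonneg : 0 ≤ B0
  B0_deg : 0 < Divisor.degree B0
  B0_fixed : ∀ g ∈ T, g • B0 = B0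

variable {R : RedData K F k Fb} {T : Subgroup (SemilinearAut K F)}

/-- Pure linear algebra: a separating family of linear forms on a finite dimensional space contains a
basis of the dual: there are `n = dim` indices such that the evaluation map is injective. -/
theorem exists_separating_subfamily {k E ι : Type*} [Field k] [AddCommGroup E] [Module k E]
    [FiniteDimensional k E] (l : ι → E →ₗ[k] k) (hl : ∀ x, (∀ i, l i x = 0) → x = 0) :
    ∃ e : Fin (finrank k E) → ι, ∀ x, (∀ a, l (e a) x = 0) → x = 0 := by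
  sorry

/-- **`T`-fixed orthonormal bases.**  `V` a finite dimensional `T`-stable subspace of `F`.
Proof.  `n = dim V = dim redSub V`.  `exists_separating_subfamily` for `lamb` on `redSub V`: exponents
`e_1 … e_n` with `redSub V → k^n` injective, hence bijective.  `b` an orthonormal basis of `V`
(`exists_ortho_basis`); `M_{ij} = lam e_i (b_j) ∈ A`, its reduction `lamb e_i (red b_j)` is invertible, so
`M⁻¹` has entries in `A` (`Matrix.inv_def`, adjugate; `redA_det`).  `f_j := ∑_l (M⁻¹)_{lj} b_l`: in `V ∩ O`,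
`lam e_i f_j = δ_ij`, reductions independent (`red_sum_smul`, invertible change of basis).
`g f_j - f_j ∈ V` is killed by all `lam e_i` (`lam_smul`), and `V → K^n` is injective (`M` invertible). -/
theorem exists_fixed_basis (hC : R.IsCartesian) (I : Inert R T) (V : Submodule K F)
    [Module.Finite K V] (hV : ∀ g ∈ T, ∀ f ∈ V, g • f ∈ V) :
    ∃ b : Fin (finrank K V) → F, (∀ i, b i ∈ V) ∧ (∀ i, b i ∈ R.O) ∧
      LinearIndependent k (fun i => R.red (b i)) ∧ Submodule.span K (Set.range b) = V ∧
      ∀ g ∈ T, ∀ i, g • b i = b i := by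
  sorry

/-- **Every element of `redSub V` has a `T`-fixed lift in `V ∩ O`.**  (Expand in the reduction of a fixed
basis, lift the coefficients by `I.lift`; `smul_smul_eq`.) -/
theorem exists_fixed_lift_mem (hC : R.IsCartesian) (I : Inert R T) (V : Submodule K F)
    [Module.Finite K V] (hV : ∀ g ∈ T, ∀ f ∈ V, g • f ∈ V) {h : Fb} (hh : h ∈ R.redSub V) :
    ∃ f ∈ V, f ∈ R.O ∧ R.red f = h ∧ ∀ g ∈ T, g • f = f := by
  sorry

/-- **`T`-fixed orthonormal basis `(u, v)` of `V` such that `span ū` is a complement of finitely many given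
subspaces of `redSub V` of dimension `≤ e`.**
Proof: `exists_common_compl` in `redSub V` gives `d` independent vectors, complete them to a basis of
`redSub V`, lift all of them by `exists_fixed_lift_mem`; count dimensions. -/
theorem exists_fixed_basis_compl [Infinite k] (hC : R.IsCartesian) (I : Inert R T)
    (V : Submodule K F) [Module.Finite K V] (hV : ∀ g ∈ T, ∀ f ∈ V, g • f ∈ V)
    {ι : Type*} [Finite ι] (Wb : ι → Submodule k Fb) (d e : ℕ) (hde : d + e = finrank K V)
    (hW : ∀ i, Wb i ≤ R.redSub V) (hWd : ∀ i, finrank k (Wb i) ≤ e) :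
    ∃ (u : Fin d → F) (v : Fin e → F), (∀ i, u i ∈ R.O) ∧ (∀ j, v j ∈ R.O) ∧
      LinearIndependent k (fun x : Fin d ⊕ Fin e => R.red (Sum.elim u v x)) ∧
      Submodule.span K (Set.range (Sum.elim u v)) = V ∧
      (∀ g ∈ T, ∀ i, g • u i = u i) ∧ (∀ g ∈ T, ∀ j, g • v j = v j) ∧
      ∀ i, Disjoint (Submodule.span k (Set.range fun a => R.red (u a))) (Wb i) := by
  sorry

variable [IsFF K F] [IsAlgClosed K] [IsFF k Fb] [IsAlgClosed k] {r : Place K F → Place k Fb}

/-- `L(n B0)` is `T`-stable. -/
theorem Inert.smul_mem_L (I : Inert R T) (n : ℕ) {g : SemilinearAut K F} (hg : g ∈ T) {f : F}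
    (hf : f ∈ riemannRochSpace (n • I.B0)) : g • f ∈ riemannRochSpace (n • I.B0) := by
  sorry

/-- **`T`-fixed lifts of points.**  `Q` a place of `Fb` which is not the reduction of a point of `B0`.
Proof.  `n` large (`n deg B0 ≥ 2g + 2`), `D = n B0`, `D̄ = r_* D`, `D̄ Q = 0`.  There is `t̄ ∈ L(D̄)` with
`ord_Q t̄ = 1` (`FF.Cor.exists_mem_L_ord_eq` for `D̄ - Q`).  `redSub L(D) = L(D̄)` (`redSub_L`);
`exists_fixed_lift_mem`: `t ∈ L(D) ∩ O`, `T`-fixed, `red t = t̄`.  `t` has no pole at the `P` with `r P = Q`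
(`D P = 0` there).  `hr.ord_red` + `RED.exists_unique_of_mapDomain_apply_eq_one`: there is exactly one `P₁`
with `r P₁ = Q` and `ord_{P₁} t = 1`, the other orders in the fibre are `0`.  For `g ∈ T`: `r (g P₁) = Q`
(`IsRedMap.map_smul`) and `ord_{g P₁} t = ord_{g P₁} (g t) = ord_{P₁} t = 1` (`SemilinearAut.ord_smul`), so
`g P₁ = P₁`. -/
theorem exists_fixed_lift (hC : R.IsCartesian) (hg : genusFF K F = genusFF k Fb)
    (hr : IsRedMap R r) (I : Inert R T) (Q : Place k Fb) (hQ : ∀ P, I.B0 P ≠ 0 → r P ≠ Q) :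
    ∃ P : Place K F, r P = Q ∧ ∀ g ∈ T, g • P = P := by
  sorry

end Fermat.Agent.FLAT.Geo
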