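import Fermat.Agent.FLAT.Geo.PipeKM
import Fermat.Agent.FLAT.Geo.RedFixed

/-!
# FLAT / Geo / PipeBuild : construction of Khuri-Makdisi data, and the main theorem of the geometric half
-/

set_option autoImplicit false

namespace Fermat.Agent.FLAT.Geo

open AlgebraicCurve Fermat.Agent.Lib.RR Fermat.Agent.GAL.RED Module

variable {K F k Fb : Type*} [Field K] [Field F] [Algebra K F] [Field k] [Field Fb] [Algebra k Fb]
variable [IsFF K F] [IsAlgClosed K] [IsFF k Fb] [IsAlgClosed k]
variable {R : RedData K F k Fb} {r : Place K F → Place k Fb}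
variable {T : Subgroup (SemilinearAut K F)}

/-- **Base divisor.**  Finitely many divisors `C i` of degree `0`: there is a `T`-fixed effective `E0` of
degree `g` such that all `r_*(C i + E0)` are non special.
Proof: `exists_nonspecial_family` over `k` for `r_* (C i)` and `s = ` the image under `r` of the support of
`I.B0`: `t`.  For `Q ∈ t` a `T`-fixed lift `P_Q` (`exists_fixed_lift`).  `E0 := ∑_{Q ∈ t} pt (P_Q)`;
`r_* E0 = ∑_{Q ∈ t} pt Q` (`Finsupp.mapDomain_finset_sum`, `mapDomain_single`); degree: `RED.deg_eq_one`;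
`SemilinearAut.smul_single`. -/
theorem exists_base (hC : R.IsCartesian) (hg : genusFF K F = genusFF k Fb) (hr : IsRedMap R r)
    (I : Inert R T) {ι : Type*} [Finite ι] (C : ι → Divisor K F)
    (hdeg : ∀ i, Divisor.degree (C i) = 0) :
    ∃ E0 : Divisor K F, 0 ≤ E0 ∧ Divisor.degree E0 = genusFF K F ∧ (∀ g ∈ T, g • E0 = E0) ∧
      ∀ i, ell (Finsupp.mapDomain r (C i + E0)) = 1 := by
  sorry

/-- **The effective representative.**  `exists_effective_principal`; `ℓ(r_* E) = ℓ(r_* D)` (`map_principal`,
`ell_eq_of_principal`, `RED.mapDomain_sub'`); `1 ≤ ℓ(E) ≤ ℓ(r_* E)` (`ell_le_ell_map`); `eq_of_ell_eq_one`. -/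
theorem exists_unique_effective (hC : R.IsCartesian) (hr : IsRedMap R r) {D : Divisor K F}
    (hdeg : (genusFF K F : ℤ) ≤ Divisor.degree D) (hns : ell (Finsupp.mapDomain r D) = 1) :
    ∃ E : Divisor K F, 0 ≤ E ∧ E - D ∈ Divisor.principal (K := K) (F := F) ∧
      ell (Finsupp.mapDomain r E) = 1 ∧
      ∀ E' : Divisor K F, 0 ≤ E' → E' - D ∈ Divisor.principal (K := K) (F := F) → E' = E := by
  sorry

/-- The family of effective representatives of a finite group of classes. -/
theorem exists_rep_family (hC : R.IsCartesian) (hg : genusFF K F = genusFF k Fb)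
    (hr : IsRedMap R r) (I : Inert R T) {G : Type*} [AddCommGroup G] [Finite G]
    (cls : G → Divisor K F) (hdeg : ∀ x, Divisor.degree (cls x) = 0)
    (hadd : ∀ x y, cls (x + y) - cls x - cls y ∈ Divisor.principal (K := K) (F := F))
    (hinj : ∀ x y, cls x - cls y ∈ Divisor.principal (K := K) (F := F) → x = y)
    (act : T → G → G)
    (hact : ∀ (g : T) x, (g : SemilinearAut K F) • cls x - cls (act g x) ∈
      Divisor.principal (K := K) (F := F)) :
    ∃ (E0 : Divisor K F) (E : G → Divisor K F), Divisor.degree E0 = genusFF K F ∧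
      (∀ x, 0 ≤ E x) ∧ (∀ x, Divisor.degree (E x) = genusFF K F) ∧
      (∀ x y z : G, x + y + z = 0 →
        E x + E y + E z - 3 • E0 ∈ Divisor.principal (K := K) (F := F)) ∧
      (∀ x, ell (Finsupp.mapDomain r (E x)) = 1) ∧ Function.Injective E ∧
      ∀ (g : T) x, (g : SemilinearAut K F) • E x = E (act g x) := by
  sorry

/-- **Construction of the coordinates.**
Proof.  `E0, E` from `exists_rep_family`.  `B := (3 g + 1) • I.B0`, `b = deg B ≥ 3g + 1`, `V = L(B)`
(`T`-stable: `Inert.smul_mem_L`), `d = g`, `e = b - 2g + 1` (as a natural number), `dim V = b - g + 1 = d + e`.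
`Wb x := L(r_*(B - E x)) ≤ L(r_* B) = redSub V` of dimension `e`.  `exists_fixed_basis_compl`: `(u, v)`.
`exists_graph_coord` for `W = L(B - E x)` (`redSub_L`): `c · · x`.  Equivariance: apply `g ∈ T` to
`v_j - ∑ c_ij(x) u_i ∈ L(B - E x)`: `v_j - ∑ g(c_ij(x)) u_i ∈ L(g (B - E x)) = L(B - E (act g x))`
(`smul_mem_L_iff`, `smul_smul_eq`, `B0_fixed`), and use the uniqueness clause of `exists_graph_coord`. -/
theorem exists_kmData (hC : R.IsCartesian) (hg : genusFF K F = genusFF k Fb)
    (hr : IsRedMap R r) (I : Inert R T) {G : Type*} [AddCommGroup G] [Finite G]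
    (cls : G → Divisor K F) (hdeg : ∀ x, Divisor.degree (cls x) = 0)
    (hadd : ∀ x y, cls (x + y) - cls x - cls y ∈ Divisor.principal (K := K) (F := F))
    (hinj : ∀ x y, cls x - cls y ∈ Divisor.principal (K := K) (F := F) → x = y)
    (act : T → G → G)
    (hact : ∀ (g : T) x, (g : SemilinearAut K F) • cls x - cls (act g x) ∈
      Divisor.principal (K := K) (F := F)) :
    ∃ M : KMData R r G, Function.Injective M.E ∧
      ∀ (g : T) i j x, M.c i j (act g x) =
        SemilinearAut.baseAut (g : SemilinearAut K F) (M.c i j x) := by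
  sorry

/-- **Main theorem of the geometric half.**  A finite group `G` of divisor classes of degree `0`, stable under
the inertia like group `T`, has finitely many coordinate functions `c i : G → A`, `T`-equivariant, separating
the points, such that `c i (x + y)` is a polynomial over `A` in the `c j x`, `c j y`. -/
theorem geo_main (R : RedData K F k Fb) (hC : R.IsCartesian) (hg : genusFF K F = genusFF k Fb)
    (I : Inert R T) {G : Type*} [AddCommGroup G] [Finite G]
    (cls : G → Divisor K F) (hdeg : ∀ x, Divisor.degree (cls x) = 0)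
    (hadd : ∀ x y, cls (x + y) - cls x - cls y ∈ Divisor.principal (K := K) (F := F))
    (hinj : ∀ x y, cls x - cls y ∈ Divisor.principal (K := K) (F := F) → x = y)
    (act : T → G → G)
    (hact : ∀ (g : T) x, (g : SemilinearAut K F) • cls x - cls (act g x) ∈
      Divisor.principal (K := K) (F := F)) :
    ∃ (n : ℕ) (c : Fin n → G → K), (∀ i x, c i x ∈ R.A) ∧
      (∀ x y, (∀ i, c i x = c i y) → x = y) ∧
      (∀ (g : T) i x, c i (act g x) = SemilinearAut.baseAut (g : SemilinearAut K F) (c i x)) ∧
      ∀ i, (fun p : G × G => c i (p.1 + p.2)) ∈ Algebra.adjoin R.A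
        (Set.range (fun (j : Fin n) (p : G × G) => c j p.1) ∪
          Set.range (fun (j : Fin n) (p : G × G) => c j p.2)) := by
  obtain ⟨r, hr⟩ := exists_isRedMap R hC hg
  obtain ⟨M, hE, hM⟩ := exists_kmData hC hg hr I cls hdeg hadd hinj act hact
  let ε : Fin (M.d * M.e) ≃ Fin M.d × Fin M.e := finProdFinEquiv.symm
  refine ⟨M.d * M.e, fun i x => M.c (ε i).1 (ε i).2 x, fun i x => M.c_mem _ _ _, ?_, ?_, ?_⟩
  · intro x y h
    refine M.separates hE x y fun i j => ?_
    simpa [ε] using h (ε.symm (i, j))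
  · intro g i x
    exact hM g _ _ x
  · intro i
    have h := M.comul_mem hC hg hr (ε i).1 (ε i).2
    have hle : M.R2 ≤ Algebra.adjoin R.A
        (Set.range (fun (j : Fin (M.d * M.e)) (p : G × G) => M.c (ε j).1 (ε j).2 p.1) ∪
          Set.range (fun (j : Fin (M.d * M.e)) (p : G × G) => M.c (ε j).1 (ε j).2 p.2)) := by
      apply Algebra.adjoin_mono
      apply Set.union_subset_union
      · rintro _ ⟨ij, rfl⟩
        exact ⟨ε.symm ij, by simp⟩
      · rintro _ ⟨ij, rfl⟩
        exact ⟨ε.symm ij, by simp⟩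
    exact hle h

end Fermat.Agent.FLAT.Geo
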