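import Fermat.Agent.FLAT.Geo.PipeL
import Fermat.Agent.FLAT.Geo.FamGraph

/-!
# FLAT / Geo / PipeKM : the group law in Khuri-Makdisi coordinates ("addflip") is defined over `𝓡`

`KMData R r G` : a finite group `G` of divisor classes, each `x ∈ G` represented by the effective divisor
`E x ~ x + E0` of degree `g` (unique, non special, with non special reduction), and by the subspace
`W x = L(B - E x) ⊆ L(B)`, which is the graph of the matrix `c · · x` in the orthonormal basis `(u, v)` of `L(B)`.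
-/

set_option autoImplicit false

namespace Fermat.Agent.FLAT.Geo

open AlgebraicCurve Fermat.Agent.Lib.RR Fermat.Agent.GAL.RED Module

variable {K F k Fb : Type*} [Field K] [Field F] [Algebra K F] [Field k] [Field Fb] [Algebra k Fb]

/-- Khuri-Makdisi data. -/
structure KMData (R : RedData K F k Fb) (r : Place K F → Place k Fb) (G : Type*)
    [AddCommGroup G] where
  E0 : Divisor K F
  E : G → Divisor K F
  B : Divisor K F
  d : ℕ
  e : ℕ
  u : Fin d → F
  v : Fin e → F
  c : Fin d → Fin e → G → K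
  E0_deg : Divisor.degree E0 = genusFF K F
  E_nonneg : ∀ x, 0 ≤ E x
  E_deg : ∀ x, Divisor.degree (E x) = genusFF K F
  E_add : ∀ x y z : G, x + y + z = 0 →
    E x + E y + E z - 3 • E0 ∈ Divisor.principal (K := K) (F := F)
  E_ns : ∀ x, ell (Finsupp.mapDomain r (E x)) = 1
  B_deg : 3 * (genusFF K F : ℤ) + 1 ≤ Divisor.degree B
  u_mem : ∀ i, u i ∈ R.O
  v_mem : ∀ j, v j ∈ R.O
  li : LinearIndependent k (fun x : Fin d ⊕ Fin e => R.red (Sum.elim u v x))
  span_eq : Submodule.span K (Set.range (Sum.elim u v)) = riemannRochSpace B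
  disj : ∀ x, Disjoint (Submodule.span k (Set.range fun i => R.red (u i)))
    (riemannRochSpace (Finsupp.mapDomain r (B - E x)))
  c_mem : ∀ i j x, c i j x ∈ R.A
  c_spec : ∀ x j, v j - ∑ i, c i j x • u i ∈ riemannRochSpace (B - E x)
  c_span : ∀ x, riemannRochSpace (B - E x) =
    Submodule.span K (Set.range fun j => v j - ∑ i, c i j x • u i)

variable [IsFF K F] [IsAlgClosed K] [IsFF k Fb] [IsAlgClosed k]
variable {R : RedData K F k Fb} {r : Place K F → Place k Fb} {G : Type*} [AddCommGroup G]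
variable {S : Type*} [Finite S] {𝓡 : Subalgebra R.A (S → K)}

/-- `W ∘ X` is good when the coordinates of `X` are in `𝓡` (`isGood_graph`, `c_span`). -/
theorem KMData.isGood_W (M : KMData R r G) (h𝓡 : IsIntegralValued R 𝓡) (X : S → G)
    (hX : ∀ i j, (fun s => M.c i j (X s)) ∈ 𝓡) :
    IsGood R 𝓡 fun s => riemannRochSpace (M.B - M.E (X s)) := by
  sorry

/-- **Addflip.**  `X + Y + Z = 0`, the coordinates of `X` and of `Y` are in `𝓡` ⟹ so are those of `Z`.

Proof (`b = deg B ≥ 3g + 1`; write `EX = E (X s)` etc.).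
1. `isGood_W` for `X`, `Y`.
2. `isGood_L_mul` with `D₁ = 2 • B` (constant: `isGood_const`), `D₂ = B - EX` (degrees `2b`, `b - g`):
   `L(2 • B + (B - EX))` good.
3. `isGood_L_mul` with `D₁ = 2 • B + (B - EX)`, `D₂ = B - EY` (degrees `3b - g`, `b - g`):
   `L(P s)` good, `P s := 2 • B + (B - EX) + (B - EY)`.
4. `C0 := 4 • B - 3 • E0` (degree `4b - 3g ≥ 2g`).  `isGood_L_colon` with `D = 3 • E0`, `C = C0` (constant),
   `C' = P`, `e = 1`: `P s - C0 = 3 • E0 - EX - EY ≤ 3 • E0`, and `(P s - C0) - EZ = -(EX + EY + EZ - 3 • E0)` is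
   principal (`E_add`), so `ℓ(P s - C0) = ℓ(EZ) ≥ 1` (`EZ ≥ 0`: `1 ∈ L(EZ)`; `ell_eq_of_principal`) and
   `ℓ(r_*(P s - C0)) = ℓ(r_* EZ) = 1` (`map_principal`, `RED.mapDomain_sub'`, `E_ns`).  So `L(P s - C0)` good.
5. `isGood_L_line_mul` with `D s = P s - C0`, `E s = EZ`, `D' = B + C0`: `L(B + C0 + (P s - C0) - EZ)` good.
6. `isGood_L_colon` with `D = B`, `C = P`, `C' s = B + C0 + (P s - C0) - EZ`, `e = b - 2g + 1`:
   `C' s - C s = B - EZ ≤ B`; `ℓ` by `ell_eq_of_lt_degree'` on both sides (`degree_mapDomain`, `hg`).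
   So `L(B - EZ)` is good.
7. `IsGood.graph_mem` with `U s = L(B - EZ)` (`span_eq`, `L_mono`; `disj` + `redSub_L`; `c_spec`). -/
theorem KMData.addflip_mem (M : KMData R r G) (hC : R.IsCartesian)
    (hg : genusFF K F = genusFF k Fb) (hr : IsRedMap R r) (h𝓡 : IsIntegralValued R 𝓡)
    (X Y Z : S → G) (hXYZ : ∀ s, X s + Y s + Z s = 0)
    (hX : ∀ i j, (fun s => M.c i j (X s)) ∈ 𝓡) (hY : ∀ i j, (fun s => M.c i j (Y s)) ∈ 𝓡) :
    ∀ i j, (fun s => M.c i j (Z s)) ∈ 𝓡 := by
  sorry

/-- The `A`-algebra generated by the coordinates of `x` and of `y` on `G × G`. -/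
def KMData.R2 (M : KMData R r G) : Subalgebra R.A (G × G → K) :=
  Algebra.adjoin R.A
    (Set.range (fun (ij : Fin M.d × Fin M.e) (p : G × G) => M.c ij.1 ij.2 p.1) ∪
      Set.range (fun (ij : Fin M.d × Fin M.e) (p : G × G) => M.c ij.1 ij.2 p.2))

/-- an algebra generated by `A`-valued functions is `A`-valued (`Algebra.adjoin_induction`). -/
theorem isIntegralValued_adjoin {S : Type*} (s : Set (S → K)) (hs : ∀ ρ ∈ s, ∀ x, ρ x ∈ R.A) :
    IsIntegralValued R (Algebra.adjoin R.A s) := by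
  sorry

/-- **The comultiplication is defined over `A`.**
Proof: `S = G × G`, `𝓡 = M.R2`.  `addflip_mem` with `X = fst`, `Y = snd`, `Z = -(fst + snd)`; then again with
`X = -(fst + snd)`, `Y = 0` (constant functions with values in `A` are in `𝓡`: `const_mem`, `c_mem`),
`Z = fst + snd`. -/
theorem KMData.comul_mem [Finite G] (M : KMData R r G) (hC : R.IsCartesian)
    (hg : genusFF K F = genusFF k Fb) (hr : IsRedMap R r) (i : Fin M.d) (j : Fin M.e) :
    (fun p : G × G => M.c i j (p.1 + p.2)) ∈ M.R2 := by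
  sorry

/-- The coordinates separate the points as soon as `E` is injective (`c_span`, `L_injective`). -/
theorem KMData.separates (M : KMData R r G) (hE : Function.Injective M.E) (x y : G)
    (h : ∀ i j, M.c i j x = M.c i j y) : x = y := by
  sorry

end Fermat.Agent.FLAT.Geo
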