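import Fermat.Agent.FLAT.Geo.Defs

/-!
# FLAT / Geo / RedBasic : complements on `GAL/RED` (reduction of `L(D)`, classes, uniqueness and
equivariance of the reduction map on places)
-/

set_option autoImplicit false

namespace Fermat.Agent.FLAT.Geo

open AlgebraicCurve Fermat.Agent.Lib.RR Fermat.Agent.GAL.RED Module

variable {K F k Fb : Type*} [Field K] [Field F] [Algebra K F] [Field k] [Field Fb] [Algebra k Fb]

section Semilinear

variable [HasPrincipalDivisors K F]

theorem divOf_smul (g : SemilinearAut K F) (f : F) : divOf (K := K) (g • f) = g • divOf f := by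
  sorry

theorem smul_mem_L_iff (g : SemilinearAut K F) (D : Divisor K F) (f : F) :
    g • f ∈ riemannRochSpace (g • D) ↔ f ∈ riemannRochSpace D := by
  sorry

theorem smul_nonneg (g : SemilinearAut K F) {D : Divisor K F} (h : 0 ≤ D) : 0 ≤ g • D := by
  sorry

theorem smul_smul_eq (g : SemilinearAut K F) (a : K) (f : F) :
    g • (a • f) = SemilinearAut.baseAut g a • (g • f) := by
  sorry

end Semilinear

section Fixes

variable {R : RedData K F k Fb} {g : SemilinearAut K F}

/-- Proof: `red f ≠ 0` iff `f` is a unit of `O`.  If `f ∈ O` is not a unit then `1 + f` is one, so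
`1 + g f = g (1 + f)` is a unit; if `f ∉ O` then `f⁻¹` is a non unit of `O`, hence so is `(g f)⁻¹`. -/
theorem FixesRed.mem_iff (h : FixesRed R g) (f : F) : g • f ∈ R.O ↔ f ∈ R.O := by
  sorry

theorem FixesRed.inv (h : FixesRed R g) : FixesRed R g⁻¹ := by
  sorry

theorem FixesRed.redA (h : FixesRed R g) (a : K) :
    R.redA (SemilinearAut.baseAut g a) = R.redA a := by
  sorry

theorem FixesRed.baseAut_mem_iff (h : FixesRed R g) (a : K) :
    SemilinearAut.baseAut g a ∈ R.A ↔ a ∈ R.A := by
  sorry

end Fixes

variable [IsFF K F] [IsAlgClosed K] [IsFF k Fb] [IsAlgClosed k]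
variable {R : RedData K F k Fb} {r : Place K F → Place k Fb}

/-- semicontinuity. -/
theorem ell_le_ell_map (hC : R.IsCartesian) (hr : IsRedMap R r) (D : Divisor K F) :
    ell D ≤ ell (Finsupp.mapDomain r D) := by
  sorry

/-- `red L(D) = L(r_* D)` as soon as the dimensions agree (`hr.red_mem_L`, `hC.redSub_eq`). -/
theorem redSub_L_of_ell_le (hC : R.IsCartesian) (hr : IsRedMap R r) (D : Divisor K F)
    (h : ell (Finsupp.mapDomain r D) ≤ ell D) :
    R.redSub (riemannRochSpace D) = riemannRochSpace (Finsupp.mapDomain r D) := by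
  sorry

/-- `red L(D) = L(r_* D)` for `deg D ≥ 2g - 1`. -/
theorem redSub_L (hC : R.IsCartesian) (hg : genusFF K F = genusFF k Fb) (hr : IsRedMap R r)
    (D : Divisor K F) (hD : 2 * (genusFF K F : ℤ) - 1 ≤ Divisor.degree D) :
    R.redSub (riemannRochSpace D) = riemannRochSpace (Finsupp.mapDomain r D) := by
  sorry

/-- `r_*` maps principal divisors to principal divisors (`hC.exists_scale`, `hr.map_divOf`,
`divOf_algebraMap`). -/
theorem map_principal (hC : R.IsCartesian) (hr : IsRedMap R r) {D : Divisor K F}
    (h : D ∈ Divisor.principal (K := K) (F := F)) :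
    Finsupp.mapDomain r D ∈ Divisor.principal (K := k) (F := Fb) := by
  sorry

/-- **Uniqueness of the reduction map.**
Proof: for `deg D ≥ 3g`, `L(r_* D) = redSub L(D) = L(r'_* D)`, both of degree `≥ 2g`, so
`r_* D = r'_* D` (two divisors of degree `≥ 2g` with the same `L` are equal:
`FF.Cor.exists_mem_L_ord_eq` at each place); apply this to `D` and `D + P`. -/
theorem IsRedMap.unique (hg : genusFF K F = genusFF k Fb) {r' : Place K F → Place k Fb}
    (hr : IsRedMap R r) (hr' : IsRedMap R r') : r = r' := by
  sorry

/-- **Equivariance.**  Proof: `r' := fun P => r (g • P)` is again a reduction map (surjective;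
`r'_* div y = r_* (g • div y) = r_* div (g y) = div (red (g y)) = div (red y)`;
`L(r'_* D) = L(r_* (g D)) = redSub L(g D) = redSub (g L(D)) = redSub L(D)`), conclude by uniqueness. -/
theorem IsRedMap.map_smul (hg : genusFF K F = genusFF k Fb) (hr : IsRedMap R r)
    {g : SemilinearAut K F} (h : FixesRed R g) (P : Place K F) : r (g • P) = r P := by
  sorry

theorem IsRedMap.mapDomain_smul (hg : genusFF K F = genusFF k Fb) (hr : IsRedMap R r)
    {g : SemilinearAut K F} (h : FixesRed R g) (D : Divisor K F) :
    Finsupp.mapDomain r (g • D) = Finsupp.mapDomain r D := by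
  sorry

end Fermat.Agent.FLAT.Geo
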