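import Fermat.Agent.FLAT.Geo.JacMul
import Fermat.Agent.FLAT.Geo.JacColon
import Fermat.Agent.FLAT.Geo.RedBasic
import Fermat.Agent.FLAT.Geo.FamImage
import Fermat.Agent.FLAT.Geo.FamColon

/-!
# FLAT / Geo / PipeL : good families of Riemann-Roch spaces (products, colons, multiplication by a line)
-/

set_option autoImplicit false

namespace Fermat.Agent.FLAT.Geo

open AlgebraicCurve Fermat.Agent.Lib.RR Fermat.Agent.GAL.RED Module

section Line

variable {K F : Type*} [Field K] [Field F] [Algebra K F] [IsFF K F] [IsAlgClosed K]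

/-- `D ~ E ≥ 0` with `ℓ(E) = 1`: `L(D)` is a line and `L(D) L(D') = L(D' + D - E)`.
Proof: `D - E = div f`; `L(E) = K` (`RED.mem_range_of_ell_eq_one`), `L(D) = K f⁻¹`
(`u ∈ L(D) ↔ u f ∈ L(E)`); `span_singleton_mul_L`. -/
theorem L_line_mul {D E : Divisor K F} (hE : 0 ≤ E) (hE1 : ell E = 1)
    (hDE : D - E ∈ Divisor.principal (K := K) (F := F)) (D' : Divisor K F) :
    riemannRochSpace D * riemannRochSpace D' = riemannRochSpace (D' + D - E) := by
  sorry

end Line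

variable {K F k Fb : Type*} [Field K] [Field F] [Algebra K F] [Field k] [Field Fb] [Algebra k Fb]
variable [IsFF K F] [IsAlgClosed K] [IsFF k Fb] [IsAlgClosed k]
variable {R : RedData K F k Fb} {r : Place K F → Place k Fb}
variable {S : Type*} [Finite S] {𝓡 : Subalgebra R.A (S → K)}

/-- **Products.**  `IsGood.mul` + `L_mul_L` over `K` and over `k` + `redSub_L` + `degree_mapDomain` +
`ell_eq_of_lt_degree'` (take `e = n₁ + n₂ + 1 - g`). -/
theorem isGood_L_mul (hC : R.IsCartesian) (hg : genusFF K F = genusFF k Fb) (hr : IsRedMap R r)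
    (h𝓡 : IsIntegralValued R 𝓡) {D₁ D₂ : S → Divisor K F}
    (h₁ : IsGood R 𝓡 fun s => riemannRochSpace (D₁ s))
    (h₂ : IsGood R 𝓡 fun s => riemannRochSpace (D₂ s)) (n₁ n₂ : ℤ)
    (hd₁ : ∀ s, Divisor.degree (D₁ s) = n₁) (hd₂ : ∀ s, Divisor.degree (D₂ s) = n₂)
    (hn₂ : 2 * (genusFF K F : ℤ) ≤ n₂) (hn₁₂ : 2 * (genusFF K F : ℤ) - 1 ≤ n₁ - n₂) :
    IsGood R 𝓡 fun s => riemannRochSpace (D₁ s + D₂ s) := by
  sorry

/-- **Colons.**  `IsGood.colon` with `V = L(D)` + `colon_L` over `K` and over `k` + `redSub_L` +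
`RED.mapDomain_sub'`, `RED.mapDomain_mono`. -/
theorem isGood_L_colon (hC : R.IsCartesian) (hg : genusFF K F = genusFF k Fb) (hr : IsRedMap R r)
    (h𝓡 : IsIntegralValued R 𝓡) (D : Divisor K F) {C C' : S → Divisor K F}
    (h₁ : IsGood R 𝓡 fun s => riemannRochSpace (C s))
    (h₂ : IsGood R 𝓡 fun s => riemannRochSpace (C' s))
    (hD : 2 * (genusFF K F : ℤ) - 1 ≤ Divisor.degree D)
    (hCd : ∀ s, 2 * (genusFF K F : ℤ) ≤ Divisor.degree (C s))
    (hCd' : ∀ s, 2 * (genusFF K F : ℤ) - 1 ≤ Divisor.degree (C' s))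
    (hle : ∀ s, C' s - C s ≤ D) (e : ℕ) (he : ∀ s, e ≤ ell (C' s - C s))
    (he' : ∀ s, ell (Finsupp.mapDomain r (C' s - C s)) ≤ e) :
    IsGood R 𝓡 fun s => riemannRochSpace (C' s - C s) := by
  sorry

/-- **Multiplication by a line.**  `D s ~ E s ≥ 0` with `ℓ(r_* E s) = 1`; `D'` constant of degree
`≥ 2g - 1`.  `IsGood.mul` (with the constant family `L(D')`, `isGood_const`) + `L_line_mul` over `K`
(`1 ≤ ℓ(E s) ≤ ℓ(r_* E s) = 1`) and over `k` (`map_principal`, `RED.mapDomain_nonneg`);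
`redSub L(D s) = L(r_* D s)` by `redSub_L_of_ell_le` (`ell_eq_of_principal`). -/
theorem isGood_L_line_mul (hC : R.IsCartesian) (hg : genusFF K F = genusFF k Fb)
    (hr : IsRedMap R r) (h𝓡 : IsIntegralValued R 𝓡) {D E : S → Divisor K F} (D' : Divisor K F)
    (h₁ : IsGood R 𝓡 fun s => riemannRochSpace (D s)) (hE : ∀ s, 0 ≤ E s)
    (hE1 : ∀ s, ell (Finsupp.mapDomain r (E s)) = 1)
    (hDE : ∀ s, D s - E s ∈ Divisor.principal (K := K) (F := F))
    (hD' : 2 * (genusFF K F : ℤ) - 1 ≤ Divisor.degree D') :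
    IsGood R 𝓡 fun s => riemannRochSpace (D' + D s - E s) := by
  sorry

end Fermat.Agent.FLAT.Geo
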